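import Fermat.Agent.BR.Inv.Interface

/-!
# BR / Inv, package S0 : semi-local reduction data from a pair of independent INJ reduction data
-/

set_option autoImplicit false

namespace Fermat.Agent.BR.Inv

open Polynomial IntermediateField
open Fermat.Agent.INJ (IsInt LocPow RedData Arch)

section

variable {K F k Fb Fb' : Type*} [Field K] [Field F] [Algebra K F] [Field k] [Field Fb]
  [Algebra k Fb] [Field Fb'] [Algebra k Fb']

/-- an element of `K` outside `A` has inverse in `A` with reduction `0`. -/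
theorem S0_inv_of_not_mem (D : RedData K F k Fb) {a : K} (ha : a ∉ D.A) :
    a⁻¹ ∈ D.A ∧ D.ra a⁻¹ = 0 := by
  have h1 : a⁻¹ ∈ D.A := (D.A.mem_or_inv_mem a).resolve_left ha
  refine ⟨h1, ?_⟩
  by_contra h
  apply ha
  have h2 : D.rd (algebraMap K F a⁻¹) ≠ 0 := by
    rw [RedData.rd_algebraMap h1]
    exact fun h3 => h ((map_eq_zero _).1 h3)
  have h3 := RedData.inv_mem_of_rd_ne_zero h2
  rw [map_inv₀, inv_inv] at h3
  exact (D.mem_iff a).1 h3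

theorem S0_ra_mul (D : RedData K F k Fb) {a b : K} (ha : a ∈ D.A) (hb : b ∈ D.A) :
    D.ra (a * b) = D.ra a * D.ra b := by
  rw [RedData.ra_of_mem ha, RedData.ra_of_mem hb, RedData.ra_of_mem (mul_mem ha hb), ← map_mul]
  rfl

/-- the key step of weak approximation. -/
theorem S0_claim (D : RedData K F k Fb) (D' : RedData K F k Fb') (hArch : Arch D') (e : F)
    (he : e ∈ D.O) (he' : e ∈ D'.O) (h1 : D.rd e = 1) (h0 : D'.rd e = 0) (x : F) (hx : x ∈ D.O) :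
    ∃ y, y ∈ D.O ∧ y ∈ D'.O ∧ D.rd y = D.rd x ∧ D'.rd y = 0 := by
  by_cases hx0 : x = 0
  · subst hx0
    exact ⟨0, D.O.zero_mem, D'.O.zero_mem, rfl, RedData.rd_zero⟩
  have he0 : e ≠ 0 := by
    rintro rfl
    rw [RedData.rd_zero] at h1
    exact zero_ne_one h1
  obtain ⟨a, ha0, ha1, ha2⟩ := D'.unram e he0
  have haA : a ∉ D'.A := by
    intro haA
    have h2 : e * algebraMap K F a ≠ 0 := mul_ne_zero he0 ((_root_.map_ne_zero _).2 ha0)
    apply RedData.rd_ne_zero_of_inv_mem h2 ha1 ha2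
    rw [RedData.rd_mul he' (RedData.algebraMap_mem haA), h0, zero_mul]
  obtain ⟨hπ, hπ0⟩ := S0_inv_of_not_mem D' haA
  obtain ⟨c, hc0, hc1, -⟩ := D'.unram x hx0
  obtain ⟨n, hn⟩ := hArch a⁻¹ hπ hπ0 c hc0
  have hb : a⁻¹ * (a⁻¹ ^ n * c⁻¹) ∈ D'.A := mul_mem hπ hn
  have hb0 : D'.ra (a⁻¹ * (a⁻¹ ^ n * c⁻¹)) = 0 := by
    rw [S0_ra_mul D' hπ hn, hπ0, zero_mul]
  have hfa : algebraMap K F a ≠ 0 := (_root_.map_ne_zero _).2 ha0
  have hfc : algebraMap K F c ≠ 0 := (_root_.map_ne_zero _).2 hc0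
  have hy : x * e ^ (n + 1) = (x * algebraMap K F c) * (e * algebraMap K F a) ^ (n + 1) *
      algebraMap K F (a⁻¹ * (a⁻¹ ^ n * c⁻¹)) := by
    rw [map_mul, map_mul, map_pow, map_inv₀, map_inv₀, mul_pow, inv_pow,
      pow_succ (algebraMap K F a) n]
    field_simp
  have hm : (x * algebraMap K F c) * (e * algebraMap K F a) ^ (n + 1) ∈ D'.O :=
    mul_mem hc1 (pow_mem ha1 _)
  refine ⟨x * e ^ (n + 1), mul_mem hx (pow_mem he _), ?_, ?_, ?_⟩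
  · rw [hy]
    exact mul_mem hm (RedData.algebraMap_mem hb)
  · rw [RedData.rd_mul hx (pow_mem he _), RedData.rd_pow he, h1, one_pow, mul_one]
  · rw [hy, RedData.rd_mul hm (RedData.algebraMap_mem hb), RedData.rd_algebraMap hb, hb0, map_zero,
      mul_zero]

end

section

variable {K F k Fb₁ Fb₂ : Type*} [Field K] [Field F] [Algebra K F] [Field k] [Field Fb₁]
  [Algebra k Fb₁] [Field Fb₂] [Algebra k Fb₂]

theorem S0_arch₂ {D₁ : RedData K F k Fb₁} {D₂ : RedData K F k Fb₂} (hP : Pair D₁ D₂)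
    (hA : Arch D₁) : Arch D₂ := by
  intro π hπ h0 a ha
  rw [← hP.A_eq] at hπ ⊢
  rw [← hP.ra_eq] at h0
  exact hA π hπ h0 a ha

/-- weak approximation. -/
theorem S0_approx {D₁ : RedData K F k Fb₁} {D₂ : RedData K F k Fb₂} (hP : Pair D₁ D₂)
    (hA : Arch D₁) (y₁ : Fb₁) (y₂ : Fb₂) :
    ∃ x, x ∈ D₁.O ∧ x ∈ D₂.O ∧ D₁.rd x = y₁ ∧ D₂.rd x = y₂ := by
  obtain ⟨e, he1, he2, h1, h2⟩ := hP.sep
  obtain ⟨x₁, hx₁, rfl⟩ := RedData.exists_rd_eq (D := D₁) y₁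
  obtain ⟨x₂, hx₂, rfl⟩ := RedData.exists_rd_eq (D := D₂) y₂
  obtain ⟨z₁, a1, a2, a3, a4⟩ := S0_claim D₁ D₂ (S0_arch₂ hP hA) e he1 he2 h1 h2 x₁ hx₁
  obtain ⟨z₂, b1, b2, b3, b4⟩ := S0_claim D₂ D₁ hA (1 - e) (sub_mem D₂.O.one_mem he2)
    (sub_mem D₁.O.one_mem he1)
    (by rw [RedData.rd_sub D₂.O.one_mem he2, h2, RedData.rd_one, sub_zero])
    (by rw [RedData.rd_sub D₁.O.one_mem he1, h1, RedData.rd_one, sub_self]) x₂ hx₂
  refine ⟨z₁ + z₂, add_mem a1 b2, add_mem a2 b1, ?_, ?_⟩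
  · rw [RedData.rd_add a1 b2, a3, b4, add_zero]
  · rw [RedData.rd_add a2 b1, a4, b3, zero_add]

/-- the projection `O₁ ∩ O₂ → O₁`. -/
def S0_p₁ (D₁ : RedData K F k Fb₁) (D₂ : RedData K F k Fb₂) :
    ↥(D₁.O.toSubring ⊓ D₂.O.toSubring) →+* D₁.O where
  toFun x := ⟨x.1, x.2.1⟩
  map_one' := rfl
  map_mul' _ _ := rfl
  map_zero' := rfl
  map_add' _ _ := rfl

/-- the projection `O₁ ∩ O₂ → O₂`. -/
def S0_p₂ (D₁ : RedData K F k Fb₁) (D₂ : RedData K F k Fb₂) :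
    ↥(D₁.O.toSubring ⊓ D₂.O.toSubring) →+* D₂.O where
  toFun x := ⟨x.1, x.2.2⟩
  map_one' := rfl
  map_mul' _ _ := rfl
  map_zero' := rfl
  map_add' _ _ := rfl

/-- the reduction map `O₁ ∩ O₂ → Fb₁ × Fb₂`. -/
def S0_rO (D₁ : RedData K F k Fb₁) (D₂ : RedData K F k Fb₂) :
    ↥(D₁.O.toSubring ⊓ D₂.O.toSubring) →+* Fb₁ × Fb₂ :=
  (D₁.rO.comp (S0_p₁ D₁ D₂)).prod (D₂.rO.comp (S0_p₂ D₁ D₂))

theorem S0_rO_apply (D₁ : RedData K F k Fb₁) (D₂ : RedData K F k Fb₂) (x : F)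
    (h : x ∈ D₁.O.toSubring ⊓ D₂.O.toSubring) :
    S0_rO D₁ D₂ ⟨x, h⟩ = (D₁.rd x, D₂.rd x) := by
  rw [RedData.rd_of_mem (show x ∈ D₁.O from h.1), RedData.rd_of_mem (show x ∈ D₂.O from h.2)]
  rfl

/-- the semi-local datum attached to a pair. -/
def S0_data (D₁ : RedData K F k Fb₁) (D₂ : RedData K F k Fb₂) (hP : Pair D₁ D₂) (hA : Arch D₁) :
    SData K F k (Fb₁ × Fb₂) where
  A := D₁.A
  O := D₁.O.toSubring ⊓ D₂.O.toSubring
  rA := D₁.rA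
  rO := S0_rO D₁ D₂
  rA_surj := D₁.rA_surj
  rO_surj := by
    rintro ⟨y₁, y₂⟩
    obtain ⟨x, h1, h2, h3, h4⟩ := S0_approx hP hA y₁ y₂
    refine ⟨⟨x, Subring.mem_inf.2 ⟨h1, h2⟩⟩, ?_⟩
    rw [S0_rO_apply, h3, h4]
  mem_iff a := by
    constructor
    · intro h
      exact (D₁.mem_iff a).1 h.1
    · intro h
      exact ⟨(D₁.mem_iff a).2 h, (D₂.mem_iff a).2 (hP.A_eq ▸ h)⟩
  compat a ha h := by
    rw [S0_rO_apply, RedData.rd_algebraMap ha, RedData.rd_algebraMap (hP.A_eq ▸ ha), ← hP.ra_eq,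
      RedData.ra_of_mem ha]
    rfl
  unram x hx := by
    obtain ⟨a₁, h10, h11, h12⟩ := D₁.unram x hx
    obtain ⟨a₂, h20, h21, h22⟩ := D₂.unram x hx
    have hf1 : algebraMap K F a₁ ≠ 0 := (_root_.map_ne_zero _).2 h10
    have hf2 : algebraMap K F a₂ ≠ 0 := (_root_.map_ne_zero _).2 h20
    rcases D₁.A.mem_or_inv_mem (a₁ / a₂) with h | h
    · have h3 : x * algebraMap K F a₁ = (x * algebraMap K F a₂) * algebraMap K F (a₁ / a₂) := by
        rw [map_div₀]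
        field_simp
      have h4 : x * algebraMap K F a₁ ∈ D₂.O := by
        rw [h3]
        exact mul_mem h21 ((D₂.mem_iff _).2 (hP.A_eq ▸ h))
      refine ⟨a₁, h10, Subring.mem_inf.2 ⟨h11, h4⟩, ?_⟩
      rw [S0_rO_apply]
      intro h5
      exact RedData.rd_ne_zero_of_inv_mem (mul_ne_zero hx hf1) h11 h12 (congrArg Prod.fst h5)
    · rw [inv_div] at h
      have h3 : x * algebraMap K F a₂ = (x * algebraMap K F a₁) * algebraMap K F (a₂ / a₁) := by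
        rw [map_div₀]
        field_simp
      have h4 : x * algebraMap K F a₂ ∈ D₁.O := by
        rw [h3]
        exact mul_mem h11 ((D₁.mem_iff _).2 h)
      refine ⟨a₂, h20, Subring.mem_inf.2 ⟨h4, h21⟩, ?_⟩
      rw [S0_rO_apply]
      intro h5
      exact RedData.rd_ne_zero_of_inv_mem (mul_ne_zero hx hf2) h21 h22 (congrArg Prod.snd h5)
  unit x h hu := by
    rw [S0_rO_apply, Prod.isUnit_iff] at hu
    exact ⟨RedData.inv_mem_of_rd_ne_zero hu.1.ne_zero, RedData.inv_mem_of_rd_ne_zero hu.2.ne_zero⟩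

end

/-- **S0**. -/
theorem stmt_OfPair : Stmt_OfPair := by
  intro K F k Fb₁ Fb₂ _ _ _ _ _ _ _ _ D₁ D₂ hP hA
  have hrd : ∀ x ∈ (S0_data D₁ D₂ hP hA).O, (S0_data D₁ D₂ hP hA).rd x = (D₁.rd x, D₂.rd x) := by
    intro x hx
    rw [SData.rd_of_mem hx]
    exact S0_rO_apply D₁ D₂ x hx
  refine ⟨S0_data D₁ D₂ hP hA, rfl, fun a => rfl, fun x => Iff.rfl, hrd, ?_, ?_⟩
  · intro π hπ h0 a ha
    exact hA π hπ h0 a ha
  · intro t ht h1 h2 p hp
    rw [hrd t ht, Prod.isUnit_iff]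
    constructor
    · have h3 : (aeval ((D₁.rd t, D₂.rd t) : Fb₁ × Fb₂) p).1 = aeval (D₁.rd t) p :=
        (Polynomial.aeval_algHom_apply (AlgHom.fst k Fb₁ Fb₂) (D₁.rd t, D₂.rd t) p).symm
      rw [h3]
      exact isUnit_iff_ne_zero.2 fun h => hp ((transcendental_iff.1 h1) p h)
    · have h3 : (aeval ((D₁.rd t, D₂.rd t) : Fb₁ × Fb₂) p).2 = aeval (D₂.rd t) p :=
        (Polynomial.aeval_algHom_apply (AlgHom.snd k Fb₁ Fb₂) (D₁.rd t, D₂.rd t) p).symm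
      rw [h3]
      exact isUnit_iff_ne_zero.2 fun h => hp ((transcendental_iff.1 h2) p h)

end Fermat.Agent.BR.Inv
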