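import Fermat.Agent.BR.Inv.TCInterface

/-!
# BR / Inv, package TC7 : integrality over `K[x y]`, `K[(x y)⁻¹]` from a modular equation
-/

set_option autoImplicit false

namespace Fermat.Agent.BR.Inv

open Polynomial
open Fermat.Agent.INJ (IsInt)

/-- the polynomial `X ^ (a + D) + ∑_{i < a} ∑_{e ≤ D} r i e X ^ (D - e + i)`. -/
noncomputable def TC7_P {R : Type*} [CommRing R] (a D : ℕ) (r : ℕ → ℕ → R) : R[X] :=
  X ^ (a + D) + ∑ i ∈ Finset.range a, ∑ e ∈ Finset.range (D + 1), C (r i e) * X ^ (D - e + i)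

theorem TC7_degree_lt {R : Type*} [CommRing R] (a D : ℕ) (r : ℕ → ℕ → R) :
    (∑ i ∈ Finset.range a, ∑ e ∈ Finset.range (D + 1), C (r i e) * X ^ (D - e + i)).degree
      < ((a + D : ℕ) : WithBot ℕ) := by
  rw [← mem_degreeLT]
  refine Submodule.sum_mem _ fun i hi => Submodule.sum_mem _ fun e _ => ?_
  rw [mem_degreeLT]
  refine (degree_C_mul_X_pow_le _ _).trans_lt ?_
  have := Finset.mem_range.1 hi
  exact_mod_cast (by omega : D - e + i < a + D)

theorem TC7_monic {R : Type*} [CommRing R] (a D : ℕ) (r : ℕ → ℕ → R) : (TC7_P a D r).Monic :=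
  monic_X_pow_add (TC7_degree_lt a D r)

theorem TC7_natDegree {R : Type*} [CommRing R] [Nontrivial R] (a D : ℕ) (r : ℕ → ℕ → R) :
    (TC7_P a D r).natDegree = a + D := by
  have h := TC7_degree_lt a D r
  unfold TC7_P
  rw [natDegree_add_eq_left_of_degree_lt (by rw [degree_X_pow]; exact h), natDegree_X_pow]

theorem TC7_aeval {R F : Type*} [CommRing R] [CommRing F] [Algebra R F] (a D : ℕ) (r : ℕ → ℕ → R)
    (z : F) : aeval z (TC7_P a D r) = z ^ (a + D) + ∑ i ∈ Finset.range a,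
      ∑ e ∈ Finset.range (D + 1), algebraMap R F (r i e) * z ^ (D - e + i) := by
  simp [TC7_P, map_sum]

/-- expansion of a monic two variable polynomial. -/
theorem TC7_expand {K F : Type*} [Field K] [Field F] [Algebra K F] (x y : F) (Φ : K[X][X]) (D : ℕ)
    (hm : Φ.Monic) (hD : ∀ i, (Φ.coeff i).natDegree ≤ D) :
    Φ.eval₂ ((aeval y : K[X] →ₐ[K] F) : K[X] →+* F) x = x ^ Φ.natDegree
      + ∑ i ∈ Finset.range Φ.natDegree, ∑ e ∈ Finset.range (D + 1),
        algebraMap K F ((Φ.coeff i).coeff e) * y ^ e * x ^ i := by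
  rw [eval₂_eq_sum_range, Finset.sum_range_succ, hm.coeff_natDegree, map_one, one_mul, add_comm]
  congr 1
  refine Finset.sum_congr rfl fun i _ => ?_
  have h1 : ((aeval y : K[X] →ₐ[K] F) : K[X] →+* F) (Φ.coeff i)
      = ∑ e ∈ Finset.range (D + 1), (Φ.coeff i).coeff e • y ^ e :=
    aeval_eq_sum_range' (Nat.lt_succ_of_le (hD i)) y
  rw [h1, Finset.sum_mul]
  refine Finset.sum_congr rfl fun e _ => ?_
  rw [Algebra.smul_def]

/-- **TC7.** -/
theorem stmt_TCPhi : Stmt_TCPhi := by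
  intro K F _ _ _ x y Φ D hx hm hD h0
  let τ : Algebra.adjoin K {x * y} := ⟨x * y, Algebra.subset_adjoin rfl⟩
  let r : ℕ → ℕ → Algebra.adjoin K {x * y} := fun i e =>
    algebraMap K _ ((Φ.coeff i).coeff e) * τ ^ e
  refine ⟨TC7_P Φ.natDegree D r, TC7_monic _ _ _, TC7_natDegree _ _ _, ?_⟩
  rw [TC7_aeval]
  rw [TC7_expand x y Φ D hm hD] at h0
  have h1 : x ^ (Φ.natDegree + D) + ∑ i ∈ Finset.range Φ.natDegree,
      ∑ e ∈ Finset.range (D + 1), algebraMap (Algebra.adjoin K {x * y}) F (r i e) * x ^ (D - e + i)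
      = x ^ D * (x ^ Φ.natDegree + ∑ i ∈ Finset.range Φ.natDegree, ∑ e ∈ Finset.range (D + 1),
        algebraMap K F ((Φ.coeff i).coeff e) * y ^ e * x ^ i) := by
    rw [mul_add, Finset.mul_sum, pow_add, mul_comm (x ^ Φ.natDegree)]
    congr 1
    refine Finset.sum_congr rfl fun i _ => ?_
    rw [Finset.mul_sum]
    refine Finset.sum_congr rfl fun e he => ?_
    have he' : e ≤ D := Nat.lt_succ_iff.1 (Finset.mem_range.1 he)
    have h2 : algebraMap (Algebra.adjoin K {x * y}) F (r i e)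
        = algebraMap K F ((Φ.coeff i).coeff e) * (x * y) ^ e := rfl
    have h3 : x ^ D = x ^ e * x ^ (D - e) := by rw [← pow_add, Nat.add_sub_cancel' he']
    rw [h2, h3, pow_add, mul_pow]
    ring
  rw [h1, h0, mul_zero]

/-- **TC7'.** -/
theorem stmt_TCPhiInv : Stmt_TCPhiInv := by
  intro K F _ _ _ x y Φ hx hy hm h0
  obtain ⟨D, hD⟩ : ∃ D : ℕ, ∀ i, (Φ.coeff i).natDegree ≤ D := by
    refine ⟨Φ.support.sup fun i => (Φ.coeff i).natDegree, fun i => ?_⟩
    by_cases hi : i ∈ Φ.support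
    · exact Finset.le_sup (f := fun i => (Φ.coeff i).natDegree) hi
    · rw [notMem_support_iff.1 hi, natDegree_zero]
      exact Nat.zero_le _
  let τ : Algebra.adjoin K {(x * y)⁻¹} := ⟨(x * y)⁻¹, Algebra.subset_adjoin rfl⟩
  let r : ℕ → ℕ → Algebra.adjoin K {(x * y)⁻¹} := fun i e =>
    algebraMap K _ ((Φ.coeff i).coeff e) * τ ^ (Φ.natDegree - i)
  refine ⟨TC7_P Φ.natDegree D r, TC7_monic _ _ _, ?_⟩
  rw [← aeval_def, TC7_aeval]
  rw [TC7_expand y x Φ D hm hD] at h0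
  have h1 : x⁻¹ ^ (Φ.natDegree + D) + ∑ i ∈ Finset.range Φ.natDegree,
      ∑ e ∈ Finset.range (D + 1),
        algebraMap (Algebra.adjoin K {(x * y)⁻¹}) F (r i e) * x⁻¹ ^ (D - e + i)
      = (x * y)⁻¹ ^ Φ.natDegree * x⁻¹ ^ D * (y ^ Φ.natDegree + ∑ i ∈ Finset.range Φ.natDegree,
        ∑ e ∈ Finset.range (D + 1), algebraMap K F ((Φ.coeff i).coeff e) * x ^ e * y ^ i) := by
    rw [mul_add, Finset.mul_sum]
    congr 1
    · rw [pow_add, mul_inv, mul_pow]
      have : y⁻¹ ^ Φ.natDegree * y ^ Φ.natDegree = 1 := by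
        rw [← mul_pow, inv_mul_cancel₀ hy, one_pow]
      linear_combination (- x⁻¹ ^ Φ.natDegree * x⁻¹ ^ D) * this
    · refine Finset.sum_congr rfl fun i hi => ?_
      have hi' : i ≤ Φ.natDegree := (Finset.mem_range.1 hi).le
      rw [Finset.mul_sum]
      refine Finset.sum_congr rfl fun e he => ?_
      have he' : e ≤ D := Nat.lt_succ_iff.1 (Finset.mem_range.1 he)
      have h2 : algebraMap (Algebra.adjoin K {(x * y)⁻¹}) F (r i e)
          = algebraMap K F ((Φ.coeff i).coeff e) * (x * y)⁻¹ ^ (Φ.natDegree - i) := rfl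
      have h3 : x⁻¹ ^ D = x⁻¹ ^ e * x⁻¹ ^ (D - e) := by rw [← pow_add, Nat.add_sub_cancel' he']
      have h4 : (x * y)⁻¹ ^ Φ.natDegree = (x * y)⁻¹ ^ i * (x * y)⁻¹ ^ (Φ.natDegree - i) := by
        rw [← pow_add, Nat.add_sub_cancel' hi']
      have h5 : x⁻¹ ^ e * x ^ e = 1 := by rw [← mul_pow, inv_mul_cancel₀ hx, one_pow]
      have h6 : (x * y)⁻¹ ^ i * y ^ i = x⁻¹ ^ i := by
        rw [← mul_pow]
        congr 1
        field_simp
      rw [h2, h3, h4, pow_add]
      generalize (x * y)⁻¹ ^ (Φ.natDegree - i) = A at *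
      generalize x⁻¹ ^ (D - e) = B at *
      generalize algebraMap K F ((Φ.coeff i).coeff e) = c at *
      rw [← h6]
      linear_combination (- c * A * B * ((x * y)⁻¹ ^ i * y ^ i)) * h5
  rw [h1, h0, mul_zero]

end Fermat.Agent.BR.Inv
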