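import Fermat.Agent.BR.Inv.TCInterface

/-!
# BR / Inv / TC1 (helper77): the two reduction data are independent
-/

set_option autoImplicit false

namespace Fermat.Agent.BR.Inv

open Polynomial IntermediateField
open Fermat.Agent.INJ (IsInt LocPow RedData Arch Chart)

theorem TC1_sub_pow_ne_zero {k L : Type} [Field k] [Field L] [Algebra k L] (X : L)
    (hX : Transcendental k X) (n : ℕ) (hn : 2 ≤ n) : X - X ^ n ≠ 0 := by
  intro h
  have h1 : aeval X ((Polynomial.X : k[X]) - Polynomial.X ^ n) = 0 := by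
    rw [map_sub, map_pow, aeval_X, h]
  have h2 := (transcendental_iff.mp hX) _ h1
  have h3 := congrArg (fun p : k[X] => p.coeff 1) h2
  simp only [coeff_sub, coeff_X_one, coeff_X_pow, coeff_zero] at h3
  rw [if_neg (by omega)] at h3
  simp at h3

theorem stmt_TCPair : Stmt_TCPair := by
  intro K F' F k L L₁ _ _ _ _ _ _ _ _ _ _ D' D₁ D₂ ι₁ ι₂ j Fr φb r h x hx hX hφ
  have hFrX : Fr (D'.rd x) = D'.rd x ^ r := by
    conv_lhs => rw [← hφ]
    exact h.frob _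
  have hxr : x ^ r ∈ D'.O := pow_mem hx r
  have hrdxr : D'.rd (x ^ r) = D'.rd x ^ r := RedData.rd_pow hx r
  have hY : D'.rd x - D'.rd x ^ (r * r) ≠ 0 :=
    TC1_sub_pow_ne_zero _ hX _ (by nlinarith [h.two_le])
  obtain ⟨c, hc, hcY⟩ := RedData.exists_rd_eq (D := D') (D'.rd x - D'.rd x ^ (r * r))⁻¹
  refine ⟨h.A₁.trans h.A₂.symm, fun a => (h.ra₁ a).trans (h.ra₂ a).symm,
    (ι₁ x - ι₂ (x ^ r)) * ι₁ c, ?_, ?_, ?_, ?_⟩
  · exact mul_mem (sub_mem (h.c11 x hx).1 (h.c12 _ hxr).1) (h.c11 c hc).1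
  · exact mul_mem (sub_mem (h.c21 x hx).1 (h.c22 _ hxr).1) (h.c21 c hc).1
  · rw [RedData.rd_mul (sub_mem (h.c11 x hx).1 (h.c12 _ hxr).1) (h.c11 c hc).1,
      RedData.rd_sub (h.c11 x hx).1 (h.c12 _ hxr).1, (h.c11 x hx).2, (h.c12 _ hxr).2,
      (h.c11 c hc).2, hrdxr, map_pow, hFrX, ← pow_mul, hcY, ← map_sub, ← map_mul,
      mul_inv_cancel₀ hY, map_one]
  · rw [RedData.rd_mul (sub_mem (h.c21 x hx).1 (h.c22 _ hxr).1) (h.c21 c hc).1,
      RedData.rd_sub (h.c21 x hx).1 (h.c22 _ hxr).1, (h.c21 x hx).2, (h.c22 _ hxr).2,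
      hrdxr, hFrX, sub_self, zero_mul]

end Fermat.Agent.BR.Inv
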