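import Fermat.Agent.BR.Inv.TCInterface

/-!
# BR / Inv / TC2 : the family `(X^i a_l, 0), (0, X^i a_l)`, `i ≤ r`, is independent over `k[τ]`,
`τ = (X^(r+1), X^(r+1))`  (helper86)
-/

set_option autoImplicit false

namespace Fermat.Agent.BR.Inv

open Polynomial IntermediateField

/-- `1, X, …, X^r` are independent over `k[X^(r+1)]`. -/
theorem TC2_poly {k : Type} [Field k] (r : ℕ) (Q : Fin (r + 1) → k[X])
    (h : ∑ i, expand k (r + 1) (Q i) * X ^ (i : ℕ) = 0) : ∀ i, Q i = 0 := by
  intro i₀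
  ext e
  have h1 := congrArg (fun p : k[X] => p.coeff ((r + 1) * e + i₀)) h
  simp only [finsetSum_coeff, coeff_mul_X_pow', coeff_expand (Nat.succ_pos r), coeff_zero] at h1
  rw [Finset.sum_eq_single i₀] at h1
  · rw [if_pos (Nat.le_add_left _ _), Nat.add_sub_cancel, if_pos (Nat.dvd_mul_right _ _),
      Nat.mul_div_cancel_left _ (Nat.succ_pos r)] at h1
    rw [h1, coeff_zero]
  · intro i _ hi
    by_cases hle : (i : ℕ) ≤ (r + 1) * e + i₀
    · rw [if_pos hle, if_neg]
      rintro ⟨c, hc⟩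
      apply hi
      have hc' : (r + 1) * e + i₀ - i = (r + 1) * c := hc
      have h2 : (r + 1) * e + i₀ = (r + 1) * c + i := by omega
      have h3 := congrArg (· % (r + 1)) h2
      simp only [Nat.mul_add_mod, Nat.mod_eq_of_lt i₀.2, Nat.mod_eq_of_lt i.2] at h3
      exact Fin.ext h3.symm
    · rw [if_neg hle]
  · intro hn
    exact absurd (Finset.mem_univ _) hn

theorem TC2_aeval_prod {k L : Type} [Field k] [Field L] [Algebra k L] (x y : L) (P : k[X]) :
    (aeval ((x, y) : L × L) P) = (aeval x P, aeval y P) :=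
  Prod.ext (aeval_algHom_apply (AlgHom.fst k L L) (x, y) P).symm
    (aeval_algHom_apply (AlgHom.snd k L L) (x, y) P).symm

theorem TC2_half {k L : Type} [Field k] [Field L] [Algebra k L] (X : L) (r n' : ℕ)
    (a : Fin n' → L) (hX : Transcendental k X) (ha : LinearIndependent k⟮X⟯ a)
    (P : Fin (r + 1) × Fin n' → k[X])
    (h : ∑ y : Fin (r + 1) × Fin n', aeval (X ^ (r + 1)) (P y) * (X ^ (y.1 : ℕ) * a y.2) = 0) :
    ∀ y, P y = 0 := by
  let p : Fin n' → k[X] := fun l => ∑ i : Fin (r + 1), expand k (r + 1) (P (i, l)) *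
    Polynomial.X ^ (i : ℕ)
  have hp : ∀ l, aeval X (p l) = ∑ i : Fin (r + 1), aeval (X ^ (r + 1)) (P (i, l)) * X ^ (i : ℕ) := by
    intro l
    simp only [p, map_sum, map_mul, map_pow, aeval_X, expand_aeval]
  let c : Fin n' → k⟮X⟯ := fun l =>
    ⟨aeval X (p l), IntermediateField.algebra_adjoin_le_adjoin k {X}
      (aeval_mem_adjoin_singleton k X)⟩
  have hc : ∑ l, c l • a l = 0 := by
    have h1 : ∀ l, c l • a l = aeval X (p l) * a l := fun l => rfl
    simp only [h1, hp, Finset.sum_mul]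
    rw [Finset.sum_comm, ← h, Fintype.sum_prod_type]
    refine Finset.sum_congr rfl fun i _ => Finset.sum_congr rfl fun l _ => ?_
    rw [mul_assoc]
  have h2 := Fintype.linearIndependent_iff.1 ha c hc
  have h3 : ∀ l, p l = 0 := fun l =>
    by_contra fun hne => (transcendental_iff.1 hX (p l) (congrArg Subtype.val (h2 l)) |> hne)
  rintro ⟨i, l⟩
  exact TC2_poly r (fun i => P (i, l)) (h3 l) i

/-- **TC2.** -/
theorem stmt_TCIndep : Stmt_TCIndep := by
  intro k L _ _ _ X r n' a hX ha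
  rw [Fintype.linearIndependent_iff]
  intro g hg
  have hex : ∀ p, ∃ P : k[X], aeval ((X ^ (r + 1), X ^ (r + 1)) : L × L) P = (g p : L × L) :=
    fun p => (mem_adjoin_iff _ _).1 (g p).2
  choose P hP using hex
  have hs : ∀ (c : Algebra.adjoin k {((X ^ (r + 1), X ^ (r + 1)) : L × L)}) (w : L × L),
      c • w = (c : L × L) * w := fun _ _ => rfl
  simp only [hs, ← hP, TC2_aeval_prod] at hg
  rw [Fintype.sum_prod_type, Fin.sum_univ_two] at hg
  simp only [if_true, Fin.isValue, one_ne_zero, if_false, Prod.mk_mul_mk, mul_zero] at hg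
  have h1 := congrArg Prod.fst hg
  have h2 := congrArg Prod.snd hg
  simp only [Prod.fst_add, Prod.snd_add, Prod.fst_sum, Prod.snd_sum, Finset.sum_const_zero,
    add_zero, zero_add, Prod.fst_zero, Prod.snd_zero] at h1 h2
  have k1 := TC2_half X r n' a hX ha (fun y => P (0, y)) h1
  have k2 := TC2_half X r n' a hX ha (fun y => P (1, y)) h2
  rintro ⟨x, y⟩
  refine Subtype.ext ?_
  rw [← hP]
  have : P (x, y) = 0 := by
    fin_cases x
    · exact k1 y
    · exact k2 y
  rw [this, map_zero]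
  rfl

end Fermat.Agent.BR.Inv
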