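import Fermat.Agent.BR.Inv.TCInterface

/-!
# BR / Inv / TC3 (helper25): `T = ι₁ x * ι₂ x` is a good coordinate and `j` is onto
-/

set_option autoImplicit false

namespace Fermat.Agent.BR.Inv

open Polynomial IntermediateField
open Fermat.Agent.INJ (IsInt LocPow RedData Arch Chart)

/-- push forward of a `k[σ]`-independent family by an injective algebra homomorphism. -/
theorem TC3_li_map {k E E' ι : Type*} [Field k] [CommRing E] [Algebra k E] [CommRing E']
    [Algebra k E'] [Fintype ι] (J : E →ₐ[k] E') (hJ : Function.Injective J) (σ : E) (e : ι → E)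
    (h : LinearIndependent (Algebra.adjoin k {σ}) e) :
    LinearIndependent (Algebra.adjoin k {J σ}) (fun i => J (e i)) := by
  rw [Fintype.linearIndependent_iff] at h ⊢
  intro c hc i
  have hP : ∀ i, ∃ P : k[X], aeval (J σ) P = (c i : E') := fun i => (mem_adjoin_iff _ _).1 (c i).2
  choose P hP using hP
  have h1 : J (∑ i, aeval σ (P i) * e i) = 0 := by
    rw [map_sum, ← hc]
    refine Finset.sum_congr rfl fun i _ => ?_
    rw [map_mul, ← aeval_algHom_apply, hP]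
    rfl
  have h2 : ∑ i, aeval σ (P i) * e i = 0 := hJ (by rw [h1, map_zero])
  have h3 := h (fun i => ⟨aeval σ (P i), aeval_mem_adjoin σ _⟩) h2 i
  have h4 : aeval σ (P i) = 0 := congrArg Subtype.val h3
  apply Subtype.ext
  rw [← hP, aeval_algHom_apply, h4, map_zero]
  rfl

/-- nonzero polynomials in `(Y, Y)`, `Y` transcendental, are units of `L × L`. -/
theorem TC3_isUnit_aeval {k L : Type*} [Field k] [Field L] [Algebra k L] {Y : L}
    (hY : Transcendental k Y) (p : k[X]) (hp : p ≠ 0) : IsUnit (aeval ((Y, Y) : L × L) p) := by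
  have h0 : aeval Y p ≠ 0 := fun h => hp ((transcendental_iff.1 hY) p h)
  rw [Prod.isUnit_iff]
  constructor
  · have : (aeval ((Y, Y) : L × L) p).1 = aeval Y p :=
      (aeval_algHom_apply (AlgHom.fst k L L) ((Y, Y) : L × L) p).symm
    rw [this]
    exact isUnit_iff_ne_zero.2 h0
  · have : (aeval ((Y, Y) : L × L) p).2 = aeval Y p :=
      (aeval_algHom_apply (AlgHom.snd k L L) ((Y, Y) : L × L) p).symm
    rw [this]
    exact isUnit_iff_ne_zero.2 h0

theorem stmt_TCChart (h1 : Stmt_SGauss) (h2 : Stmt_SOrtho) (hI : Stmt_TCIndep) : Stmt_TCChart := by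
  intro K F' F k L L₁ _ _ _ _ _ _ _ _ _ _ D' D₁ D₂ ι₁ ι₂ j Fr φb r H S HS x hc hφ hfin hle
  have hjinj : Function.Injective j := (j : L →+* L₁).injective
  have hFrX : Fr (D'.rd x) = D'.rd x ^ r := by
    have := H.frob (D'.rd x)
    rwa [hφ] at this
  obtain ⟨m11, r11⟩ := H.c11 x hc.t_mem
  obtain ⟨m12, r12⟩ := H.c12 x hc.t_mem
  obtain ⟨m21, r21⟩ := H.c21 x hc.t_mem
  obtain ⟨m22, r22⟩ := H.c22 x hc.t_mem
  have hT1 : ι₁ x * ι₂ x ∈ D₁.O := mul_mem m11 m12
  have hT2 : ι₁ x * ι₂ x ∈ D₂.O := mul_mem m21 m22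
  have hT : ι₁ x * ι₂ x ∈ S.O := (HS.mem _).2 ⟨hT1, hT2⟩
  have hr1 : D₁.rd (ι₁ x * ι₂ x) = j (D'.rd x ^ (r + 1)) := by
    rw [RedData.rd_mul m11 m12, r11, r12, hFrX, ← map_mul, ← pow_succ']
  have hr2 : D₂.rd (ι₁ x * ι₂ x) = j (D'.rd x ^ (r + 1)) := by
    rw [RedData.rd_mul m21 m22, r21, r22, hFrX, ← map_mul, ← pow_succ]
  have hY : Transcendental k (D'.rd x ^ (r + 1)) := hc.trans.pow (Nat.succ_pos r)
  have hjY : Transcendental k (j (D'.rd x ^ (r + 1))) :=
    fun h => hY ((isAlgebraic_algHom_iff j hjinj).1 h)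
  let J : L × L →ₐ[k] L₁ × L₁ := AlgHom.prodMap j j
  have hJinj : Function.Injective J := Function.Injective.prodMap hjinj hjinj
  have hτ : S.rd (ι₁ x * ι₂ x) = J (D'.rd x ^ (r + 1), D'.rd x ^ (r + 1)) := by
    rw [HS.rd _ hT, hr1, hr2]
    rfl
  have hunit : ∀ p : k[X], p ≠ 0 → IsUnit (aeval (S.rd (ι₁ x * ι₂ x)) p) :=
    HS.unit _ hT (hr1 ▸ hjY) (hr2 ▸ hjY)
  obtain ⟨a, ha⟩ := hc.deg
  have hfam := hI k L (D'.rd x) r _ a hc.trans ha
  have hli := TC3_li_map J hJinj _ _ hfam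
  rw [← hτ] at hli
  have hcard : Fintype.card (Fin 2 × Fin (r + 1) × Fin (Module.finrank K⟮x⟯ F'))
      = 2 * ((r + 1) * Module.finrank K⟮x⟯ F') := by
    simp [Fintype.card_prod]
  refine ⟨⟨hT, hunit, hfin, ?_⟩, ?_⟩
  · obtain ⟨g⟩ := Function.Embedding.nonempty_of_card_le
      (α := Fin (Module.finrank K⟮ι₁ x * ι₂ x⟯ F))
      (β := Fin 2 × Fin (r + 1) × Fin (Module.finrank K⟮x⟯ F'))
      (by rw [hcard, Fintype.card_fin]; exact hle)
    exact ⟨_, hli.comp g g.injective⟩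
  · -- lift the family
    have hlift : ∀ p : Fin 2 × Fin (r + 1) × Fin (Module.finrank K⟮x⟯ F'),
        ∃ e ∈ S.O, S.rd e = J (if p.1 = 0
        then ((D'.rd x ^ (p.2.1 : ℕ) * a p.2.2, 0) : L × L)
        else ((0, D'.rd x ^ (p.2.1 : ℕ) * a p.2.2) : L × L)) :=
      fun p => SData.exists_rd_eq _
    choose e heO hee using hlift
    have hli' : LinearIndependent (Algebra.adjoin k {S.rd (ι₁ x * ι₂ x)})
        (fun p => S.rd (e p)) := by
      have : (fun p => S.rd (e p)) = _ := funext hee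
      rw [this]
      exact hli
    obtain ⟨hind, hcoef⟩ := h2 K F k (L₁ × L₁) S _ hT hunit _ e heO hli'
    obtain ⟨g1, -, -, -, -, g6, -⟩ := h1 K F k (L₁ × L₁) S _ hT hunit
    have hcard' : Fintype.card (Fin 2 × Fin (r + 1) × Fin (Module.finrank K⟮x⟯ F'))
        = Module.finrank K⟮ι₁ x * ι₂ x⟯ F :=
      le_antisymm hind.fintype_card_le_finrank (hcard ▸ hle)
    have hspan := hind.span_eq_top_of_card_eq_finrank' hcard'
    -- coefficients reduce into the range of `J`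
    have hc_range : ∀ c : K⟮ι₁ x * ι₂ x⟯, (c : F) ∈ S.O → S.rd (c : F) ∈ J.range := by
      intro c hcO
      obtain ⟨P, Q, hQ, hPQ⟩ := g6 c hcO
      have e1 := congrArg S.rd hPQ
      rw [SData.rd_mul hcO (g1 Q).1, (g1 Q).2, (g1 P).2, hτ, aeval_algHom_apply,
        aeval_algHom_apply] at e1
      obtain ⟨u, hu⟩ := TC3_isUnit_aeval hY _ hQ
      rw [← hu] at e1
      refine ⟨aeval ((D'.rd x ^ (r + 1), D'.rd x ^ (r + 1)) : L × L) (P.map S.rA)
        * ((u⁻¹ : (L × L)ˣ) : L × L), ?_⟩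
      show J _ = _
      rw [map_mul, ← e1, mul_assoc, ← map_mul, Units.mul_inv, map_one, mul_one]
    intro y
    obtain ⟨z, hzO, hz⟩ := SData.exists_rd_eq (S := S) ((y, 0) : L₁ × L₁)
    have hzspan : z ∈ Submodule.span K⟮ι₁ x * ι₂ x⟯ (Set.range e) := by
      rw [hspan]; trivial
    obtain ⟨c, hcz⟩ := (Submodule.mem_span_range_iff_exists_fun _).1 hzspan
    have hcz' : ∑ p, (c p : F) * e p = z := hcz
    have hcO := hcoef c (hcz' ▸ hzO)
    have hzr : S.rd z ∈ J.range := by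
      rw [← hcz', SData.rd_sum _ _ fun p _ => mul_mem (hcO p) (heO p)]
      refine Subalgebra.sum_mem _ fun p _ => ?_
      rw [SData.rd_mul (hcO p) (heO p)]
      exact mul_mem (hc_range _ (hcO p)) ⟨_, (hee p).symm⟩
    obtain ⟨g, hg⟩ := hzr
    rw [hz] at hg
    exact ⟨g.1, congrArg Prod.fst hg⟩

end Fermat.Agent.BR.Inv
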