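import Fermat.Agent.BR.Inv.TCInterface

/-!
# BR / Inv / TC : package TC4.  Lifts of the generators `(a, Fr a)`, `(Fr a, a)`.
-/

set_option autoImplicit false

namespace Fermat.Agent.BR.Inv

open Polynomial IntermediateField
open Fermat.Agent.INJ (IsInt LocPow RedData Arch Chart)

/-- LEMMA A : transport of integrality by a `K`-algebra homomorphism. -/
theorem TC4_map {K F' F : Type*} [Field K] [Field F'] [Algebra K F'] [Field F] [Algebra K F]
    (ι : F' →ₐ[K] F) {x z : F'} (h : IsInt K x z) : IsInt K (ι x) (ι z) := by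
  have hmem : ∀ y ∈ Algebra.adjoin K {x}, ι y ∈ Algebra.adjoin K {ι x} := by
    intro y hy
    induction hy using Algebra.adjoin_induction with
    | mem y hy => rw [Set.mem_singleton_iff.1 hy]; exact Algebra.subset_adjoin rfl
    | algebraMap c => rw [AlgHom.commutes]; exact Subalgebra.algebraMap_mem _ _
    | add y w _ _ hy hw => rw [map_add]; exact add_mem hy hw
    | mul y w _ _ hy hw => rw [map_mul]; exact mul_mem hy hw
  exact IsIntegral.map_of_comp_eq ((ι : F' →+* F).restrict _ _ hmem) (ι : F' →+* F)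
    (by ext; rfl) h

/-- LEMMA B : transitivity of integrality. -/
theorem TC4_trans {K F : Type*} [Field K] [Field F] [Algebra K F] {T x z : F}
    (h1 : IsInt K T x) (h2 : IsInt K x z) : IsInt K T z := by
  have hle : Algebra.adjoin K {x} ≤
      (integralClosure (Algebra.adjoin K {T}) F).restrictScalars K :=
    Algebra.adjoin_le (Set.singleton_subset_iff.2 h1)
  have hmem : ∀ y ∈ Algebra.adjoin K {x},
      (RingHom.id F) y ∈ integralClosure (Algebra.adjoin K {T}) F := fun y hy => hle hy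
  have h3 : IsIntegral (integralClosure (Algebra.adjoin K {T}) F) z :=
    IsIntegral.map_of_comp_eq ((RingHom.id F).restrict _ _ hmem) (RingHom.id F) (by ext; rfl) h2
  exact isIntegral_trans (R := Algebra.adjoin K {T})
    (A := integralClosure (Algebra.adjoin K {T}) F) z h3

theorem stmt_TCLift : Stmt_TCLift := by
  intro K F' F k L L₁ _ _ _ _ _ _ _ _ _ _ D' D₁ D₂ ι₁ ι₂ j Fr φb r hTC S hS x hN hi₁ hi₂ a ha
  obtain ⟨y, hyO, hyi, rfl⟩ := hN a ha
  obtain ⟨m11, r11⟩ := hTC.c11 y hyO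
  obtain ⟨m12, r12⟩ := hTC.c12 y hyO
  obtain ⟨m21, r21⟩ := hTC.c21 y hyO
  obtain ⟨m22, r22⟩ := hTC.c22 y hyO
  have hm1 : ι₁ y ∈ S.O := (hS.mem _).2 ⟨m11, m21⟩
  have hm2 : ι₂ y ∈ S.O := (hS.mem _).2 ⟨m12, m22⟩
  refine ⟨⟨ι₁ y, hm1, TC4_trans hi₁ (TC4_map ι₁ hyi), ?_⟩,
    ⟨ι₂ y, hm2, TC4_trans hi₂ (TC4_map ι₂ hyi), ?_⟩⟩
  · rw [hS.rd _ hm1, r11, r21]
  · rw [hS.rd _ hm2, r12, r22]

end Fermat.Agent.BR.Inv
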