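import Fermat.Agent.BR.Inv.TCInterface

/-!
# BR / Inv / TC5 : the ideal `I` generated by the `a - Fr (Fr a)` is radical, `I × I ⊆ Bb`.
helper83
-/

set_option autoImplicit false

namespace Fermat.Agent.BR.Inv

open Polynomial IntermediateField
open Fermat.Agent.INJ (IsInt LocPow RedData Arch Chart)

section TC5

variable {k L : Type} [Field k] [Field L] [Algebra k L]

/-- a ring endomorphism fixing `X` and preserving `k` preserves `k[X]`. -/
theorem TC5_map_adjoin (X : L) (ψ : L →+* L) (hX : ψ X = X)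
    (hk : ∀ c : k, ∃ c' : k, ψ (algebraMap k L c) = algebraMap k L c') (z : L)
    (hz : z ∈ Algebra.adjoin k {X}) : ψ z ∈ Algebra.adjoin k {X} := by
  induction hz using Algebra.adjoin_induction with
  | mem x hx =>
    rw [Set.mem_singleton_iff] at hx
    rw [hx, hX]
    exact Algebra.self_mem_adjoin_singleton k X
  | algebraMap c =>
    obtain ⟨c', hc'⟩ := hk c
    rw [hc']
    exact Subalgebra.algebraMap_mem _ c'
  | add x y _ _ hx hy => rw [map_add]; exact add_mem hx hy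
  | mul x y _ _ hx hy => rw [map_mul]; exact mul_mem hx hy

/-- a ring endomorphism fixing `X` and preserving `k` preserves the integral closure of `k[X]`. -/
theorem TC5_map_isInt (X : L) (ψ : L →+* L) (hX : ψ X = X)
    (hk : ∀ c : k, ∃ c' : k, ψ (algebraMap k L c) = algebraMap k L c') {a : L}
    (ha : IsInt k X a) : IsInt k X (ψ a) := by
  let φ : Algebra.adjoin k {X} →+* Algebra.adjoin k {X} :=
    (ψ.comp (algebraMap (Algebra.adjoin k {X}) L)).codRestrict (Algebra.adjoin k {X})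
      (fun z => TC5_map_adjoin X ψ hX hk z.1 z.2)
  exact IsIntegral.map_of_comp_eq φ ψ rfl ha

theorem TC5_isInt_X (X : L) : IsInt k X X :=
  isIntegral_algebraMap (R := Algebra.adjoin k {X}) (A := L)
    (x := ⟨X, Algebra.self_mem_adjoin_singleton k X⟩)

/-- the ideal `I` (as an additive subgroup of `L`). -/
def TC5_I (k : Type) {L : Type} [Field k] [Field L] [Algebra k L] (X : L) (Fr : L →+* L) :
    AddSubgroup L :=
  AddSubgroup.closure {g | ∃ c a : L, IsInt k X c ∧ IsInt k X a ∧ g = c * (a - Fr (Fr a))}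

variable {X : L} {Fr : L →+* L} {φb : L ≃+* L} {r : ℕ}

theorem TC5_Fr_eq (hfr : ∀ a : L, Fr (φb a) = a ^ r) (a : L) : Fr a = (φb.symm a) ^ r := by
  rw [← hfr, RingEquiv.apply_symm_apply]

theorem TC5_symm_Fr (hfr : ∀ a : L, Fr (φb a) = a ^ r) (a : L) :
    φb.symm (Fr a) = Fr (φb.symm a) := by
  rw [TC5_Fr_eq hfr a, TC5_Fr_eq hfr (φb.symm a), map_pow]

theorem TC5_isInt_symm (hX : φb X = X)
    (hk' : ∀ c : k, ∃ c' : k, φb.symm (algebraMap k L c) = algebraMap k L c') {a : L}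
    (ha : IsInt k X a) : IsInt k X (φb.symm a) :=
  TC5_map_isInt X (φb.symm : L →+* L) (by
    show φb.symm X = X
    rw [RingEquiv.symm_apply_eq, hX]) hk' ha

theorem TC5_isInt_phi (hX : φb X = X)
    (hk : ∀ c : k, ∃ c' : k, φb (algebraMap k L c) = algebraMap k L c') {a : L}
    (ha : IsInt k X a) : IsInt k X (φb a) :=
  TC5_map_isInt X (φb : L →+* L) hX hk ha

theorem TC5_isInt_Fr (hfr : ∀ a : L, Fr (φb a) = a ^ r) (hX : φb X = X)
    (hk' : ∀ c : k, ∃ c' : k, φb.symm (algebraMap k L c) = algebraMap k L c') {a : L}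
    (ha : IsInt k X a) : IsInt k X (Fr a) := by
  rw [TC5_Fr_eq hfr a]
  exact IsIntegral.pow (TC5_isInt_symm hX hk' ha) r

theorem TC5_gen_mem {c a : L} (hc : IsInt k X c) (ha : IsInt k X a) :
    c * (a - Fr (Fr a)) ∈ TC5_I k X Fr :=
  AddSubgroup.subset_closure ⟨c, a, hc, ha, rfl⟩

/-- (1) `OO * I ⊆ I`. -/
theorem TC5_mul_mem {d g : L} (hd : IsInt k X d) (hg : g ∈ TC5_I k X Fr) :
    d * g ∈ TC5_I k X Fr := by
  induction hg using AddSubgroup.closure_induction with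
  | mem x hx =>
    obtain ⟨c, a, hc, ha, rfl⟩ := hx
    rw [← mul_assoc]
    exact TC5_gen_mem (IsIntegral.mul hd hc) ha
  | zero => rw [mul_zero]; exact zero_mem _
  | add x y _ _ hx hy => rw [mul_add]; exact add_mem hx hy
  | neg x _ hx => rw [mul_neg]; exact neg_mem hx

/-- (2) `I × 0` and `0 × I` are contained in `Bb`. -/
theorem TC5_mem_Bb (hfr : ∀ a : L, Fr (φb a) = a ^ r) (hX : φb X = X)
    (hk' : ∀ c : k, ∃ c' : k, φb.symm (algebraMap k L c) = algebraMap k L c')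
    (Bb : Subring (L × L)) (hB : ∀ a : L, IsInt k X a → (a, Fr a) ∈ Bb ∧ (Fr a, a) ∈ Bb)
    {g : L} (hg : g ∈ TC5_I k X Fr) : ((g, 0) : L × L) ∈ Bb ∧ ((0, g) : L × L) ∈ Bb := by
  induction hg using AddSubgroup.closure_induction with
  | mem x hx =>
    obtain ⟨c, a, hc, ha, rfl⟩ := hx
    have hFa : IsInt k X (Fr a) := TC5_isInt_Fr hfr hX hk' ha
    constructor
    · have h : ((c * (a - Fr (Fr a)), 0) : L × L) =
          (c, Fr c) * ((a, Fr a) - (Fr (Fr a), Fr a)) := by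
        ext <;> simp
      rw [h]
      exact mul_mem (hB c hc).1 (sub_mem (hB a ha).1 (hB _ hFa).2)
    · have h : ((0, c * (a - Fr (Fr a))) : L × L) =
          (Fr c, c) * ((Fr a, a) - (Fr a, Fr (Fr a))) := by
        ext <;> simp
      rw [h]
      exact mul_mem (hB c hc).2 (sub_mem (hB a ha).2 (hB _ hFa).1)
  | zero => exact ⟨zero_mem Bb, zero_mem Bb⟩
  | add x y _ _ hx hy =>
    constructor
    · have h : ((x + y, 0) : L × L) = (x, 0) + (y, 0) := by ext <;> simp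
      rw [h]; exact add_mem hx.1 hy.1
    · have h : ((0, x + y) : L × L) = (0, x) + (0, y) := by ext <;> simp
      rw [h]; exact add_mem hx.2 hy.2
  | neg x _ hx =>
    constructor
    · have h : ((-x, 0) : L × L) = -(x, 0) := by ext <;> simp
      rw [h]; exact neg_mem hx.1
    · have h : ((0, -x) : L × L) = -(0, x) := by ext <;> simp
      rw [h]; exact neg_mem hx.2

/-- (3) `I` is stable under `φb.symm`. -/
theorem TC5_symm_mem (hfr : ∀ a : L, Fr (φb a) = a ^ r) (hX : φb X = X)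
    (hk' : ∀ c : k, ∃ c' : k, φb.symm (algebraMap k L c) = algebraMap k L c')
    {g : L} (hg : g ∈ TC5_I k X Fr) : φb.symm g ∈ TC5_I k X Fr := by
  induction hg using AddSubgroup.closure_induction with
  | mem x hx =>
    obtain ⟨c, a, hc, ha, rfl⟩ := hx
    rw [map_mul, map_sub, TC5_symm_Fr hfr, TC5_symm_Fr hfr]
    exact TC5_gen_mem (TC5_isInt_symm hX hk' hc) (TC5_isInt_symm hX hk' ha)
  | zero => rw [map_zero]; exact zero_mem _
  | add x y _ _ hx hy => rw [map_add]; exact add_mem hx hy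
  | neg x _ hx => rw [map_neg]; exact neg_mem hx

theorem TC5_Fr_Fr_phi_phi (hfr : ∀ a : L, Fr (φb a) = a ^ r) (g : L) :
    Fr (Fr (φb (φb g))) = g ^ r ^ 2 := by
  rw [hfr, map_pow, hfr, ← pow_mul, pow_two]

/-- `φb (φb f) - f ^ (r ^ 2) ∈ I`. -/
theorem TC5_phi_phi_sub_mem (hfr : ∀ a : L, Fr (φb a) = a ^ r) (hX : φb X = X)
    (hk : ∀ c : k, ∃ c' : k, φb (algebraMap k L c) = algebraMap k L c')
    {f h : L} (hf : IsInt k X f) (hh : IsInt k X h) :
    (φb (φb f) - f ^ r ^ 2) * h ∈ TC5_I k X Fr := by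
  rw [← TC5_Fr_Fr_phi_phi hfr f, mul_comm]
  exact TC5_gen_mem hh (TC5_isInt_phi hX hk (TC5_isInt_phi hX hk hf))

/-- (4) -/
theorem TC5_of_pow_sq (hfr : ∀ a : L, Fr (φb a) = a ^ r) (hX : φb X = X)
    (hk : ∀ c : k, ∃ c' : k, φb (algebraMap k L c) = algebraMap k L c')
    (hk' : ∀ c : k, ∃ c' : k, φb.symm (algebraMap k L c) = algebraMap k L c')
    {g : L} (hg : IsInt k X g) (h : g ^ r ^ 2 ∈ TC5_I k X Fr) : g ∈ TC5_I k X Fr := by
  have h1 := TC5_phi_phi_sub_mem hfr hX hk hg (isIntegral_one : IsInt k X 1)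
  rw [mul_one] at h1
  have h2 : φb (φb g) ∈ TC5_I k X Fr := by
    have := add_mem h1 h
    rwa [sub_add_cancel] at this
  have h3 := TC5_symm_mem hfr hX hk' (TC5_symm_mem hfr hX hk' h2)
  rwa [RingEquiv.symm_apply_apply, RingEquiv.symm_apply_apply] at h3

/-- (5) `I` is radical in `OO`. -/
theorem TC5_radical (hr : 2 ≤ r) (hfr : ∀ a : L, Fr (φb a) = a ^ r) (hX : φb X = X)
    (hk : ∀ c : k, ∃ c' : k, φb (algebraMap k L c) = algebraMap k L c')
    (hk' : ∀ c : k, ∃ c' : k, φb.symm (algebraMap k L c) = algebraMap k L c')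
    {g : L} (hg : IsInt k X g) (N : ℕ) (h : g ^ N ∈ TC5_I k X Fr) : g ∈ TC5_I k X Fr := by
  have key : ∀ e : ℕ, g ^ (r ^ 2) ^ e ∈ TC5_I k X Fr → g ∈ TC5_I k X Fr := by
    intro e
    induction e with
    | zero => intro h; simpa using h
    | succ e ih =>
      intro h
      apply ih
      apply TC5_of_pow_sq hfr hX hk hk' (IsIntegral.pow hg _)
      rwa [← pow_mul, ← pow_succ]
  have h1 : 1 < r ^ 2 := by nlinarith
  have hN : N ≤ (r ^ 2) ^ N := (Nat.lt_pow_self h1).le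
  apply key N
  obtain ⟨m, hm⟩ := Nat.exists_eq_add_of_le hN
  rw [hm, add_comm, pow_add]
  exact TC5_mul_mem (IsIntegral.pow hg m) h

end TC5

theorem stmt_TCIdeal : Stmt_TCIdeal := by
  intro k L _ _ _ X Fr φb r hr hfr hX hk hk' Bb hB
  have hpair : ∀ g₁ g₂ : L, g₁ ∈ TC5_I k X Fr → g₂ ∈ TC5_I k X Fr → ((g₁, g₂) : L × L) ∈ Bb := by
    intro g₁ g₂ h₁ h₂
    have h : ((g₁, g₂) : L × L) = (g₁, 0) + (0, g₂) := by ext <;> simp
    rw [h]
    exact add_mem (TC5_mem_Bb hfr hX hk' Bb hB h₁).1 (TC5_mem_Bb hfr hX hk' Bb hB h₂).2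
  have hFX : Fr (Fr X) = X ^ r ^ 2 := by
    have := TC5_Fr_Fr_phi_phi hfr X
    rwa [hX, hX] at this
  have h6 : ∀ h : L, IsInt k X h → (X ^ (r * (r + 1)) - X ^ (r + 1)) * h ∈ TC5_I k X Fr := by
    intro h hh
    have e : (X ^ (r * (r + 1)) - X ^ (r + 1)) * h = (-(X ^ r * h)) * (X - Fr (Fr X)) := by
      rw [hFX]; ring
    rw [e]
    exact TC5_gen_mem (IsIntegral.neg (IsIntegral.mul (IsIntegral.pow (TC5_isInt_X X) r) hh))
      (TC5_isInt_X X)
  refine ⟨fun g₁ g₂ h₁ h₂ N hg₁ hg₂ hh₁ hh₂ e₁ e₂ => hpair g₁ g₂ ?_ ?_,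
    fun f₁ f₂ h₁ h₂ hf₁ hf₂ hh₁ hh₂ => hpair _ _ (TC5_phi_phi_sub_mem hfr hX hk hf₁ hh₁)
      (TC5_phi_phi_sub_mem hfr hX hk hf₂ hh₂)⟩
  · exact TC5_radical hr hfr hX hk hk' hg₁ N (e₁ ▸ h6 h₁ hh₁)
  · exact TC5_radical hr hfr hX hk hk' hg₂ N (e₂ ▸ h6 h₂ hh₂)

end Fermat.Agent.BR.Inv
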