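import Fermat.Agent.BR.Inv.TCInterface

/-!
# BR / Inv / TC6 : (SN-a) and (SN-b) on the chart `Spec K[T]`, `T = ι₁ x * ι₂ x`

Pure algebra: from the lifts of the generators (`Stmt_TCLift`) and the ideal computation
(`Stmt_TCIdeal`) applied to the subring of all liftable pairs.
-/

set_option autoImplicit false

namespace Fermat.Agent.BR.Inv

open Polynomial IntermediateField
open Fermat.Agent.INJ (IsInt LocPow RedData Arch Chart)

/-- integrality is transported by an algebra homomorphism mapping `τ` into `k[X]`. -/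
theorem TC6_isIntegral_map {k E E' : Type*} [Field k] [CommRing E] [Algebra k E] [CommRing E']
    [Algebra k E'] (ψ : E →ₐ[k] E') (τ : E) (X : E') (hτ : ψ τ ∈ Algebra.adjoin k {X}) {f : E}
    (hf : IsIntegral (Algebra.adjoin k {τ}) f) : IsIntegral (Algebra.adjoin k {X}) (ψ f) := by
  have hmem : ∀ y : Algebra.adjoin k {τ}, ψ y.1 ∈ Algebra.adjoin k {X} := by
    intro y
    have h1 : ψ y.1 ∈ (Algebra.adjoin k {τ}).map ψ := ⟨y.1, y.2, rfl⟩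
    rw [AlgHom.map_adjoin, Set.image_singleton] at h1
    exact Algebra.adjoin_le (Set.singleton_subset_iff.2 hτ) h1
  let φ : Algebra.adjoin k {τ} →+* Algebra.adjoin k {X} :=
    ((ψ : E →+* E').comp (algebraMap (Algebra.adjoin k {τ}) E)).codRestrict
      (Algebra.adjoin k {X}) hmem
  exact IsIntegral.map_of_comp_eq φ (ψ : E →+* E') (by ext y; rfl) hf

/-- componentwise integrality. -/
theorem TC6_isInt_of_isIntE {k L L₁ : Type*} [Field k] [Field L] [Algebra k L] [Field L₁]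
    [Algebra k L₁] (j : L →ₐ[k] L₁) (hj : Function.Surjective j) (X : L) (n : ℕ) (g₁ g₂ : L)
    (h : IsIntE k ((j (X ^ n), j (X ^ n)) : L₁ × L₁) (j g₁, j g₂)) :
    IsInt k X g₁ ∧ IsInt k X g₂ := by
  let e : L ≃ₐ[k] L₁ := AlgEquiv.ofBijective j ⟨j.injective, hj⟩
  have he : ∀ a : L, e.symm (j a) = a := fun a => e.symm_apply_apply a
  have hX : X ^ n ∈ Algebra.adjoin k {X} := pow_mem (Algebra.self_mem_adjoin_singleton k X) n
  constructor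
  · have h1 := TC6_isIntegral_map ((e.symm : L₁ →ₐ[k] L).comp (AlgHom.fst k L₁ L₁))
      ((j (X ^ n), j (X ^ n)) : L₁ × L₁) X (by
        show e.symm (j (X ^ n)) ∈ _
        rw [he]; exact hX) h
    have h2 : ((e.symm : L₁ →ₐ[k] L).comp (AlgHom.fst k L₁ L₁)) (j g₁, j g₂) = g₁ := he g₁
    rw [h2] at h1
    exact h1
  · have h1 := TC6_isIntegral_map ((e.symm : L₁ →ₐ[k] L).comp (AlgHom.snd k L₁ L₁))
      ((j (X ^ n), j (X ^ n)) : L₁ × L₁) X (by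
        show e.symm (j (X ^ n)) ∈ _
        rw [he]; exact hX) h
    have h2 : ((e.symm : L₁ →ₐ[k] L).comp (AlgHom.snd k L₁ L₁)) (j g₁, j g₂) = g₂ := he g₂
    rw [h2] at h1
    exact h1

/-- the subring of all pairs which lift to `B ∩ O`. -/
def TC6_Bb {K F k L L₁ : Type*} [Field K] [Field F] [Algebra K F] [Field k] [Field L] [Algebra k L]
    [Field L₁] [Algebra k L₁] (S : SData K F k (L₁ × L₁)) (T : F) (j : L →ₐ[k] L₁) :
    Subring (L × L) where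
  carrier := {g | ∃ ξ ∈ S.O, IsInt K T ξ ∧ S.rd ξ = (j g.1, j g.2)}
  mul_mem' := by
    rintro a b ⟨ξ, hξ, hi, hr⟩ ⟨η, hη, hi', hr'⟩
    refine ⟨ξ * η, mul_mem hξ hη, IsIntegral.mul hi hi', ?_⟩
    rw [SData.rd_mul hξ hη, hr, hr']
    ext <;> simp
  one_mem' := ⟨1, one_mem _, isIntegral_one, by rw [SData.rd_one]; ext <;> simp⟩
  add_mem' := by
    rintro a b ⟨ξ, hξ, hi, hr⟩ ⟨η, hη, hi', hr'⟩
    refine ⟨ξ + η, add_mem hξ hη, IsIntegral.add hi hi', ?_⟩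
    rw [SData.rd_add hξ hη, hr, hr']
    ext <;> simp
  zero_mem' := ⟨0, zero_mem _, isIntegral_zero, by rw [SData.rd_zero]; ext <;> simp⟩
  neg_mem' := by
    rintro a ⟨ξ, hξ, hi, hr⟩
    refine ⟨-ξ, neg_mem hξ, IsIntegral.neg hi, ?_⟩
    rw [SData.rd_neg hξ, hr]
    ext <;> simp

theorem TC6_mem_Bb {K F k L L₁ : Type*} [Field K] [Field F] [Algebra K F] [Field k] [Field L]
    [Algebra k L] [Field L₁] [Algebra k L₁] (S : SData K F k (L₁ × L₁)) (T : F) (j : L →ₐ[k] L₁)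
    (g₁ g₂ : L) :
    (g₁, g₂) ∈ TC6_Bb S T j ↔ ∃ ξ ∈ S.O, IsInt K T ξ ∧ S.rd ξ = (j g₁, j g₂) := Iff.rfl

/-- the reduction of `T = ι₁ x * ι₂ x`. -/
theorem TC6_rd_T {K F' F k L L₁ : Type*} [Field K] [Field F'] [Algebra K F'] [Field F] [Algebra K F]
    [Field k] [Field L] [Algebra k L] [Field L₁] [Algebra k L₁]
    {D' : RedData K F' k L} {D₁ D₂ : RedData K F k L₁} {ι₁ ι₂ : F' →ₐ[K] F} {j : L →ₐ[k] L₁}
    {Fr : L →+* L} {φb : L ≃+* L} {r : ℕ} (tc : TC D' D₁ D₂ ι₁ ι₂ j Fr φb r)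
    {S : SData K F k (L₁ × L₁)} (hS : IsPairData D₁ D₂ S) {x : F'} (hx : x ∈ D'.O)
    (hφ : φb (D'.rd x) = D'.rd x) :
    S.rd (ι₁ x * ι₂ x) = (j (D'.rd x ^ (r + 1)), j (D'.rd x ^ (r + 1))) := by
  obtain ⟨m11, r11⟩ := tc.c11 x hx
  obtain ⟨m12, r12⟩ := tc.c12 x hx
  obtain ⟨m21, r21⟩ := tc.c21 x hx
  obtain ⟨m22, r22⟩ := tc.c22 x hx
  have hFr : Fr (D'.rd x) = D'.rd x ^ r := by
    have := tc.frob (D'.rd x)
    rwa [hφ] at this
  have hT : ι₁ x * ι₂ x ∈ S.O := (hS.mem _).2 ⟨mul_mem m11 m12, mul_mem m21 m22⟩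
  rw [hS.rd _ hT, RedData.rd_mul m11 m12, RedData.rd_mul m21 m22, r11, r12, r21, r22, hFr,
    ← map_mul, ← map_mul, pow_succ, mul_comm]

/-- **TC6.** -/
theorem stmt_TCSN (h4 : Stmt_TCLift) (h5 : Stmt_TCIdeal) : Stmt_TCSN := by
  intro K F' F k L L₁ _ _ _ _ _ _ _ _ _ _ D' D₁ D₂ ι₁ ι₂ j Fr φb r tc hj S hS x hx htr hφ hN hi₁ hi₂
  have hτ := TC6_rd_T tc hS hx hφ
  have hgen : ∀ a : L, IsInt k (D'.rd x) a →
      (a, Fr a) ∈ TC6_Bb S (ι₁ x * ι₂ x) j ∧ (Fr a, a) ∈ TC6_Bb S (ι₁ x * ι₂ x) j := by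
    intro a ha
    exact h4 K F' F k L L₁ D' D₁ D₂ ι₁ ι₂ j Fr φb r tc S hS x hN hi₁ hi₂ a ha
  have h5' := h5 k L (D'.rd x) Fr φb r tc.two_le tc.frob hφ tc.φk tc.φk'
    (TC6_Bb S (ι₁ x * ι₂ x) j) hgen
  obtain ⟨hA, hB⟩ := h5'
  have hjinj : Function.Injective j := j.injective
  constructor
  · refine ⟨X ^ r - X, FiniteField.X_pow_card_sub_X_ne_zero k tc.two_le, ?_⟩
    intro f h N hf hh hfh
    obtain ⟨g₁, hg₁⟩ := hj f.1
    obtain ⟨g₂, hg₂⟩ := hj f.2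
    obtain ⟨h₁, hh₁⟩ := hj h.1
    obtain ⟨h₂, hh₂⟩ := hj h.2
    have hf' : f = (j g₁, j g₂) := by ext <;> simp [hg₁, hg₂]
    have hh' : h = (j h₁, j h₂) := by ext <;> simp [hh₁, hh₂]
    subst hf' hh'
    rw [hτ] at hf hh hfh
    obtain ⟨ig₁, ig₂⟩ := TC6_isInt_of_isIntE j hj _ _ _ _ hf
    obtain ⟨ih₁, ih₂⟩ := TC6_isInt_of_isIntE j hj _ _ _ _ hh
    have e1 : g₁ ^ N = (D'.rd x ^ (r * (r + 1)) - D'.rd x ^ (r + 1)) * h₁ := by
      apply hjinj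
      have := congrArg Prod.fst hfh
      simp only [map_sub, map_pow, aeval_X, Prod.fst_mul, Prod.fst_sub, Prod.pow_fst] at this
      rw [map_pow, this, map_mul, map_sub, map_pow, map_pow, ← pow_mul, mul_comm r]
    have e2 : g₂ ^ N = (D'.rd x ^ (r * (r + 1)) - D'.rd x ^ (r + 1)) * h₂ := by
      apply hjinj
      have := congrArg Prod.snd hfh
      simp only [map_sub, map_pow, aeval_X, Prod.snd_mul, Prod.snd_sub, Prod.pow_snd] at this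
      rw [map_pow, this, map_mul, map_sub, map_pow, map_pow, ← pow_mul, mul_comm r]
    exact hA g₁ g₂ h₁ h₂ N ig₁ ig₂ ih₁ ih₂ e1 e2
  · intro σb hσ f h hf hh
    obtain ⟨g₁, hg₁⟩ := hj f.1
    obtain ⟨g₂, hg₂⟩ := hj f.2
    obtain ⟨h₁, hh₁⟩ := hj h.1
    obtain ⟨h₂, hh₂⟩ := hj h.2
    have hf' : f = (j g₁, j g₂) := by ext <;> simp [hg₁, hg₂]
    have hh' : h = (j h₁, j h₂) := by ext <;> simp [hh₁, hh₂]
    subst hf' hh'
    rw [hτ] at hf hh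
    obtain ⟨ig₁, ig₂⟩ := TC6_isInt_of_isIntE j hj _ _ _ _ hf
    obtain ⟨ih₁, ih₂⟩ := TC6_isInt_of_isIntE j hj _ _ _ _ hh
    obtain ⟨ξ, hξ, hi, hr⟩ := hB g₁ g₂ h₁ h₂ ig₁ ig₂ ih₁ ih₂
    refine ⟨ξ, hξ, hi, ?_⟩
    rw [hr, hσ]
    ext <;> simp

end Fermat.Agent.BR.Inv
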