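import Fermat.Agent.BR.Inv.TCInterface
import Fermat.Agent.INJ.P13

/-!
# BR / Inv / TC : assembly of Theorem G for two copies (`Stmt_TCG`)
-/

set_option autoImplicit false

namespace Fermat.Agent.BR.Inv

open Polynomial IntermediateField
open Fermat.Agent.INJ (IsInt LocPow RedData Arch Chart)

theorem TCG_isIntegral_pair {k L₁ : Type*} [Field k] [Field L₁] [Algebra k L₁] (c₁ c₂ : k) :
    IsIntegral k ((algebraMap k L₁ c₁, algebraMap k L₁ c₂) : L₁ × L₁) := by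
  refine ⟨(X - C c₁) * (X - C c₂), (monic_X_sub_C c₁).mul (monic_X_sub_C c₂), ?_⟩
  rw [eval₂_mul, eval₂_sub, eval₂_sub, eval₂_X, eval₂_C, eval₂_C]
  ext <;> simp

theorem stmt_TCG (hG : Stmt_G) (hP : Stmt_OfPair) (h1 : Stmt_TCPair) (h3 : Stmt_TCChart)
    (h6 : Stmt_TCSN) : Stmt_TCG := by
  intro K F' F k L L₁ _ _ _ _ _ _ _ _ _ _ _ _ _ D' D₁ D₂ ι₁ ι₂ j Fr φb r hTC hArch x hCh hφX hN hN'
    hi1 hi2 hi1' hi2' hfin hdeg σ σ₁ Q hσK hσT hσ1 hσ2 hQ v m c₁ c₂ hm hmk hc₁ hc₂ hv₁ hv₂ hσc₁ hσc₂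
    hL hL'
  have hxO := hCh.t_mem
  have hXtr := hCh.trans
  have hPair := h1 K F' F k L L₁ D' D₁ D₂ ι₁ ι₂ j Fr φb r hTC x hxO hXtr hφX
  obtain ⟨S, hSA, hSra, hSmem, hSrd, hSArch, hSunit⟩ := hP K F k L₁ L₁ D₁ D₂ hPair hArch
  have hIP : IsPairData D₁ D₂ S := ⟨hSA, hSra, hSmem, hSrd, hSunit⟩
  obtain ⟨hSC, hjs⟩ := h3 K F' F k L L₁ D' D₁ D₂ ι₁ ι₂ j Fr φb r hTC S hIP x hCh hφX hfin hdeg
  obtain ⟨hSN, hSNb⟩ :=
    h6 K F' F k L L₁ D' D₁ D₂ ι₁ ι₂ j Fr φb r hTC hjs S hIP x hxO hXtr hφX hN hi1 hi2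
  -- the chart at infinity
  have hCh' : Chart D' x⁻¹ := INJ.stmt_ChartInv K F' k L D' x hCh
  have hX0 : D'.rd x ≠ 0 := by
    intro h0
    rw [h0] at hXtr
    exact hXtr isAlgebraic_zero
  have hXi : D'.rd x⁻¹ = (D'.rd x)⁻¹ := RedData.rd_inv hX0
  have hTinv : ι₁ x⁻¹ * ι₂ x⁻¹ = (ι₁ x * ι₂ x)⁻¹ := by rw [map_inv₀, map_inv₀, mul_inv]
  obtain ⟨hSN', hSNb'⟩ :=
    h6 K F' F k L L₁ D' D₁ D₂ ι₁ ι₂ j Fr φb r hTC hjs S hIP x⁻¹ hCh'.t_mem hCh'.trans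
      (by rw [hXi, map_inv₀, hφX]) hN'
      (by rw [hTinv, map_inv₀]; exact hi1') (by rw [hTinv, map_inv₀]; exact hi2')
  rw [hTinv] at hSN' hSNb'
  -- the endomorphism of `E`
  obtain ⟨σb, hσb⟩ : ∃ σb : L₁ × L₁ →+* L₁ × L₁, ∀ p : L₁ × L₁, σb p = (σ₁ p.1, σ₁ p.2) :=
    ⟨RingHom.prodMap σ₁ σ₁, fun p => rfl⟩
  have hEndo : SEndo S (ι₁ x * ι₂ x) σ σb := by
    refine ⟨hσK, hσT, fun z hz => ?_, fun z hz => ?_⟩
    · obtain ⟨hz1, hz2⟩ := (hSmem z).1 hz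
      exact (hSmem _).2 ⟨(hσ1 z hz1).1, (hσ2 z hz2).1⟩
    · obtain ⟨hz1, hz2⟩ := (hSmem z).1 hz
      have hz' : σ z ∈ S.O := (hSmem _).2 ⟨(hσ1 z hz1).1, (hσ2 z hz2).1⟩
      rw [hSrd _ hz', hSrd _ hz, hσb, (hσ1 z hz1).2, (hσ2 z hz2).2]
  have hb : SNb S (ι₁ x * ι₂ x) σb Q ∧ SNb S (ι₁ x * ι₂ x)⁻¹ σb Q := by
    rcases hQ with ⟨rfl, hid⟩ | ⟨rfl, hφ⟩
    · have hz : ∀ f h : L₁ × L₁, (σb f - f ^ 1) * h = 0 := by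
        intro f h
        have : σb f = f := by rw [hσb, hid, hid]
        rw [this, pow_one, sub_self, zero_mul]
      constructor
      · intro f h _ _
        exact ⟨0, S.O.zero_mem, isIntegral_zero, by rw [SData.rd_zero, hz]⟩
      · intro f h _ _
        exact ⟨0, S.O.zero_mem, isIntegral_zero, by rw [SData.rd_zero, hz]⟩
    · have hc : ∀ g₁ g₂ : L, σb (j g₁, j g₂) = (j (φb (φb g₁)), j (φb (φb g₂))) := by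
        intro g₁ g₂
        rw [hσb, hφ, hφ]
      exact ⟨hSNb σb hc, hSNb' σb hc⟩
  -- the function `v`
  have hc₁' : algebraMap k L₁ c₁ ≠ 0 := (_root_.map_ne_zero _).2 hc₁
  have hc₂' : algebraMap k L₁ c₂ ≠ 0 := (_root_.map_ne_zero _).2 hc₂
  have hv1ne : D₁.rd v ≠ 0 := by rw [hv₁]; exact hc₁'
  have hv2ne : D₂.rd v ≠ 0 := by rw [hv₂]; exact hc₂'
  have hv0 : v ≠ 0 := by
    rintro rfl
    exact hv1ne RedData.rd_zero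
  have hvO : v ∈ S.O :=
    (hSmem v).2 ⟨RedData.mem_of_rd_ne_zero hv1ne, RedData.mem_of_rd_ne_zero hv2ne⟩
  have hviO : v⁻¹ ∈ S.O :=
    (hSmem _).2 ⟨RedData.inv_mem_of_rd_ne_zero hv1ne, RedData.inv_mem_of_rd_ne_zero hv2ne⟩
  have hrv : S.rd v = (algebraMap k L₁ c₁, algebraMap k L₁ c₂) := by
    rw [hSrd v hvO, hv₁, hv₂]
  have hrvi : S.rd v⁻¹ = (algebraMap k L₁ c₁⁻¹, algebraMap k L₁ c₂⁻¹) := by
    rw [hSrd _ hviO, RedData.rd_inv hv1ne, RedData.rd_inv hv2ne, hv₁, hv₂, map_inv₀, map_inv₀]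
  have hσv : σb (S.rd v) = S.rd v ^ Q := by
    rw [hrv, hσb, hσc₁, hσc₂, Prod.pow_mk, map_pow, map_pow]
  exact hG K F k (L₁ × L₁) S (ι₁ x * ι₂ x) hSC hSN hSN' hSArch σ σb Q hEndo hb.1 hb.2 v m hm hmk hv0
    hvO hviO (by rw [hrv]; exact TCG_isIntegral_pair c₁ c₂)
    (by rw [hrvi]; exact TCG_isIntegral_pair _ _) hσv hL hL'

end Fermat.Agent.BR.Inv
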