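import Fermat.Agent.BR.Inv.GAll
import Fermat.Agent.BR.Inv.TC1
import Fermat.Agent.BR.Inv.TC2
import Fermat.Agent.BR.Inv.TC3
import Fermat.Agent.BR.Inv.TC4
import Fermat.Agent.BR.Inv.TC5
import Fermat.Agent.BR.Inv.TC6
import Fermat.Agent.BR.Inv.TCG

/-!
# BR / Inv / TC : Theorem G for two copies, unconditional form
-/

set_option autoImplicit false

namespace Fermat.Agent.BR.Inv

/-- **Theorem G for two copies**, unconditionally. -/
theorem TCG_all : Stmt_TCG :=
  stmt_TCG G_all stmt_OfPair stmt_TCPair (stmt_TCChart stmt_SGauss GAll_SOrtho stmt_TCIndep)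
    (stmt_TCSN stmt_TCLift stmt_TCIdeal)

end Fermat.Agent.BR.Inv
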