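import Fermat.Agent.BR.Inv.Defs

/-!
# BR / Inv : statements of the packages of Theorem G (all `Prop`s; each is proved in its own file,
with the earlier `Stmt_*` as explicit hypotheses)

Notation in the comments: `τ = rd t`, `R = k[τ]`, `Ot` = integral closure of `R` in `E`,
`B` = integral closure of `K[t]` in `F`, `Bb = rd (B ∩ O)`, `n = [F : K(t)]`,
`M(u) = {x : x ^ m * u ∈ B}`.
-/

set_option autoImplicit false

namespace Fermat.Agent.BR.Inv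

open Polynomial IntermediateField
open Fermat.Agent.INJ (IsInt LocPow RedData Arch)

/-- S0 (a pair of independent INJ reduction data gives semi-local reduction data with
`O = O₁ ∩ O₂`, `E = Fb₁ × Fb₂`). -/
def Stmt_OfPair : Prop :=
  ∀ (K F k Fb₁ Fb₂ : Type) [Field K] [Field F] [Algebra K F] [Field k] [Field Fb₁] [Algebra k Fb₁]
    [Field Fb₂] [Algebra k Fb₂] (D₁ : RedData K F k Fb₁) (D₂ : RedData K F k Fb₂),
    Pair D₁ D₂ → Arch D₁ →
    ∃ S : SData K F k (Fb₁ × Fb₂), S.A = D₁.A ∧ (∀ a, S.ra a = D₁.ra a) ∧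
      (∀ x, x ∈ S.O ↔ x ∈ D₁.O ∧ x ∈ D₂.O) ∧ (∀ x ∈ S.O, S.rd x = (D₁.rd x, D₂.rd x)) ∧ SArch S ∧
      ∀ t ∈ S.O, Transcendental k (D₁.rd t) → Transcendental k (D₂.rd t) →
        ∀ p : k[X], p ≠ 0 → IsUnit (aeval (S.rd t) p)

/-- S1 (Gauss lemma).  `O ∩ K[t] = A[t]`, reduction is coefficientwise, primitive parts exist,
`t` and `τ` are transcendental, `O ∩ K(t)` is the Gauss valuation ring. -/
def Stmt_SGauss : Prop :=
  ∀ (K F k E : Type) [Field K] [Field F] [Algebra K F] [Field k] [CommRing E] [Algebra k E]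
    (S : SData K F k E) (t : F), t ∈ S.O → (∀ p : k[X], p ≠ 0 → IsUnit (aeval (S.rd t) p)) →
    (∀ Q : (S.A)[X], aeval t (Q.map S.A.subtype) ∈ S.O ∧
      S.rd (aeval t (Q.map S.A.subtype)) = aeval (S.rd t) (Q.map S.rA)) ∧
    (∀ P : K[X], aeval t P ∈ S.O → ∃ Q : (S.A)[X], Q.map S.A.subtype = P) ∧
    (∀ P : K[X], P ≠ 0 → ∃ (a : K) (Q : (S.A)[X]), a ≠ 0 ∧ P = C a * Q.map S.A.subtype ∧
      Q.map S.rA ≠ 0) ∧
    Transcendental K t ∧ Transcendental k (S.rd t) ∧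
    (∀ c : K⟮t⟯, (c : F) ∈ S.O → ∃ P Q : (S.A)[X], Q.map S.rA ≠ 0 ∧
      (c : F) * aeval t (Q.map S.A.subtype) = aeval t (P.map S.A.subtype)) ∧
    (∀ c : K⟮t⟯, (c : F) ∈ S.O ∨ (c : F)⁻¹ ∈ S.O)

/-- S2 (orthonormal families).  Lifts of a `k[τ]`-independent family are `K(t)`-independent and
"orthonormal": a `K(t)`-combination lies in `O` iff all coefficients do. -/
def Stmt_SOrtho : Prop :=
  ∀ (K F k E : Type) [Field K] [Field F] [Algebra K F] [Field k] [CommRing E] [Algebra k E]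
    (S : SData K F k E) (t : F), t ∈ S.O → (∀ p : k[X], p ≠ 0 → IsUnit (aeval (S.rd t) p)) →
    ∀ (ι : Type) [Fintype ι] (e : ι → F), (∀ i, e i ∈ S.O) →
      LinearIndependent (Algebra.adjoin k {S.rd t}) (fun i => S.rd (e i)) →
      LinearIndependent K⟮t⟯ e ∧
      ∀ c : ι → K⟮t⟯, (∑ i, (c i : F) * e i) ∈ S.O → ∀ i, (c i : F) ∈ S.O

/-- S4.  Elements of `B ∩ O` reduce to elements integral over `k[τ]`. -/
def Stmt_SIntRed : Prop :=
  ∀ (K F k E : Type) [Field K] [Field F] [Algebra K F] [Field k] [CommRing E] [Algebra k E]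
    (S : SData K F k E) (t : F), SChart S t →
    ∀ x ∈ S.O, IsInt K t x → IsIntE k (S.rd t) (S.rd x)

/-- S5 (lifting of lattices).  `Λ` a `K[t]`-lattice, `rd (Λ ∩ O)` a `k[τ]`-lattice with basis `eb`.
Then `Λ` has a `K[t]`-basis in `O` reducing to a basis of `rd (Λ ∩ O)`. -/
def Stmt_SLift : Prop :=
  ∀ (K F k E : Type) [Field K] [Field F] [Algebra K F] [Field k] [CommRing E] [Algebra k E]
    [IsAlgClosed K] (S : SData K F k E) (t : F), t ∈ S.O →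
    (∀ p : k[X], p ≠ 0 → IsUnit (aeval (S.rd t) p)) →
    ∀ (n : ℕ) (Λ : Submodule (Algebra.adjoin K {t}) F) (l : Fin n → F),
      Submodule.span (Algebra.adjoin K {t}) (Set.range l) = Λ → LinearIndependent K⟮t⟯ l →
    ∀ eb : Fin n → E, LinearIndependent (Algebra.adjoin k {S.rd t}) eb →
      (∀ x ∈ Λ, x ∈ S.O → S.rd x ∈ Sp k (S.rd t) eb) →
      (∀ i, ∃ x ∈ Λ, x ∈ S.O ∧ S.rd x = eb i) →
      ∃ e : Fin n → F, (∀ i, e i ∈ S.O) ∧
        Submodule.span (Algebra.adjoin K {t}) (Set.range e) = Λ ∧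
        LinearIndependent (Algebra.adjoin k {S.rd t}) (fun i => S.rd (e i)) ∧
        Sp k (S.rd t) (fun i => S.rd (e i)) = Sp k (S.rd t) eb

/-- S6a.  The reduction `rd (Λ ∩ O)` of a `K[t]`-lattice `Λ` of full rank is a free `k[τ]`-module
of rank `n`. -/
def Stmt_SRedLattice : Prop :=
  ∀ (K F k E : Type) [Field K] [Field F] [Algebra K F] [Field k] [CommRing E] [Algebra k E]
    (S : SData K F k E) (t : F), SChart S t →
    ∀ (Λ : Submodule (Algebra.adjoin K {t}) F) (l : Fin (Module.finrank K⟮t⟯ F) → F),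
      Submodule.span (Algebra.adjoin K {t}) (Set.range l) = Λ → LinearIndependent K⟮t⟯ l →
    ∃ eb : Fin (Module.finrank K⟮t⟯ F) → E, LinearIndependent (Algebra.adjoin k {S.rd t}) eb ∧
      (∀ x ∈ Λ, x ∈ S.O → S.rd x ∈ Sp k (S.rd t) eb) ∧
      (∀ i, ∃ x ∈ Λ, x ∈ S.O ∧ S.rd x = eb i)

/-- S6.  Every `K[t]`-lattice of full rank has an orthonormal basis. -/
def Stmt_SBasis : Prop :=
  ∀ (K F k E : Type) [Field K] [Field F] [Algebra K F] [Field k] [CommRing E] [Algebra k E]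
    [IsAlgClosed K] (S : SData K F k E) (t : F), SChart S t →
    ∀ (Λ : Submodule (Algebra.adjoin K {t}) F) (l : Fin (Module.finrank K⟮t⟯ F) → F),
      Submodule.span (Algebra.adjoin K {t}) (Set.range l) = Λ → LinearIndependent K⟮t⟯ l →
    ∃ e : Fin (Module.finrank K⟮t⟯ F) → F, (∀ i, e i ∈ S.O) ∧
      Submodule.span (Algebra.adjoin K {t}) (Set.range e) = Λ ∧
      LinearIndependent K⟮t⟯ e ∧
      LinearIndependent (Algebra.adjoin k {S.rd t}) (fun i => S.rd (e i)) ∧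
      (∀ x ∈ Λ, x ∈ S.O → S.rd x ∈ Sp k (S.rd t) (fun i => S.rd (e i))) ∧
      (∀ f ∈ Sp k (S.rd t) (fun i => S.rd (e i)), ∃ x ∈ Λ, x ∈ S.O ∧ S.rd x = f)

/-- S7.  `B` has an orthonormal `K[t]`-basis `b`, and `(E, τ, rd b, d)` is an `AlgSetting`. -/
def Stmt_SSetting : Prop :=
  ∀ (K F k E : Type) [Field K] [Field F] [Algebra K F] [Field k] [CommRing E] [Algebra k E]
    [IsAlgClosed K] [CharZero K] (S : SData K F k E) (t : F), SChart S t → SN S t →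
    ∃ (b : Fin (Module.finrank K⟮t⟯ F) → F) (d : k[X]), (∀ i, b i ∈ S.O) ∧
      (∀ z, z ∈ Submodule.span (Algebra.adjoin K {t}) (Set.range b) ↔ IsInt K t z) ∧
      LinearIndependent K⟮t⟯ b ∧
      AlgSetting k (S.rd t) (fun i => S.rd (b i)) d ∧
      (∀ x ∈ S.O, IsInt K t x → S.rd x ∈ Sp k (S.rd t) (fun i => S.rd (b i))) ∧
      (∀ f ∈ Sp k (S.rd t) (fun i => S.rd (b i)), ∃ x ∈ S.O, IsInt K t x ∧ S.rd x = f)

/-- S8a (reduction of a transition matrix between orthonormal families). -/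
def Stmt_SDetRed : Prop :=
  ∀ (K F k E : Type) [Field K] [Field F] [Algebra K F] [Field k] [CommRing E] [Algebra k E]
    (S : SData K F k E) (t : F), t ∈ S.O → (∀ p : k[X], p ≠ 0 → IsUnit (aeval (S.rd t) p)) →
    ∀ (n : ℕ) (b x : Fin n → F), (∀ i, b i ∈ S.O) → (∀ i, x i ∈ S.O) →
      LinearIndependent (Algebra.adjoin k {S.rd t}) (fun i => S.rd (b i)) →
      LinearIndependent (Algebra.adjoin k {S.rd t}) (fun i => S.rd (x i)) →
    ∀ T : Matrix (Fin n) (Fin n) K⟮t⟯, (∀ i, x i = ∑ j, (T i j : F) * b j) →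
      ((T.det : K⟮t⟯) : F) ∈ S.O ∧ ((T.det : K⟮t⟯) : F)⁻¹ ∈ S.O ∧
      ∀ (d : k[X]) (P : Matrix (Fin n) (Fin n) k[X]),
        (∀ i, aeval (S.rd t) d * S.rd (x i) = ∑ j, aeval (S.rd t) (P i j) * S.rd (b j)) →
        aeval (S.rd t) P.det = aeval (S.rd t) d ^ n * S.rd ((T.det : K⟮t⟯) : F)

/-- S8 = **lemma (Inv)**.  If `rd v` is a "constant" unit and `v` is locally an `m`-th power times
a unit, then the reductions of `M(v) ∩ O` and of `M(v⁻¹) ∩ O` generate the unit ideal of `Ot`. -/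
def Stmt_SInv : Prop :=
  ∀ (K F k E : Type) [Field K] [Field F] [Algebra K F] [Field k] [CommRing E] [Algebra k E]
    [IsAlgClosed K] [CharZero K] [IsAlgClosed k] (S : SData K F k E) (t : F),
    SChart S t → SN S t →
    ∀ (v : F) (m : ℕ), 0 < m → (m : k) ≠ 0 → v ≠ 0 → v ∈ S.O → v⁻¹ ∈ S.O →
      IsIntegral k (S.rd v) → IsIntegral k (S.rd v⁻¹) → LocPow K t v m →
      ∃ (n : ℕ) (x y : Fin n → F) (a a' : Fin n → E),
        (∀ i, x i ∈ S.O ∧ IsInt K t (x i ^ m * v)) ∧ (∀ i, y i ∈ S.O ∧ IsInt K t (y i ^ m * v⁻¹)) ∧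
        (∀ i, IsIntE k (S.rd t) (a i)) ∧ (∀ i, IsIntE k (S.rd t) (a' i)) ∧
        ∑ i, a i * S.rd (x i) = 1 ∧ ∑ i, a' i * S.rd (y i) = 1

/-- S9 = **step G'**.  `M(σ v / v ^ Q) ∩ O` contains an element reducing to `1`. -/
def Stmt_STriv : Prop :=
  ∀ (K F k E : Type) [Field K] [Field F] [Algebra K F] [Field k] [CommRing E] [Algebra k E]
    [IsAlgClosed K] [CharZero K] [IsAlgClosed k] (S : SData K F k E) (t : F),
    SChart S t → SN S t →
    ∀ (σ : F →+* F) (σb : E →+* E) (Q : ℕ), SEndo S t σ σb → SNb S t σb Q →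
    ∀ (v : F) (m : ℕ), 0 < m → (m : k) ≠ 0 → v ≠ 0 → v ∈ S.O → v⁻¹ ∈ S.O →
      IsIntegral k (S.rd v) → IsIntegral k (S.rd v⁻¹) → LocPow K t v m →
      ∃ ξ ∈ S.O, S.rd ξ = 1 ∧ IsInt K t (ξ ^ m * (σ v / v ^ Q))

/-- S10 (bounded torsion of `H¹ = M₁₂ / (M₁ + M₂)`). -/
def Stmt_SBT : Prop :=
  ∀ (K F k E : Type) [Field K] [Field F] [Algebra K F] [Field k] [CommRing E] [Algebra k E]
    [CharZero K] (S : SData K F k E) (t : F), t ∈ S.O → t⁻¹ ∈ S.O →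
    (∀ p : k[X], p ≠ 0 → IsUnit (aeval (S.rd t) p)) → FiniteDimensional K⟮t⟯ F →
    ∀ (u : F) (m : ℕ), u ≠ 0 → 0 < m →
    ∀ (n : ℕ) (e : Fin n → F), (∀ i, e i ∈ S.O ∧ IsInt K t (e i ^ m * u)) →
      (∀ x, IsInt K t (x ^ m * u) → x ∈ Submodule.span (Algebra.adjoin K {t}) (Set.range e)) →
      LinearIndependent (Algebra.adjoin k {S.rd t}) (fun i => S.rd (e i)) →
      ∃ a₀ : K, a₀ ≠ 0 ∧ a₀ ∈ S.A ∧
        ∀ (x x' : F) (a : K), a ≠ 0 → x ∈ S.O → IsInt K t (x ^ m * u) → x' ∈ S.O →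
          IsInt K t⁻¹ (x' ^ m * u) → (x' - x) * (algebraMap K F a)⁻¹ ∈ S.O →
          ∃ μ μ' : F, μ ∈ S.O ∧ IsInt K t (μ ^ m * u) ∧ μ' ∈ S.O ∧ IsInt K t⁻¹ (μ' ^ m * u) ∧
            algebraMap K F a₀ * ((x' - x) * (algebraMap K F a)⁻¹) = μ + μ'

/-- S11 (Newton iteration on one chart). -/
def Stmt_SNewton : Prop :=
  ∀ (K F k E : Type) [Field K] [Field F] [Algebra K F] [Field k] [CommRing E] [Algebra k E]
    (S : SData K F k E) (t u : F) (m : ℕ), (m : K) ≠ 0 → (m : K)⁻¹ ∈ S.A →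
    ∀ π : K, π ≠ 0 → π ∈ S.A → S.ra π = 0 →
    ∀ x ∈ S.O, IsInt K t (x ^ m * u) → (x ^ m * u - 1) * (algebraMap K F π)⁻¹ ∈ S.O →
    ∀ n : ℕ, 0 < n → ∃ y ∈ S.O, IsInt K t (y ^ m * u) ∧
      (y ^ m * u - 1) * (algebraMap K F π ^ n)⁻¹ ∈ S.O ∧ S.rd y = S.rd x

/-- S12 (glueing the two charts).  If `rd u = 1` and both `M(u) ∩ O`, `M'(u) ∩ O` contain an element
reducing to `1`, then `u` is an `m`-th power. -/
def Stmt_SFinal : Prop :=
  ∀ (K F k E : Type) [Field K] [Field F] [Algebra K F] [Field k] [CommRing E] [Algebra k E]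
    [IsAlgClosed K] [CharZero K] (S : SData K F k E) (t : F),
    SChart S t → SChart S t⁻¹ → SArch S →
    ∀ (u : F) (m : ℕ), 0 < m → (m : k) ≠ 0 → S.rd u = 1 →
      (∃ ξ ∈ S.O, S.rd ξ = 1 ∧ IsInt K t (ξ ^ m * u)) →
      (∃ ξ ∈ S.O, S.rd ξ = 1 ∧ IsInt K t⁻¹ (ξ ^ m * u)) →
      ∃ y : F, y ^ m = u

/-- S13.  The chart at infinity comes for free. -/
def Stmt_SChartInv : Prop :=
  ∀ (K F k E : Type) [Field K] [Field F] [Algebra K F] [Field k] [CommRing E] [Algebra k E]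
    (S : SData K F k E) (t : F), SChart S t → SChart S t⁻¹

/-- **Theorem G (abstract form)**. -/
def Stmt_G : Prop :=
  ∀ (K F k E : Type) [Field K] [Field F] [Algebra K F] [Field k] [CommRing E] [Algebra k E]
    [IsAlgClosed K] [CharZero K] [IsAlgClosed k] (S : SData K F k E) (t : F),
    SChart S t → SN S t → SN S t⁻¹ → SArch S →
    ∀ (σ : F →+* F) (σb : E →+* E) (Q : ℕ), SEndo S t σ σb → SNb S t σb Q → SNb S t⁻¹ σb Q →
    ∀ (v : F) (m : ℕ), 0 < m → (m : k) ≠ 0 → v ≠ 0 → v ∈ S.O → v⁻¹ ∈ S.O →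
      IsIntegral k (S.rd v) → IsIntegral k (S.rd v⁻¹) → σb (S.rd v) = S.rd v ^ Q →
      LocPow K t v m → LocPow K t⁻¹ v m →
      ∃ y : F, y ^ m = σ v / v ^ Q

end Fermat.Agent.BR.Inv
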