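import Mathlib

/-!
# BR / Inv : the pure algebra behind lemma (Inv), definitions and basic API

`k` a field, `E` a commutative `k`-algebra, `τ : E` such that every nonzero polynomial in `τ` is a
unit of `E` (so `E` is a `k(τ)`-algebra; in the application `E = Fb × Fb`, `τ = (jbar, jbar ^ r)`).
`R = k[τ] = Algebra.adjoin k {τ}`, `Ot` = the elements of `E` integral over `R`,
`Bb = span_R b ⊆ Ot` a subring which contains the radical of `d(τ) Ot`.
-/

set_option autoImplicit false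

namespace Fermat.Agent.BR.Inv

open Polynomial

section Defs

variable (k : Type*) {E : Type*} [Field k] [CommRing E] [Algebra k E]

/-- `f` is integral over `k[τ] ⊆ E`. -/
def IsIntE (τ f : E) : Prop := IsIntegral (Algebra.adjoin k {τ}) f

/-- the `k[τ]`-span of a family. -/
def Sp {ι : Type*} (τ : E) (e : ι → E) : Submodule (Algebra.adjoin k {τ}) E :=
  Submodule.span (Algebra.adjoin k {τ}) (Set.range e)

/-- The standing hypotheses on `(E, τ, b, d)`: `Bb = Sp k τ b` is a free `k[τ]`-lattice, a subring of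
`Ot`, and contains the radical of `d(τ) Ot`. -/
structure AlgSetting (τ : E) {n : ℕ} (b : Fin n → E) (d : k[X]) : Prop where
  unit : ∀ p : k[X], p ≠ 0 → IsUnit (aeval τ p)
  li : LinearIndependent (Algebra.adjoin k {τ}) b
  int : ∀ i, IsIntE k τ (b i)
  one : (1 : E) ∈ Sp k τ b
  mul : ∀ i j, b i * b j ∈ Sp k τ b
  d0 : d ≠ 0
  rad : ∀ (f h : E) (N : ℕ), IsIntE k τ f → IsIntE k τ h → f ^ N = aeval τ d * h → f ∈ Sp k τ b

end Defs

section API

variable {k : Type*} {E : Type*} [Field k] [CommRing E] [Algebra k E]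

theorem mem_adjoin_iff (τ x : E) : x ∈ Algebra.adjoin k {τ} ↔ ∃ P : k[X], aeval τ P = x := by
  rw [Algebra.adjoin_singleton_eq_range_aeval]
  exact Iff.rfl

theorem aeval_mem_adjoin (τ : E) (P : k[X]) : aeval τ P ∈ Algebra.adjoin k {τ} :=
  (mem_adjoin_iff τ _).2 ⟨P, rfl⟩

theorem mem_Sp_iff {ι : Type*} [Fintype ι] (τ : E) (e : ι → E) (x : E) :
    x ∈ Sp k τ e ↔ ∃ P : ι → k[X], x = ∑ i, aeval τ (P i) * e i := by
  unfold Sp
  rw [Submodule.mem_span_range_iff_exists_fun]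
  constructor
  · rintro ⟨c, rfl⟩
    have h : ∀ i, ∃ P : k[X], aeval τ P = (c i : E) := fun i => (mem_adjoin_iff τ _).1 (c i).2
    choose P hP using h
    refine ⟨P, Finset.sum_congr rfl fun i _ => ?_⟩
    rw [hP]; rfl
  · rintro ⟨P, rfl⟩
    exact ⟨fun i => ⟨aeval τ (P i), aeval_mem_adjoin τ _⟩, rfl⟩

theorem mem_Sp_self {ι : Type*} (τ : E) (e : ι → E) (i : ι) : e i ∈ Sp k τ e :=
  Submodule.subset_span ⟨i, rfl⟩

theorem aeval_mul_mem_Sp {ι : Type*} (τ : E) (e : ι → E) (P : k[X]) {x : E} (hx : x ∈ Sp k τ e) :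
    aeval τ P * x ∈ Sp k τ e :=
  (Sp k τ e).smul_mem (⟨aeval τ P, aeval_mem_adjoin τ P⟩ : Algebra.adjoin k {τ}) hx

theorem isIntE_aeval (τ : E) (P : k[X]) : IsIntE k τ (aeval τ P) :=
  isIntegral_algebraMap (R := Algebra.adjoin k {τ}) (x := ⟨aeval τ P, aeval_mem_adjoin τ P⟩)

theorem IsIntE.add {τ f g : E} (hf : IsIntE k τ f) (hg : IsIntE k τ g) : IsIntE k τ (f + g) :=
  IsIntegral.add hf hg

theorem IsIntE.mul {τ f g : E} (hf : IsIntE k τ f) (hg : IsIntE k τ g) : IsIntE k τ (f * g) :=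
  IsIntegral.mul hf hg

theorem IsIntE.sub {τ f g : E} (hf : IsIntE k τ f) (hg : IsIntE k τ g) : IsIntE k τ (f - g) :=
  IsIntegral.sub hf hg

theorem IsIntE.pow {τ f : E} (hf : IsIntE k τ f) (N : ℕ) : IsIntE k τ (f ^ N) :=
  IsIntegral.pow hf N

theorem IsIntE.of_pow {τ f : E} {N : ℕ} (hN : 0 < N) (hf : IsIntE k τ (f ^ N)) : IsIntE k τ f :=
  IsIntegral.of_pow hN hf

theorem isIntE_one (τ : E) : IsIntE k τ 1 := isIntegral_one

theorem isIntE_zero (τ : E) : IsIntE k τ 0 := isIntegral_zero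

theorem isIntE_sum {ι : Type*} (s : Finset ι) (τ : E) (f : ι → E)
    (h : ∀ i ∈ s, IsIntE k τ (f i)) : IsIntE k τ (∑ i ∈ s, f i) :=
  IsIntegral.sum (R := Algebra.adjoin k {τ}) f h

/-- linear independence over `k[τ]` in polynomial form. -/
theorem li_poly {ι : Type*} [Fintype ι] {τ : E} {e : ι → E}
    (hli : LinearIndependent (Algebra.adjoin k {τ}) e) (hinj : Function.Injective (aeval τ : k[X] → E))
    (P : ι → k[X]) (h : ∑ i, aeval τ (P i) * e i = 0) : P = 0 := by
  have h2 := Fintype.linearIndependent_iff.1 hli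
    (fun i => (⟨aeval τ (P i), aeval_mem_adjoin τ _⟩ : Algebra.adjoin k {τ})) h
  funext i
  have h3 : aeval τ (P i) = 0 := congrArg Subtype.val (h2 i)
  exact hinj (by rw [h3, Pi.zero_apply, map_zero])

namespace AlgSetting

variable {τ : E} {n : ℕ} {b : Fin n → E} {d : k[X]}

theorem aeval_injective [Nontrivial E] (H : AlgSetting k τ b d) :
    Function.Injective (aeval τ : k[X] → E) := by
  rw [injective_iff_map_eq_zero]
  intro p hp
  by_contra h0
  have := H.unit p h0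
  rw [hp] at this
  exact not_isUnit_zero this

theorem transcendental [Nontrivial E] (H : AlgSetting k τ b d) : Transcendental k τ :=
  transcendental_iff_injective.2 H.aeval_injective

theorem isIntE_of_mem (H : AlgSetting k τ b d) {f : E} (hf : f ∈ Sp k τ b) : IsIntE k τ f := by
  obtain ⟨P, rfl⟩ := (mem_Sp_iff τ b f).1 hf
  exact isIntE_sum _ _ _ fun i _ => (isIntE_aeval τ _).mul (H.int i)

theorem mul_mem (H : AlgSetting k τ b d) {f g : E} (hf : f ∈ Sp k τ b) (hg : g ∈ Sp k τ b) :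
    f * g ∈ Sp k τ b := by
  obtain ⟨P, rfl⟩ := (mem_Sp_iff τ b f).1 hf
  obtain ⟨Q, rfl⟩ := (mem_Sp_iff τ b g).1 hg
  rw [Finset.sum_mul]
  refine Submodule.sum_mem _ fun i _ => ?_
  rw [Finset.mul_sum]
  refine Submodule.sum_mem _ fun j _ => ?_
  have : aeval τ (P i) * b i * (aeval τ (Q j) * b j) =
      aeval τ (P i) * (aeval τ (Q j) * (b i * b j)) := by ring
  rw [this]
  exact aeval_mul_mem_Sp _ _ _ (aeval_mul_mem_Sp _ _ _ (H.mul i j))

/-- `d(τ) Ot ⊆ Bb`. -/
theorem d_mul_mem (H : AlgSetting k τ b d) {f : E} (hf : IsIntE k τ f) :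
    aeval τ d * f ∈ Sp k τ b :=
  H.rad (aeval τ d * f) f 1 ((isIntE_aeval τ d).mul hf) hf (pow_one _)

theorem aeval_mem (H : AlgSetting k τ b d) (P : k[X]) : aeval τ P ∈ Sp k τ b := by
  have := aeval_mul_mem_Sp τ b P H.one
  rwa [mul_one] at this

end AlgSetting

end API

end Fermat.Agent.BR.Inv
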