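import Fermat.Agent.BR.Inv.Interface

/-!
# BR / Inv / TC : the "two copies" package

Abstract form of the situation at a prime `r ∥ N`, `M' = N / r`:
`F' = FL M'`, `F = FL N`, `ι₁` = inclusion, `ι₂ = V_r` (`q ↦ q ^ r`), `D'` = Gauss datum of `F'` with
residue field `L`, `D₁` = Gauss datum of `F`, `D₂ = D₁ ∘ w_r`, both with residue field `L₁ ⊇ L`
(`j : L → L₁`; the package proves that `j` is onto), `Fr a = a (q ^ r)`, `φb` = coefficientwise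
Frobenius, so that `Fr (φb a) = a ^ r`.  Coordinate `T = ι₁ x * ι₂ x`.

The output of the package is the list of hypotheses of `Stmt_G`.
All statements are `Prop`s, each proved in its own file.
-/

set_option autoImplicit false

namespace Fermat.Agent.BR.Inv

open Polynomial IntermediateField
open Fermat.Agent.INJ (IsInt LocPow RedData Arch Chart)

/-- The two copies data. -/
structure TC {K F' F k L L₁ : Type*} [Field K] [Field F'] [Algebra K F'] [Field F] [Algebra K F]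
    [Field k] [Field L] [Algebra k L] [Field L₁] [Algebra k L₁]
    (D' : RedData K F' k L) (D₁ D₂ : RedData K F k L₁) (ι₁ ι₂ : F' →ₐ[K] F) (j : L →ₐ[k] L₁)
    (Fr : L →+* L) (φb : L ≃+* L) (r : ℕ) : Prop where
  A₁ : D₁.A = D'.A
  A₂ : D₂.A = D'.A
  ra₁ : ∀ a : K, D₁.ra a = D'.ra a
  ra₂ : ∀ a : K, D₂.ra a = D'.ra a
  c11 : ∀ f ∈ D'.O, ι₁ f ∈ D₁.O ∧ D₁.rd (ι₁ f) = j (D'.rd f)
  c12 : ∀ f ∈ D'.O, ι₂ f ∈ D₁.O ∧ D₁.rd (ι₂ f) = j (Fr (D'.rd f))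
  c21 : ∀ f ∈ D'.O, ι₁ f ∈ D₂.O ∧ D₂.rd (ι₁ f) = j (Fr (D'.rd f))
  c22 : ∀ f ∈ D'.O, ι₂ f ∈ D₂.O ∧ D₂.rd (ι₂ f) = j (D'.rd f)
  frob : ∀ a : L, Fr (φb a) = a ^ r
  two_le : 2 ≤ r
  φk : ∀ c : k, ∃ c' : k, φb (algebraMap k L c) = algebraMap k L c'
  φk' : ∀ c : k, ∃ c' : k, φb.symm (algebraMap k L c) = algebraMap k L c'

/-- `S` is "the" semi-local datum of the pair `(D₁, D₂)`. -/
structure IsPairData {K F k L₁ : Type*} [Field K] [Field F] [Algebra K F] [Field k] [Field L₁]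
    [Algebra k L₁] (D₁ D₂ : RedData K F k L₁) (S : SData K F k (L₁ × L₁)) : Prop where
  A_eq : S.A = D₁.A
  ra : ∀ a : K, S.ra a = D₁.ra a
  mem : ∀ z : F, z ∈ S.O ↔ z ∈ D₁.O ∧ z ∈ D₂.O
  rd : ∀ z ∈ S.O, S.rd z = (D₁.rd z, D₂.rd z)
  unit : ∀ t ∈ S.O, Transcendental k (D₁.rd t) → Transcendental k (D₂.rd t) →
    ∀ p : k[X], p ≠ 0 → IsUnit (aeval (S.rd t) p)

/-- normality of the special fibre of `D` on the chart `Spec K[x]`. -/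
def Normal {K F k Fb : Type*} [Field K] [Field F] [Algebra K F] [Field k] [Field Fb] [Algebra k Fb]
    (D : RedData K F k Fb) (x : F) : Prop :=
  ∀ yb : Fb, IsInt k (D.rd x) yb → ∃ y ∈ D.O, IsInt K x y ∧ D.rd y = yb

/-- TC1.  The two reduction data are independent. -/
def Stmt_TCPair : Prop :=
  ∀ (K F' F k L L₁ : Type) [Field K] [Field F'] [Algebra K F'] [Field F] [Algebra K F]
    [Field k] [Field L] [Algebra k L] [Field L₁] [Algebra k L₁]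
    (D' : RedData K F' k L) (D₁ D₂ : RedData K F k L₁) (ι₁ ι₂ : F' →ₐ[K] F) (j : L →ₐ[k] L₁)
    (Fr : L →+* L) (φb : L ≃+* L) (r : ℕ), TC D' D₁ D₂ ι₁ ι₂ j Fr φb r →
    ∀ x ∈ D'.O, Transcendental k (D'.rd x) → φb (D'.rd x) = D'.rd x → Pair D₁ D₂

/-- TC2.  The family `(X^i a_l, 0), (0, X^i a_l)`, `i ≤ r`, is independent over `k[τ]`,
`τ = (X^(r+1), X^(r+1))`. -/
def Stmt_TCIndep : Prop :=
  ∀ (k L : Type) [Field k] [Field L] [Algebra k L] (X : L) (r n' : ℕ) (a : Fin n' → L),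
    Transcendental k X → LinearIndependent k⟮X⟯ a →
    LinearIndependent (Algebra.adjoin k {((X ^ (r + 1), X ^ (r + 1)) : L × L)})
      (fun p : Fin 2 × Fin (r + 1) × Fin n' =>
        if p.1 = 0 then ((X ^ (p.2.1 : ℕ) * a p.2.2, 0) : L × L)
        else ((0, X ^ (p.2.1 : ℕ) * a p.2.2) : L × L))

/-- TC3.  `T = ι₁ x * ι₂ x` is a good coordinate for `S`, and `j` is onto. -/
def Stmt_TCChart : Prop :=
  ∀ (K F' F k L L₁ : Type) [Field K] [Field F'] [Algebra K F'] [Field F] [Algebra K F]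
    [Field k] [Field L] [Algebra k L] [Field L₁] [Algebra k L₁]
    (D' : RedData K F' k L) (D₁ D₂ : RedData K F k L₁) (ι₁ ι₂ : F' →ₐ[K] F) (j : L →ₐ[k] L₁)
    (Fr : L →+* L) (φb : L ≃+* L) (r : ℕ), TC D' D₁ D₂ ι₁ ι₂ j Fr φb r →
    ∀ S : SData K F k (L₁ × L₁), IsPairData D₁ D₂ S →
    ∀ x : F', Chart D' x → φb (D'.rd x) = D'.rd x →
      FiniteDimensional K⟮ι₁ x * ι₂ x⟯ F →
      Module.finrank K⟮ι₁ x * ι₂ x⟯ F ≤ 2 * ((r + 1) * Module.finrank K⟮x⟯ F') →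
      SChart S (ι₁ x * ι₂ x) ∧ Function.Surjective j

/-- TC4.  Lifts of the generators `(a, Fr a)`, `(Fr a, a)`. -/
def Stmt_TCLift : Prop :=
  ∀ (K F' F k L L₁ : Type) [Field K] [Field F'] [Algebra K F'] [Field F] [Algebra K F]
    [Field k] [Field L] [Algebra k L] [Field L₁] [Algebra k L₁]
    (D' : RedData K F' k L) (D₁ D₂ : RedData K F k L₁) (ι₁ ι₂ : F' →ₐ[K] F) (j : L →ₐ[k] L₁)
    (Fr : L →+* L) (φb : L ≃+* L) (r : ℕ), TC D' D₁ D₂ ι₁ ι₂ j Fr φb r →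
    ∀ S : SData K F k (L₁ × L₁), IsPairData D₁ D₂ S →
    ∀ x : F', Normal D' x → IsInt K (ι₁ x * ι₂ x) (ι₁ x) → IsInt K (ι₁ x * ι₂ x) (ι₂ x) →
    ∀ a : L, IsInt k (D'.rd x) a →
      (∃ ξ ∈ S.O, IsInt K (ι₁ x * ι₂ x) ξ ∧ S.rd ξ = (j a, j (Fr a))) ∧
      (∃ ξ ∈ S.O, IsInt K (ι₁ x * ι₂ x) ξ ∧ S.rd ξ = (j (Fr a), j a))

/-- TC5 (pure algebra in characteristic `r`).  A subring `Bb` of `L × L` containing all `(a, Fr a)`,
`(Fr a, a)`, `a ∈ OO` (= integral closure of `k[X]` in `L`) contains `I × I`, where `I` is the ideal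
of `OO` generated by the `a - Fr (Fr a)`; `I` is a radical ideal and contains
`X ^ (r * (r + 1)) - X ^ (r + 1)`. -/
def Stmt_TCIdeal : Prop :=
  ∀ (k L : Type) [Field k] [Field L] [Algebra k L] (X : L) (Fr : L →+* L) (φb : L ≃+* L) (r : ℕ),
    2 ≤ r → (∀ a : L, Fr (φb a) = a ^ r) → φb X = X →
    (∀ c : k, ∃ c' : k, φb (algebraMap k L c) = algebraMap k L c') →
    (∀ c : k, ∃ c' : k, φb.symm (algebraMap k L c) = algebraMap k L c') →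
    ∀ Bb : Subring (L × L), (∀ a : L, IsInt k X a → (a, Fr a) ∈ Bb ∧ (Fr a, a) ∈ Bb) →
      (∀ (g₁ g₂ h₁ h₂ : L) (N : ℕ), IsInt k X g₁ → IsInt k X g₂ → IsInt k X h₁ → IsInt k X h₂ →
        g₁ ^ N = (X ^ (r * (r + 1)) - X ^ (r + 1)) * h₁ →
        g₂ ^ N = (X ^ (r * (r + 1)) - X ^ (r + 1)) * h₂ → (g₁, g₂) ∈ Bb) ∧
      (∀ f₁ f₂ h₁ h₂ : L, IsInt k X f₁ → IsInt k X f₂ → IsInt k X h₁ → IsInt k X h₂ →
        ((φb (φb f₁) - f₁ ^ r ^ 2) * h₁, (φb (φb f₂) - f₂ ^ r ^ 2) * h₂) ∈ Bb)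

/-- TC6.  (SN-a) and (SN-b) on the chart `Spec K[T]`. -/
def Stmt_TCSN : Prop :=
  ∀ (K F' F k L L₁ : Type) [Field K] [Field F'] [Algebra K F'] [Field F] [Algebra K F]
    [Field k] [Field L] [Algebra k L] [Field L₁] [Algebra k L₁]
    (D' : RedData K F' k L) (D₁ D₂ : RedData K F k L₁) (ι₁ ι₂ : F' →ₐ[K] F) (j : L →ₐ[k] L₁)
    (Fr : L →+* L) (φb : L ≃+* L) (r : ℕ), TC D' D₁ D₂ ι₁ ι₂ j Fr φb r → Function.Surjective j →
    ∀ S : SData K F k (L₁ × L₁), IsPairData D₁ D₂ S →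
    ∀ x ∈ D'.O, Transcendental k (D'.rd x) → φb (D'.rd x) = D'.rd x → Normal D' x →
      IsInt K (ι₁ x * ι₂ x) (ι₁ x) → IsInt K (ι₁ x * ι₂ x) (ι₂ x) →
      SN S (ι₁ x * ι₂ x) ∧
      ∀ σb : L₁ × L₁ →+* L₁ × L₁,
        (∀ g₁ g₂ : L, σb (j g₁, j g₂) = (j (φb (φb g₁)), j (φb (φb g₂)))) →
        SNb S (ι₁ x * ι₂ x) σb (r ^ 2)

/-- TC7 (integrality over `K[x y]` from a modular equation).  `Φ(x, y) = 0`, `Φ` monic in the
outer variable `x`, of degree `≤ D` in the inner variable `y`.  Then `x` is a root of a monic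
polynomial of degree `deg Φ + D` with coefficients in `K[x y]`. -/
def Stmt_TCPhi : Prop :=
  ∀ (K F : Type) [Field K] [Field F] [Algebra K F] (x y : F) (Φ : K[X][X]) (D : ℕ), x ≠ 0 →
    Φ.Monic → (∀ i, (Φ.coeff i).natDegree ≤ D) →
    Φ.eval₂ ((aeval y : K[X] →ₐ[K] F) : K[X] →+* F) x = 0 →
    ∃ P : (Algebra.adjoin K {x * y})[X], P.Monic ∧ P.natDegree = Φ.natDegree + D ∧
      aeval x P = 0

/-- TC7'.  `Φ(y, x) = 0`, `Φ` monic in the outer variable `y`.  Then `x⁻¹` is integral over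
`K[(x y)⁻¹]`. -/
def Stmt_TCPhiInv : Prop :=
  ∀ (K F : Type) [Field K] [Field F] [Algebra K F] (x y : F) (Φ : K[X][X]), x ≠ 0 → y ≠ 0 →
    Φ.Monic → Φ.eval₂ ((aeval x : K[X] →ₐ[K] F) : K[X] →+* F) y = 0 →
    IsInt K (x * y)⁻¹ x⁻¹

/-- TC8 (the degree of `F` over `K(x y)`). -/
def Stmt_TCFin : Prop :=
  ∀ (K F : Type) [Field K] [Field F] [Algebra K F] (x y : F) (n' D₂ : ℕ) (β : Fin n' → F),
    x ≠ 0 → (∃ P : (K⟮x * y⟯)[X], P.Monic ∧ P.natDegree = D₂ ∧ aeval x P = 0) →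
    (∀ z : F, ∃ (e : ℕ) (c : Fin e → Fin n' → K⟮y⟯),
      z = ∑ i, ∑ l, (c i l : F) * (x ^ (i : ℕ) * β l)) →
    FiniteDimensional K⟮x * y⟯ F ∧ Module.finrank K⟮x * y⟯ F ≤ D₂ * n'

/-- TC9 (transfer of normality).  Normality on the chart `t` implies normality on the chart `x` if
`t`, `u⁻¹` are integral over `K[x]`, and `rd u`, `rd x * rd u ^ a` are integral over `k[rd t]`
(`x = P(t) / u ^ a`, `u` a polynomial in `t`). -/
def Stmt_TCNormal : Prop :=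
  ∀ (K F k Fb : Type) [Field K] [Field F] [Algebra K F] [Field k] [Field Fb] [Algebra k Fb]
    (D : RedData K F k Fb) (t x u : F) (a : ℕ), Normal D t → x ∈ D.O → u ∈ D.O → D.rd u ≠ 0 →
    IsInt K x t → IsInt K x u⁻¹ → IsInt k (D.rd t) (D.rd u) →
    IsInt k (D.rd t) (D.rd x * D.rd u ^ a) → Normal D x

/-- TC10 (a chart only depends on the fields `K(t)`, `k(rd t)`). -/
def Stmt_TCChartCongr : Prop :=
  ∀ (K F k Fb : Type) [Field K] [Field F] [Algebra K F] [Field k] [Field Fb] [Algebra k Fb]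
    (D : RedData K F k Fb) (s x : F), Chart D s → x ∈ D.O → K⟮x⟯ = K⟮s⟯ →
    k⟮D.rd x⟯ = k⟮D.rd s⟯ → Chart D x

/-- **TC : Theorem G for two copies.** -/
def Stmt_TCG : Prop :=
  ∀ (K F' F k L L₁ : Type) [Field K] [Field F'] [Algebra K F'] [Field F] [Algebra K F]
    [Field k] [Field L] [Algebra k L] [Field L₁] [Algebra k L₁]
    [IsAlgClosed K] [CharZero K] [IsAlgClosed k]
    (D' : RedData K F' k L) (D₁ D₂ : RedData K F k L₁) (ι₁ ι₂ : F' →ₐ[K] F) (j : L →ₐ[k] L₁)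
    (Fr : L →+* L) (φb : L ≃+* L) (r : ℕ), TC D' D₁ D₂ ι₁ ι₂ j Fr φb r → Arch D₁ →
    ∀ x : F', Chart D' x → φb (D'.rd x) = D'.rd x → Normal D' x → Normal D' x⁻¹ →
      IsInt K (ι₁ x * ι₂ x) (ι₁ x) → IsInt K (ι₁ x * ι₂ x) (ι₂ x) →
      IsInt K (ι₁ x * ι₂ x)⁻¹ (ι₁ x)⁻¹ → IsInt K (ι₁ x * ι₂ x)⁻¹ (ι₂ x)⁻¹ →
      FiniteDimensional K⟮ι₁ x * ι₂ x⟯ F →
      Module.finrank K⟮ι₁ x * ι₂ x⟯ F ≤ 2 * ((r + 1) * Module.finrank K⟮x⟯ F') →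
    ∀ (σ : F →+* F) (σ₁ : L₁ →+* L₁) (Q : ℕ),
      (∀ a : K, ∃ a' : K, σ (algebraMap K F a) = algebraMap K F a') →
      σ (ι₁ x * ι₂ x) = ι₁ x * ι₂ x →
      (∀ z ∈ D₁.O, σ z ∈ D₁.O ∧ D₁.rd (σ z) = σ₁ (D₁.rd z)) →
      (∀ z ∈ D₂.O, σ z ∈ D₂.O ∧ D₂.rd (σ z) = σ₁ (D₂.rd z)) →
      ((Q = 1 ∧ ∀ g : L₁, σ₁ g = g) ∨ (Q = r ^ 2 ∧ ∀ g : L, σ₁ (j g) = j (φb (φb g)))) →
    ∀ (v : F) (m : ℕ) (c₁ c₂ : k), 0 < m → (m : k) ≠ 0 → c₁ ≠ 0 → c₂ ≠ 0 →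
      D₁.rd v = algebraMap k L₁ c₁ → D₂.rd v = algebraMap k L₁ c₂ →
      σ₁ (algebraMap k L₁ c₁) = algebraMap k L₁ (c₁ ^ Q) →
      σ₁ (algebraMap k L₁ c₂) = algebraMap k L₁ (c₂ ^ Q) →
      LocPow K (ι₁ x * ι₂ x) v m → LocPow K (ι₁ x * ι₂ x)⁻¹ v m →
      ∃ y : F, y ^ m = σ v / v ^ Q

end Fermat.Agent.BR.Inv
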