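import Fermat.Agent.BR.Inv.AlgInterface

/-!
# BR / Inv, package A1 : points of a finite dimensional commutative algebra over an algebraically
closed field.
-/

set_option autoImplicit false

namespace Fermat.Agent.BR.Inv

/-- every maximal ideal of a finite dimensional algebra over an algebraically closed field is the
kernel of a point. -/
theorem A1_exists_point (k S : Type) [Field k] [IsAlgClosed k] [CommRing S] [Algebra k S]
    [Module.Finite k S] (M : Ideal S) (hM : M.IsMaximal) :
    ∃ χ : S →ₐ[k] k, ∀ s ∈ M, χ s = 0 := by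
  let _ : Field (S ⧸ M) := Ideal.Quotient.field M
  have : Module.Finite k (S ⧸ M) := Module.Finite.of_surjective
    (Ideal.Quotient.mkₐ k M).toLinearMap (Ideal.Quotient.mkₐ_surjective k M)
  have : Algebra.IsIntegral k (S ⧸ M) := Algebra.IsIntegral.of_finite k (S ⧸ M)
  have hb : Function.Bijective (algebraMap k (S ⧸ M)) :=
    IsAlgClosed.algebraMap_bijective_of_isIntegral
  let e : k ≃ₐ[k] (S ⧸ M) := AlgEquiv.ofBijective (Algebra.ofId k (S ⧸ M)) hb
  refine ⟨e.symm.toAlgHom.comp (Ideal.Quotient.mkₐ k M), fun s hs => ?_⟩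
  have h0 : Ideal.Quotient.mk M s = 0 := Ideal.Quotient.eq_zero_iff_mem.2 hs
  simp [h0]

/-- the kernel of a point is a maximal ideal. -/
theorem A1_ker_isMaximal (k S : Type) [Field k] [CommRing S] [Algebra k S] (χ : S →ₐ[k] k) :
    (RingHom.ker χ.toRingHom).IsMaximal :=
  RingHom.ker_isMaximal_of_surjective χ.toRingHom fun a => ⟨algebraMap k S a, by simp⟩

/-- a point is determined by its kernel. -/
theorem A1_eq_of_ker_le (k S : Type) [Field k] [CommRing S] [Algebra k S] (χ ψ : S →ₐ[k] k)
    (h : ∀ s, χ s = 0 → ψ s = 0) : χ = ψ := by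
  ext s
  have h1 : χ (s - algebraMap k S (χ s)) = 0 := by simp
  have h2 := h _ h1
  simp only [map_sub, AlgHom.commutes, Algebra.algebraMap_self, RingHom.id_apply] at h2
  exact (sub_eq_zero.1 h2).symm

theorem stmt_Points : Stmt_Points := by
  intro k S _ _ _ _ _
  have : IsArtinianRing S := IsArtinianRing.of_finite k S
  have hfin : Finite (S →ₐ[k] k) := by
    have hinj : Function.Injective
        (fun χ : S →ₐ[k] k => (⟨RingHom.ker χ.toRingHom, A1_ker_isMaximal k S χ⟩ :
          MaximalSpectrum S)) := by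
      intro χ ψ h
      have h' : RingHom.ker χ.toRingHom = RingHom.ker ψ.toRingHom := congrArg (·.asIdeal) h
      refine A1_eq_of_ker_le k S χ ψ fun s hs => ?_
      have : s ∈ RingHom.ker χ.toRingHom := hs
      rw [h'] at this
      exact this
    exact Finite.of_injective _ hinj
  refine ⟨hfin, ?_, ?_, ?_⟩
  · intro s hs
    have hJ : s ∈ Ideal.jacobson (⊥ : Ideal S) := by
      rw [Ideal.mem_jacobson_bot]
      intro y
      by_contra hu
      obtain ⟨M, hM, hmem⟩ := exists_max_ideal_of_mem_nonunits hu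
      obtain ⟨χ, hχ⟩ := A1_exists_point k S M hM
      have := hχ _ hmem
      simp [hs χ] at this
    obtain ⟨n, hn⟩ := IsArtinianRing.isNilpotent_jacobson_bot (R := S)
    refine ⟨n, ?_⟩
    have := Ideal.pow_mem_pow hJ n
    rw [hn] at this
    exact this
  · intro α
    have hcop : Pairwise fun χ ψ : S →ₐ[k] k =>
        IsCoprime (RingHom.ker χ.toRingHom) (RingHom.ker ψ.toRingHom) := by
      intro χ ψ hne
      rw [Ideal.isCoprime_iff_sup_eq]
      refine (A1_ker_isMaximal k S χ).coprime_of_ne (A1_ker_isMaximal k S ψ) fun h => hne ?_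
      refine A1_eq_of_ker_le k S χ ψ fun s hs => ?_
      have : s ∈ RingHom.ker χ.toRingHom := hs
      rw [h] at this
      exact this
    obtain ⟨r, hr⟩ := Ideal.exists_forall_sub_mem_ideal hcop fun χ => algebraMap k S (α χ)
    refine ⟨r, fun χ => ?_⟩
    have : χ (r - algebraMap k S (α χ)) = 0 := hr χ
    simpa [sub_eq_zero] using this
  · intro s hs
    by_contra hu
    obtain ⟨M, hM, hmem⟩ := exists_max_ideal_of_mem_nonunits hu
    obtain ⟨χ, hχ⟩ := A1_exists_point k S M hM
    exact hs χ (hχ _ hmem)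

end Fermat.Agent.BR.Inv
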