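import Fermat.Agent.BR.Inv.AlgInterface

/-!
# BR / Inv, package A2 : the lines lemma
-/

set_option autoImplicit false

namespace Fermat.Agent.BR.Inv

open Polynomial

section

variable {k S : Type} [Field k] [IsAlgClosed k] [CommRing S] [Algebra k S] [Module.Finite k S]

/-- CLAIM 1: an element which is constant on the classes of points lies in `S0`. -/
theorem A2_mem_of_const (h1 : Stmt_Points) (S0 : Subalgebra k S)
    (hnil : ∀ s : S, IsNilpotent s → s ∈ S0) (s : S)
    (hs : ∀ P Q : S →ₐ[k] k, (∀ f ∈ S0, P f = Q f) → P s = Q s) : s ∈ S0 := by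
  classical
  have hfin : Module.Finite k S0 :=
    FiniteDimensional.finiteDimensional_submodule (Subalgebra.toSubmodule S0)
  obtain ⟨-, -, hint, -⟩ := h1 k S0
  obtain ⟨-, hn, -, -⟩ := h1 k S
  let α : (S0 →ₐ[k] k) → k := fun ψ =>
    if h : ∃ P : S →ₐ[k] k, P.comp S0.val = ψ then h.choose s else 0
  obtain ⟨s0, hs0⟩ := hint α
  have key : ∀ P : S →ₐ[k] k, P (s0 : S) = P s := by
    intro P
    have hex : ∃ P' : S →ₐ[k] k, P'.comp S0.val = P.comp S0.val := ⟨P, rfl⟩
    have h2 : α (P.comp S0.val) = hex.choose s := dif_pos hex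
    have h3 : hex.choose s = P s := by
      apply hs
      intro f hf
      exact DFunLike.congr_fun hex.choose_spec (⟨f, hf⟩ : S0)
    have h4 := hs0 (P.comp S0.val)
    rw [h2, h3] at h4
    exact h4
  have hnil' : IsNilpotent (s - s0) := by
    apply hn
    intro P
    rw [map_sub, key, sub_self]
  have := S0.add_mem (hnil _ hnil') s0.2
  rwa [sub_add_cancel] at this

omit [IsAlgClosed k] [CommRing S] [Algebra k S] [Module.Finite k S] in
/-- the polynomial identity behind CLAIM 2. -/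
theorem A2_poly [Infinite k] (m : ℕ) (hm : (m : k) ≠ 0) (a b b' a₂ b₂ b₂' : k)
    (h : ∀ t : k, a * (b + t * b') ^ m = a₂ * (b₂ + t * b₂') ^ m) :
    a * b ^ (m - 1) * b' = a₂ * b₂ ^ (m - 1) * b₂' := by
  have hp : C a * (C b + X * C b') ^ m = C a₂ * (C b₂ + X * C b₂') ^ m := by
    apply Polynomial.funext
    intro t
    simp only [eval_mul, eval_C, eval_pow, eval_add, eval_X]
    exact h t
  have hd := congrArg (fun p => (derivative p).eval 0) hp
  simp only [derivative_mul, derivative_C, zero_mul, derivative_pow, derivative_add,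
    derivative_X, one_mul, zero_add, mul_zero, add_zero, eval_mul, eval_C, eval_pow, eval_add,
    eval_X] at hd
  have h3 : (m : k) * (a * b ^ (m - 1) * b') = (m : k) * (a₂ * b₂ ^ (m - 1) * b₂') := by
    linear_combination hd
  exact mul_left_cancel₀ hm h3

end

/-- A2 (the lines lemma). -/
theorem stmt_Lines (h1 : Stmt_Points) : Stmt_Lines := by
  classical
  intro k S _ _ _ _ _ S0 V c m hm hc hnil hV
  obtain ⟨hfinX, -, hint, hunit⟩ := h1 k S
  have hinf : Infinite k := IsAlgClosed.instInfinite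
  have hm0 : m ≠ 0 := by
    rintro rfl
    simp at hm
  have hPc : ∀ P : S →ₐ[k] k, P c ≠ 0 := fun P => (hc.map P).ne_zero
  -- CLAIM 2
  have c2i : ∀ P Q : S →ₐ[k] k, (∀ f ∈ S0, P f = Q f) → ∀ v ∈ V,
      P c * P v ^ m = Q c * Q v ^ m := by
    intro P Q hPQ v hv
    have := hPQ _ (hV v hv)
    simpa using this
  have c2ii : ∀ P Q : S →ₐ[k] k, (∀ f ∈ S0, P f = Q f) → ∀ v ∈ V, ∀ v' ∈ V,
      P c * P v ^ (m - 1) * P v' = Q c * Q v ^ (m - 1) * Q v' := by
    intro P Q hPQ v hv v' hv'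
    apply A2_poly m hm
    intro t
    have := c2i P Q hPQ (v + t • v') (V.add_mem hv (V.smul_mem t hv'))
    simpa using this
  have c2ne : ∀ P Q : S →ₐ[k] k, (∀ f ∈ S0, P f = Q f) → ∀ v ∈ V, P v ≠ 0 → Q v ≠ 0 := by
    intro P Q hPQ v hv hPv hQv
    have := c2i P Q hPQ v hv
    rw [hQv, zero_pow hm0, mul_zero] at this
    exact mul_ne_zero (hPc P) (pow_ne_zero m hPv) this
  -- the generic vector
  obtain ⟨w, hwV, hw⟩ := Module.Dual.exists_forall_mem_ne_zero_of_forall_exists V
    (fun i : {P : S →ₐ[k] k // ∃ x ∈ V, P x ≠ 0} => i.1.toLinearMap) (fun i => i.2)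
  have hw' : ∀ P : S →ₐ[k] k, P w = 0 → ∀ x ∈ V, P x = 0 := by
    intro P hP x hx
    by_contra hne
    exact hw ⟨P, x, hx, hne⟩ hP
  obtain ⟨g, hg⟩ := hint (fun P => if P w ≠ 0 then (P w)⁻¹ else 1)
  refine ⟨g, hunit g ?_, ?_⟩
  · intro P
    rw [hg]
    split_ifs with h
    · exact inv_ne_zero h
    · exact one_ne_zero
  · intro v' hv'
    apply A2_mem_of_const h1 S0 hnil
    intro P Q hPQ
    rw [map_mul, map_mul, hg, hg]
    by_cases hP : P w = 0
    · have hQ : Q w = 0 := by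
        by_contra hQ
        exact c2ne Q P (fun f hf => (hPQ f hf).symm) w hwV hQ hP
      rw [hw' P hP v' hv', hw' Q hQ v' hv', mul_zero, mul_zero]
    · have hQ : Q w ≠ 0 := c2ne P Q hPQ w hwV hP
      rw [if_pos hP, if_pos hQ]
      have e1 := c2i P Q hPQ w hwV
      have e2 := c2ii P Q hPQ w hwV v' hv'
      obtain ⟨n, rfl⟩ : ∃ n, m = n + 1 := Nat.exists_eq_succ_of_ne_zero hm0
      simp only [Nat.add_sub_cancel] at e2
      have hA : P c * P w ^ n ≠ 0 := mul_ne_zero (hPc P) (pow_ne_zero _ hP)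
      have hB : Q c * Q w ^ n ≠ 0 := mul_ne_zero (hPc Q) (pow_ne_zero _ hQ)
      rw [inv_mul_eq_div, inv_mul_eq_div, div_eq_div_iff hP hQ]
      have e3 : (P c * P w ^ n) * (Q c * Q w ^ n) * (P v' * Q w) =
          (P c * P w ^ n) * (Q c * Q w ^ n) * (Q v' * P w) := by
        have e1' : P c * P w ^ n * P w = Q c * Q w ^ n * Q w := by
          rw [mul_assoc, mul_assoc, ← pow_succ, ← pow_succ]
          exact e1
        linear_combination (Q c * Q w ^ n * Q w) * e2 - (Q c * Q w ^ n * Q v') * e1'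
      exact mul_left_cancel₀ (mul_ne_zero hA hB) e3

end Fermat.Agent.BR.Inv
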