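import Fermat.Agent.BR.Inv.AlgInterface

/-!
# BR / Inv, package A3 : `Ot` is free of rank `n` over `k[τ]`
-/

set_option autoImplicit false

namespace Fermat.Agent.BR.Inv

open Polynomial

/-- abstract form: a submodule `O` of `M` over a PID, sandwiched `span b ⊆ O`, `u O ⊆ span b` with
`u` acting injectively, is free of the same rank. -/
theorem A3_abs {R M : Type*} [CommRing R] [IsDomain R] [IsPrincipalIdealRing R] [AddCommGroup M]
    [Module R M] {n : ℕ} (b : Fin n → M) (hli : LinearIndependent R b) (O : Submodule R M)
    (hb : ∀ i, b i ∈ O) (u : R) (hu : Function.Injective (fun x : M => u • x))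
    (hO : ∀ f ∈ O, u • f ∈ Submodule.span R (Set.range b)) :
    ∃ o : Fin n → M, LinearIndependent R o ∧ Submodule.span R (Set.range o) = O := by
  let φ : M →ₗ[R] M := LinearMap.lsmul R M u
  have hφ : Function.Injective φ := hu
  have hle : O.map φ ≤ Submodule.span R (Set.range b) := by
    rintro _ ⟨f, hf, rfl⟩
    exact hO f hf
  obtain ⟨n', c'⟩ := Submodule.basisOfPidOfLE hle (Module.Basis.span hli)
  let c : Module.Basis (Fin n') R O := c'.map (Submodule.equivMapOfInjective φ hφ O).symm
  have hSO : Submodule.span R (Set.range b) ≤ O :=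
    Submodule.span_le.mpr (by rintro _ ⟨i, rfl⟩; exact hb i)
  have h1 : Module.finrank R O = n' := by
    rw [Module.finrank_eq_card_basis c, Fintype.card_fin]
  have h2 : Module.finrank R (Submodule.span R (Set.range b)) = n := by
    rw [finrank_span_eq_card hli, Fintype.card_fin]
  have h3 : Module.finrank R (O.map φ) = n' := by
    rw [Module.finrank_eq_card_basis c', Fintype.card_fin]
  have f1 : Module.Finite R O := Module.Finite.of_basis c
  have f2 : Module.Finite R (Submodule.span R (Set.range b)) :=
    Module.Finite.of_basis (Module.Basis.span hli)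
  have h4 : n ≤ n' := by
    rw [← h1, ← h2]; exact Submodule.finrank_mono hSO
  have h5 : n' ≤ n := by
    rw [← h3, ← h2]; exact Submodule.finrank_mono hle
  obtain rfl : n' = n := le_antisymm h5 h4
  refine ⟨fun i => (c i : M), ?_, ?_⟩
  · exact c.linearIndependent.map' O.subtype (Submodule.ker_subtype _)
  · have e1 : (Set.range fun i => ((c i : O) : M)) = O.subtype '' Set.range c := by
      rw [← Set.range_comp]; rfl
    rw [e1, Submodule.span_image, c.span_eq, Submodule.map_top, Submodule.range_subtype]

theorem A3_isDomain {k E : Type*} [Field k] [CommRing E] [Algebra k E] {τ : E}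
    (ht : Transcendental k τ) : IsDomain (Algebra.adjoin k {τ}) :=
  (Polynomial.algEquivOfTranscendental k τ ht).symm.toMulEquiv.isDomain k[X]

theorem A3_pid {k E : Type*} [Field k] [CommRing E] [Algebra k E] {τ : E}
    (ht : Transcendental k τ) : IsPrincipalIdealRing (Algebra.adjoin k {τ}) :=
  IsPrincipalIdealRing.of_surjective
    (Polynomial.algEquivOfTranscendental k τ ht).toRingEquiv.toRingHom
    (Polynomial.algEquivOfTranscendental k τ ht).surjective

theorem stmt_OtBasis : Stmt_OtBasis := by
  intro k E _ _ _ _ τ n b d H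
  have := A3_isDomain H.transcendental
  have := A3_pid H.transcendental
  obtain ⟨o, ho1, ho2⟩ := A3_abs (R := Algebra.adjoin k {τ}) b H.li
    (Subalgebra.toSubmodule (integralClosure (Algebra.adjoin k {τ}) E)) (fun i => H.int i)
    (⟨aeval τ d, aeval_mem_adjoin τ d⟩ : Algebra.adjoin k {τ})
    (fun x y hxy => (H.unit d H.d0).mul_left_cancel hxy)
    (fun f hf => H.d_mul_mem hf)
  refine ⟨o, ho1, fun f => ?_⟩
  unfold Sp
  rw [ho2]
  exact Iff.rfl

end Fermat.Agent.BR.Inv

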