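import Fermat.Agent.BR.Inv.AlgInterface

/-!
# BR / Inv / A4 : the determinant step at `τ0`
-/

set_option autoImplicit false

namespace Fermat.Agent.BR.Inv

open Polynomial Matrix

section Calc

variable {k E : Type*} [Field k] [CommRing E] [Algebra k E] {n : ℕ}

/-- evaluation of polynomial matrices at `τ`. -/
noncomputable def A4_phi (τ : E) : Matrix (Fin n) (Fin n) k[X] →+* Matrix (Fin n) (Fin n) E :=
  (aeval τ : k[X] →ₐ[k] E).toRingHom.mapMatrix

theorem A4_phi_mulVec (τ : E) (M : Matrix (Fin n) (Fin n) k[X]) (e : Fin n → E) (i : Fin n) :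
    (A4_phi τ M *ᵥ e) i = ∑ j, aeval τ (M i j) * e j := rfl

theorem A4_phi_smul (τ : E) (p : k[X]) (M : Matrix (Fin n) (Fin n) k[X]) :
    A4_phi τ (p • M) = aeval τ p • A4_phi τ M := by
  ext i j
  simp [A4_phi]

theorem A4_unique {τ : E} {o : Fin n → E} (hli : LinearIndependent (Algebra.adjoin k {τ}) o)
    (hinj : Function.Injective (aeval τ : k[X] → E)) {M M' : Matrix (Fin n) (Fin n) k[X]}
    (h : A4_phi τ M *ᵥ o = A4_phi τ M' *ᵥ o) : M = M' := by
  ext1 i
  have h1 := congrFun h i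
  rw [A4_phi_mulVec, A4_phi_mulVec, ← sub_eq_zero, ← Finset.sum_sub_distrib] at h1
  have h2 := li_poly hli hinj (fun j => M i j - M' i j) (by
    rw [← h1]
    refine Finset.sum_congr rfl fun j _ => ?_
    rw [map_sub, sub_mul])
  intro j
  exact sub_eq_zero.1 (congrFun h2 j)

theorem A4_exists_matrix (τ : E) (e u : Fin n → E) (h : ∀ i, u i ∈ Sp k τ e) :
    ∃ M : Matrix (Fin n) (Fin n) k[X], u = A4_phi τ M *ᵥ e := by
  choose M hM using fun i => (mem_Sp_iff τ e (u i)).1 (h i)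
  exact ⟨Matrix.of M, funext fun i => by rw [hM i, A4_phi_mulVec]; rfl⟩

end Calc

section Half

variable {k E : Type} [Field k] [CommRing E] [Nontrivial E] [Algebra k E] {τ : E} {n : ℕ}
  {b : Fin n → E} {d : k[X]}

theorem A4_det_W_ne_zero (H : AlgSetting k τ b d) {o : Fin n → E}
    {W : Matrix (Fin n) (Fin n) k[X]} (hW : b = A4_phi τ W *ᵥ o) : W.det ≠ 0 := by
  intro h0
  obtain ⟨v, hv0, hv⟩ := Matrix.exists_vecMul_eq_zero_iff.2 h0
  apply hv0
  apply li_poly H.li H.aeval_injective v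
  have h1 : ∑ i, aeval τ (v i) * b i = (fun i => aeval τ (v i)) ⬝ᵥ (A4_phi τ W *ᵥ o) := by
    rw [← hW]; rfl
  rw [h1, Matrix.dotProduct_mulVec]
  have h2 : (fun i => aeval τ (v i)) ᵥ* A4_phi τ W = 0 := by
    funext j
    have := RingHom.map_vecMul (aeval τ : k[X] →ₐ[k] E).toRingHom W v j
    rw [hv] at this
    simp only [Pi.zero_apply, map_zero] at this
    exact this.symm
  rw [h2, zero_dotProduct]

theorem A4_half (H : AlgSetting k τ b d) {o : Fin n → E}
    (hli : LinearIndependent (Algebra.adjoin k {τ}) o)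
    (ho : ∀ f : E, f ∈ Sp k τ o ↔ IsIntE k τ f) (x : Fin n → E)
    (P : Matrix (Fin n) (Fin n) k[X])
    (hP : ∀ i, aeval τ d * x i = ∑ j, aeval τ (P i j) * b j)
    (τ0 : k) (g g1 h : E) (hg : IsIntE k τ g) (hg1 : IsIntE k τ g1) (hh : IsIntE k τ h)
    (hgg : g * g1 = 1 + (τ - algebraMap k E τ0) * h) (hgx : ∀ i, g * x i ∈ Sp k τ b) :
    ∃ G Γ : Matrix (Fin n) (Fin n) k[X], (∀ i, g * x i = ∑ j, aeval τ (G i j) * b j) ∧
      (Γ.det).eval τ0 ≠ 0 ∧ P.det * Γ.det = d ^ n * G.det := by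
  have hinj := H.aeval_injective
  have hoi : ∀ i, IsIntE k τ (o i) := fun i => (ho _).1 (mem_Sp_self τ o i)
  obtain ⟨W, hW⟩ := A4_exists_matrix τ o b (fun i => (ho _).2 (H.int i))
  obtain ⟨Γ, hΓ⟩ := A4_exists_matrix τ o (g • o) (fun i => (ho _).2 (hg.mul (hoi i)))
  obtain ⟨Γ1, hΓ1⟩ := A4_exists_matrix τ o (g1 • o) (fun i => (ho _).2 (hg1.mul (hoi i)))
  obtain ⟨Hh, hHh⟩ := A4_exists_matrix τ o (h • o) (fun i => (ho _).2 (hh.mul (hoi i)))
  obtain ⟨G, hG⟩ := A4_exists_matrix τ b (g • x) hgx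
  have hWdet := A4_det_W_ne_zero H hW
  have hP' : aeval τ d • x = A4_phi τ P *ᵥ b := funext fun i => hP i
  -- (2)
  have h2 : Γ * Γ1 = 1 + (X - C τ0) • Hh := by
    apply A4_unique hli hinj
    rw [map_mul, ← Matrix.mulVec_mulVec, ← hΓ1, Matrix.mulVec_smul, ← hΓ, map_add, map_one,
      Matrix.add_mulVec, Matrix.one_mulVec, A4_phi_smul, Matrix.smul_mulVec, ← hHh]
    funext i
    simp only [Pi.smul_apply, Pi.add_apply, smul_eq_mul, map_sub, aeval_X, aeval_C]
    linear_combination (o i) * hgg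
  have h2' : (Γ.det).eval τ0 * (Γ1.det).eval τ0 = 1 := by
    rw [← eval_mul, ← Matrix.det_mul, h2]
    have e1 : eval τ0 ((1 + (X - C τ0) • Hh).det)
        = ((evalRingHom τ0).mapMatrix (1 + (X - C τ0) • Hh)).det :=
      RingHom.map_det (evalRingHom τ0) _
    rw [e1]
    have e2 : (evalRingHom τ0).mapMatrix (1 + (X - C τ0) • Hh) = 1 := by
      rw [map_add, map_one]
      have : (evalRingHom τ0).mapMatrix ((X - C τ0) • Hh) = 0 := by
        ext i j
        simp
      rw [this, add_zero]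
    rw [e2, Matrix.det_one]
  -- (3)
  have h3 : P * W * Γ = d • (G * W) := by
    apply A4_unique hli hinj
    rw [map_mul, map_mul, ← Matrix.mulVec_mulVec, ← Matrix.mulVec_mulVec, ← hΓ, Matrix.mulVec_smul,
      Matrix.mulVec_smul, ← hW, ← hP', A4_phi_smul, map_mul, Matrix.smul_mulVec,
      ← Matrix.mulVec_mulVec, ← hW, ← hG, smul_comm]
  refine ⟨G, Γ, fun i => congrFun hG i, left_ne_zero_of_mul_eq_one h2', ?_⟩
  have h4 := congrArg Matrix.det h3
  rw [Matrix.det_mul, Matrix.det_mul, Matrix.det_smul, Matrix.det_mul, Fintype.card_fin] at h4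
  apply mul_right_cancel₀ hWdet
  linear_combination h4

end Half

theorem stmt_DetStep : Stmt_DetStep := by
  intro k E _ _ _ _ τ n b d H o hli ho x y P P' c0 hc0 hP hP' hdet τ0 g g1 h g' g1' h' hg hg1 hh
    hg' hg1' hh' hgg hgg' hgx hgy
  obtain ⟨G, Γ, hG, hΓ, e1⟩ := A4_half H hli ho x P hP τ0 g g1 h hg hg1 hh hgg hgx
  obtain ⟨G', Γ', -, hΓ', e2⟩ := A4_half H hli ho y P' hP' τ0 g' g1' h' hg' hg1' hh' hgg' hgy
  -- (4)
  have hd : d ^ (2 * n) ≠ 0 := pow_ne_zero _ H.d0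
  have e3 : C c0 * (Γ.det * Γ'.det) = G.det * G'.det := by
    apply mul_left_cancel₀ hd
    have : d ^ (2 * n) = d ^ n * d ^ n := by rw [two_mul, pow_add]
    calc d ^ (2 * n) * (C c0 * (Γ.det * Γ'.det))
        = (P.det * P'.det) * (Γ.det * Γ'.det) := by rw [hdet]; ring
      _ = (P.det * Γ.det) * (P'.det * Γ'.det) := by ring
      _ = d ^ (2 * n) * (G.det * G'.det) := by rw [e1, e2, this]; ring
  have hGdet : (G.det).eval τ0 ≠ 0 := by
    have := congrArg (eval τ0) e3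
    rw [eval_mul, eval_mul, eval_mul, eval_C] at this
    intro h0
    rw [h0, zero_mul] at this
    exact mul_ne_zero hc0 (mul_ne_zero hΓ hΓ') this
  -- (5)
  obtain ⟨β, hβ⟩ := (mem_Sp_iff τ b 1).1 H.one
  let G0 : Matrix (Fin n) (Fin n) k := (evalRingHom τ0).mapMatrix G
  have hG0 : G0.det ≠ 0 := by
    have : G0.det = eval τ0 G.det := (RingHom.map_det (evalRingHom τ0) G).symm
    rw [this]; exact hGdet
  have hG0u : IsUnit G0.det := isUnit_iff_ne_zero.2 hG0
  let lam : Fin n → k := (fun j => eval τ0 (β j)) ᵥ* G0⁻¹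
  have hlam : lam ᵥ* G0 = fun j => eval τ0 (β j) := by
    rw [Matrix.vecMul_vecMul, Matrix.nonsing_inv_mul _ hG0u, Matrix.vecMul_one]
  have hroot : ∀ j, (X - C τ0) ∣ β j - ∑ i, C (lam i) * G i j := by
    intro j
    rw [dvd_iff_isRoot, IsRoot.def, eval_sub, eval_finsetSum]
    have := congrFun hlam j
    simp only [eval_mul, eval_C]
    rw [sub_eq_zero, ← this]
    rfl
  choose q hq using hroot
  refine ⟨∑ i, aeval τ (C (lam i)) * x i, (mem_Sp_iff τ x _).2 ⟨fun i => C (lam i), rfl⟩,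
    ∑ j, aeval τ (q j) * b j, (mem_Sp_iff τ b _).2 ⟨q, rfl⟩, ?_⟩
  have h1 : g * ∑ i, aeval τ (C (lam i)) * x i
      = ∑ j, aeval τ (∑ i, C (lam i) * G i j) * b j := by
    rw [Finset.mul_sum]
    simp only [map_sum, map_mul, Finset.sum_mul]
    rw [Finset.sum_comm]
    refine Finset.sum_congr rfl fun i _ => ?_
    rw [mul_left_comm, hG i, Finset.mul_sum]
    refine Finset.sum_congr rfl fun j _ => ?_
    ring
  have h2 : (τ - algebraMap k E τ0) * ∑ j, aeval τ (q j) * b j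
      = ∑ j, aeval τ (β j - ∑ i, C (lam i) * G i j) * b j := by
    rw [Finset.mul_sum]
    refine Finset.sum_congr rfl fun j _ => ?_
    rw [hq j, map_mul, map_sub, aeval_X, aeval_C]
    ring
  rw [h1, h2, ← Finset.sum_add_distrib, hβ]
  refine Finset.sum_congr rfl fun j _ => ?_
  rw [← add_mul, ← map_add]
  congr 2
  ring

end Fermat.Agent.BR.Inv
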