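import Fermat.Agent.BR.Inv.AlgDefs

/-!
# BR / Inv : statements of the pure algebra packages behind lemma (Inv)

Each `Stmt_*` is a `Prop`; each is proved in its own file (with the earlier `Stmt_*` as explicit
hypotheses).  Notation in the comments: `R = k[τ]`, `Ot` = integral closure of `R` in `E`,
`Bb = Sp k τ b`, `Mb = Sp k τ x`, `Nb = Sp k τ y`.
-/

set_option autoImplicit false

namespace Fermat.Agent.BR.Inv

open Polynomial

/-- A1 (points of a finite dimensional commutative algebra over an algebraically closed field). -/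
def Stmt_Points : Prop :=
  ∀ (k S : Type) [Field k] [IsAlgClosed k] [CommRing S] [Algebra k S] [Module.Finite k S],
    Finite (S →ₐ[k] k) ∧
    (∀ s : S, (∀ χ : S →ₐ[k] k, χ s = 0) → IsNilpotent s) ∧
    (∀ α : (S →ₐ[k] k) → k, ∃ s : S, ∀ χ : S →ₐ[k] k, χ s = α χ) ∧
    (∀ s : S, (∀ χ : S →ₐ[k] k, χ s ≠ 0) → IsUnit s)

/-- A2 (the lines lemma).  `S0 ⊆ S` a subalgebra containing the nilradical, `V ⊆ S` a `k`-subspace
with `c v ^ m ∈ S0` for all `v ∈ V`.  Then `g V ⊆ S0` for some unit `g` of `S`. -/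
def Stmt_Lines : Prop :=
  ∀ (k S : Type) [Field k] [IsAlgClosed k] [CommRing S] [Algebra k S] [Module.Finite k S]
    (S0 : Subalgebra k S) (V : Submodule k S) (c : S) (m : ℕ),
    (m : k) ≠ 0 → IsUnit c → (∀ s : S, IsNilpotent s → s ∈ S0) → (∀ v ∈ V, c * v ^ m ∈ S0) →
    ∃ g : S, IsUnit g ∧ ∀ v ∈ V, g * v ∈ S0

/-- A3.  `Ot` is a free `R`-module of rank `n`. -/
def Stmt_OtBasis : Prop :=
  ∀ (k E : Type) [Field k] [CommRing E] [Nontrivial E] [Algebra k E] (τ : E) (n : ℕ)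
    (b : Fin n → E) (d : k[X]), AlgSetting k τ b d →
    ∃ o : Fin n → E, LinearIndependent (Algebra.adjoin k {τ}) o ∧
      ∀ f : E, f ∈ Sp k τ o ↔ IsIntE k τ f

/-- A4 (the determinant step at `τ0`).  If `g Mb ⊆ Bb`, `g' Nb ⊆ Bb` with `g, g'` invertible modulo
`(τ - τ0) Ot`, then `g Mb + (τ - τ0) Bb = Bb`. -/
def Stmt_DetStep : Prop :=
  ∀ (k E : Type) [Field k] [CommRing E] [Nontrivial E] [Algebra k E] (τ : E) (n : ℕ)
    (b : Fin n → E) (d : k[X]), AlgSetting k τ b d →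
    ∀ o : Fin n → E, LinearIndependent (Algebra.adjoin k {τ}) o →
      (∀ f : E, f ∈ Sp k τ o ↔ IsIntE k τ f) →
    ∀ (x y : Fin n → E) (P P' : Matrix (Fin n) (Fin n) k[X]) (c0 : k), c0 ≠ 0 →
      (∀ i, aeval τ d * x i = ∑ j, aeval τ (P i j) * b j) →
      (∀ i, aeval τ d * y i = ∑ j, aeval τ (P' i j) * b j) →
      P.det * P'.det = C c0 * d ^ (2 * n) →
    ∀ (τ0 : k) (g g1 h g' g1' h' : E), IsIntE k τ g → IsIntE k τ g1 → IsIntE k τ h →
      IsIntE k τ g' → IsIntE k τ g1' → IsIntE k τ h' →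
      g * g1 = 1 + (τ - algebraMap k E τ0) * h → g' * g1' = 1 + (τ - algebraMap k E τ0) * h' →
      (∀ i, g * x i ∈ Sp k τ b) → (∀ i, g' * y i ∈ Sp k τ b) →
      ∃ z ∈ Sp k τ x, ∃ f ∈ Sp k τ b, g * z + (τ - algebraMap k E τ0) * f = 1

/-- A5 (existence of `g`).  For every `τ0` there is `g ∈ Ot`, invertible modulo `(τ - τ0) Ot`, with
`g Mb ⊆ Bb`. -/
def Stmt_ExistsG : Prop :=
  ∀ (k E : Type) [Field k] [IsAlgClosed k] [CommRing E] [Nontrivial E] [Algebra k E] (τ : E)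
    (n : ℕ) (b : Fin n → E) (d : k[X]), AlgSetting k τ b d →
    ∀ (x : Fin n → E) (c c' : E) (m : ℕ), (m : k) ≠ 0 → c * c' = 1 → IsIntE k τ c →
      IsIntE k τ c' → (∀ z ∈ Sp k τ x, c * z ^ m ∈ Sp k τ b) →
    ∀ τ0 : k, ∃ g g1 h : E, IsIntE k τ g ∧ IsIntE k τ g1 ∧ IsIntE k τ h ∧
      g * g1 = 1 + (τ - algebraMap k E τ0) * h ∧ ∀ z ∈ Sp k τ x, g * z ∈ Sp k τ b

/-- A6 (local to global).  An ideal `𝔞 = ∑ Ot x_i` of `Ot` which contains a nonzero polynomial in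
`τ` and is comaximal with `(τ - τ0)` for every `τ0` is the unit ideal. -/
def Stmt_LocGlob : Prop :=
  ∀ (k E : Type) [Field k] [IsAlgClosed k] [CommRing E] [Algebra k E] (τ : E) (n : ℕ)
    (x : Fin n → E) (p : k[X]), p ≠ 0 →
    (∃ a : Fin n → E, (∀ i, IsIntE k τ (a i)) ∧ ∑ i, a i * x i = aeval τ p) →
    (∀ τ0 : k, ∃ (a : Fin n → E) (f : E), (∀ i, IsIntE k τ (a i)) ∧ IsIntE k τ f ∧
      ∑ i, a i * x i + (τ - algebraMap k E τ0) * f = 1) →
    ∃ a : Fin n → E, (∀ i, IsIntE k τ (a i)) ∧ ∑ i, a i * x i = 1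

/-- **Lemma (Inv), pure algebra form**: `Mb Ot = Ot = Nb Ot`. -/
def Stmt_InvAlg : Prop :=
  ∀ (k E : Type) [Field k] [IsAlgClosed k] [CommRing E] [Nontrivial E] [Algebra k E] (τ : E)
    (n : ℕ) (b : Fin n → E) (d : k[X]), AlgSetting k τ b d →
    ∀ (x y : Fin n → E) (P P' : Matrix (Fin n) (Fin n) k[X]) (c0 : k), c0 ≠ 0 →
      (∀ i, aeval τ d * x i = ∑ j, aeval τ (P i j) * b j) →
      (∀ i, aeval τ d * y i = ∑ j, aeval τ (P' i j) * b j) →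
      P.det * P'.det = C c0 * d ^ (2 * n) →
    ∀ (c c' : E) (m : ℕ), (m : k) ≠ 0 → c * c' = 1 → IsIntE k τ c → IsIntE k τ c' →
      (∀ z ∈ Sp k τ x, c * z ^ m ∈ Sp k τ b) → (∀ z ∈ Sp k τ y, c' * z ^ m ∈ Sp k τ b) →
      (∃ a : Fin n → E, (∀ i, IsIntE k τ (a i)) ∧ ∑ i, a i * x i = 1) ∧
      (∃ a : Fin n → E, (∀ i, IsIntE k τ (a i)) ∧ ∑ i, a i * y i = 1)

/-- A8 (integral extensions: a proper ideal stays proper).  `z_l ∈ Bb`; if the `z_l` generate the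
unit ideal of `Ot` they generate the unit ideal of `Bb`. -/
def Stmt_UnitIdeal : Prop :=
  ∀ (k E : Type) [Field k] [CommRing E] [Nontrivial E] [Algebra k E] (τ : E) (n : ℕ)
    (b : Fin n → E) (d : k[X]), AlgSetting k τ b d →
    ∀ (ι : Type) [Fintype ι] (z a : ι → E), (∀ l, z l ∈ Sp k τ b) → (∀ l, IsIntE k τ (a l)) →
      ∑ l, a l * z l = 1 → ∃ a' : ι → E, (∀ l, a' l ∈ Sp k τ b) ∧ ∑ l, a' l * z l = 1

end Fermat.Agent.BR.Inv
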