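/-
BR / Inv, package A5 (helper75): existence of `g` (`Stmt_ExistsG`).

Replace `d` by `D = d (X - τ0)` (still an `AlgSetting`), work in the finite dimensional `k`-algebra
`S = Ot / D(τ) Ot`, apply the lines lemma to the images of `Bb` and `Mb`, and lift.
-/
import Fermat.Agent.BR.Inv.AlgInterface

set_option autoImplicit false

noncomputable section

namespace Fermat.Agent.BR.Inv

open Polynomial

section A5

variable {k E : Type} [Field k] [CommRing E] [Algebra k E]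

/-- `Ot` as a `k`-subalgebra of `E`. -/
def A5_Ot (k : Type) {E : Type} [Field k] [CommRing E] [Algebra k E] (τ : E) : Subalgebra k E :=
  (integralClosure (Algebra.adjoin k {τ}) E).restrictScalars k

theorem A5_mem_Ot {τ f : E} : f ∈ A5_Ot k τ ↔ IsIntE k τ f := Iff.rfl

/-- `Bb` as a `k`-subalgebra of `Ot`. -/
def A5_Bb {τ : E} {n : ℕ} {b : Fin n → E} {d : k[X]} (H : AlgSetting k τ b d) :
    Subalgebra k (A5_Ot k τ) where
  carrier := {f | f.1 ∈ Sp k τ b}
  mul_mem' := fun ha hb => H.mul_mem ha hb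
  add_mem' := fun ha hb => (Sp k τ b).add_mem ha hb
  algebraMap_mem' := fun a => by
    show algebraMap k E a ∈ Sp k τ b
    have := H.aeval_mem (C a)
    simpa using this

/-- `Mb ∩ Ot` as a `k`-subspace of `Ot`. -/
def A5_Vx (τ : E) {n : ℕ} (x : Fin n → E) : Submodule k (A5_Ot k τ) where
  carrier := {f | f.1 ∈ Sp k τ x}
  add_mem' := fun ha hb => (Sp k τ x).add_mem ha hb
  zero_mem' := (Sp k τ x).zero_mem
  smul_mem' := fun a f hf => by
    show a • f.1 ∈ Sp k τ x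
    have := aeval_mul_mem_Sp τ x (C a) hf
    simpa [Algebra.smul_def] using this

/-- the element `D(τ)` of `Ot`. -/
def A5_u (τ : E) (D : k[X]) : A5_Ot k τ := ⟨aeval τ D, isIntE_aeval τ D⟩

/-- membership in the principal ideal `D(τ) Ot`. -/
theorem A5_mem_span {τ : E} {D : k[X]} {f : A5_Ot k τ} (hf : f ∈ Ideal.span {A5_u τ D}) :
    ∃ h : E, IsIntE k τ h ∧ f.1 = aeval τ D * h := by
  obtain ⟨h, rfl⟩ := Ideal.mem_span_singleton.1 hf
  exact ⟨h.1, h.2, rfl⟩

/-- `Ot / D(τ) Ot` is finite dimensional over `k`. -/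
theorem A5_finite {τ : E} {n : ℕ} (o : Fin n → E) (ho : ∀ f : E, f ∈ Sp k τ o ↔ IsIntE k τ f)
    (D : k[X]) (hD : D.natDegree ≠ 0) :
    Module.Finite k (A5_Ot k τ ⧸ Ideal.span {A5_u τ D}) := by
  have hτ : IsIntE k τ τ := by
    have := isIntE_aeval (k := k) τ X
    rwa [aeval_X] at this
  have hoi : ∀ j, IsIntE k τ (o j) := fun j => (ho _).1 (mem_Sp_self τ o j)
  let w : Fin n × Fin D.natDegree → A5_Ot k τ ⧸ Ideal.span {A5_u τ D} := fun ji =>
    Ideal.Quotient.mk _ ⟨τ ^ (ji.2 : ℕ) * o ji.1, (hτ.pow _).mul (hoi _)⟩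
  refine ⟨(Submodule.fg_def).2 ⟨Set.range w, Set.finite_range w, ?_⟩⟩
  rw [eq_top_iff]
  rintro s -
  obtain ⟨f, rfl⟩ := Ideal.Quotient.mk_surjective s
  obtain ⟨P, hP⟩ := (mem_Sp_iff τ o f.1).1 ((ho _).2 f.2)
  -- the remainder
  let f' : A5_Ot k τ := ∑ j : Fin n, ∑ i : Fin D.natDegree,
    (P j % D).coeff i • (⟨τ ^ (i : ℕ) * o j, (hτ.pow _).mul (hoi _)⟩ : A5_Ot k τ)
  let q : A5_Ot k τ := ⟨∑ j, aeval τ (P j / D) * o j,
    isIntE_sum _ _ _ fun j _ => (isIntE_aeval τ _).mul (hoi j)⟩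
  have hf : f = f' + A5_u τ D * q := by
    apply Subtype.ext
    have h1 : (f' : E) = ∑ j : Fin n, aeval τ (P j % D) * o j := by
      simp only [f', AddSubmonoidClass.coe_finsetSum]
      refine Finset.sum_congr rfl fun j _ => ?_
      rw [aeval_eq_sum_range' (natDegree_mod_lt (P j) hD), Finset.sum_mul,
        Finset.sum_range (fun i => (P j % D).coeff i • τ ^ i * o j)]
      refine Finset.sum_congr rfl fun i _ => ?_
      show (P j % D).coeff i • (τ ^ (i : ℕ) * o j) = _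
      rw [smul_mul_assoc]
    show f.1 = (f' : E) + aeval τ D * ∑ j, aeval τ (P j / D) * o j
    rw [h1, hP, Finset.mul_sum, ← Finset.sum_add_distrib]
    refine Finset.sum_congr rfl fun j _ => ?_
    conv_lhs => rw [← EuclideanDomain.mod_add_div (P j) D]
    rw [map_add, map_mul]
    ring
  have hmk : Ideal.Quotient.mk (Ideal.span {A5_u τ D}) f = Ideal.Quotient.mk _ f' := by
    rw [hf, map_add, add_eq_left, Ideal.Quotient.eq_zero_iff_mem]
    exact Ideal.mul_mem_right _ _ (Ideal.mem_span_singleton_self _)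
  rw [hmk]
  simp only [f', map_sum]
  refine Submodule.sum_mem _ fun j _ => Submodule.sum_mem _ fun i _ => ?_
  have h2 : Ideal.Quotient.mk (Ideal.span {A5_u τ D}) ((P j % D).coeff i •
      (⟨τ ^ (i : ℕ) * o j, (hτ.pow _).mul (hoi _)⟩ : A5_Ot k τ)) = (P j % D).coeff i • w (j, i) := rfl
  rw [h2]
  exact Submodule.smul_mem _ _ (Submodule.subset_span ⟨(j, i), rfl⟩)

/-- enlarging `d`. -/
theorem A5_setting_mul {τ : E} {n : ℕ} {b : Fin n → E} {d : k[X]} (H : AlgSetting k τ b d)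
    (e : k[X]) (he : e ≠ 0) : AlgSetting k τ b (d * e) where
  unit := H.unit
  li := H.li
  int := H.int
  one := H.one
  mul := H.mul
  d0 := mul_ne_zero H.d0 he
  rad := fun f h N hf hh hfh => H.rad f (aeval τ e * h) N hf ((isIntE_aeval τ e).mul hh) (by
    rw [hfh, map_mul, mul_assoc])

end A5

/-- A5 (existence of `g`). -/
theorem stmt_ExistsG (h2 : Stmt_Lines) (h3 : Stmt_OtBasis) : Stmt_ExistsG := by
  intro k E _ _ _ _ _ τ n b d H x c c' m hm hcc hc hc' hz τ0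
  have hm0 : 0 < m := by
    rcases Nat.eq_zero_or_pos m with h | h
    · rw [h] at hm; simp at hm
    · exact h
  -- elements of `Mb` are integral
  have hint : ∀ z ∈ Sp k τ x, IsIntE k τ z := by
    intro z hzx
    apply IsIntE.of_pow hm0
    have h1 : z ^ m = c' * (c * z ^ m) := by
      rw [← mul_assoc, mul_comm c' c, hcc, one_mul]
    rw [h1]
    exact hc'.mul (H.isIntE_of_mem (hz z hzx))
  -- enlarge `d`
  set D : k[X] := d * (X - C τ0) with hD
  have hX : (X - C τ0 : k[X]) ≠ 0 := X_sub_C_ne_zero τ0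
  have HD : AlgSetting k τ b D := A5_setting_mul H _ hX
  have hDdeg : D.natDegree ≠ 0 := by
    rw [hD, natDegree_mul H.d0 hX, natDegree_X_sub_C]
    omega
  have hDτ : aeval τ D = (τ - algebraMap k E τ0) * aeval τ d := by
    rw [hD, map_mul, map_sub, aeval_X, aeval_C, mul_comm]
  obtain ⟨o, -, ho⟩ := h3 k E τ n b d H
  have : Module.Finite k (A5_Ot k τ ⧸ Ideal.span {A5_u τ D}) := A5_finite o ho D hDdeg
  set I : Ideal (A5_Ot k τ) := Ideal.span {A5_u τ D} with hI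
  set π : A5_Ot k τ →ₐ[k] A5_Ot k τ ⧸ I := Ideal.Quotient.mkₐ k I with hπ
  have hπs : Function.Surjective π := Ideal.Quotient.mkₐ_surjective k I
  have hπ0 : ∀ f : A5_Ot k τ, π f = 0 → ∃ h : E, IsIntE k τ h ∧ f.1 = aeval τ D * h := by
    intro f hf
    exact A5_mem_span (Ideal.Quotient.eq_zero_iff_mem.1 hf)
  obtain ⟨gb, hgb, hgV⟩ := h2 k (A5_Ot k τ ⧸ I) ((A5_Bb HD).map π)
    ((A5_Vx τ x).map π.toLinearMap) (π ⟨c, hc⟩) m hm
    (by
      refine IsUnit.of_mul_eq_one (π ⟨c', hc'⟩) ?_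
      rw [← map_mul, ← map_one π]
      congr 1
      exact Subtype.ext hcc)
    (by
      intro s hs
      obtain ⟨f, rfl⟩ := hπs s
      obtain ⟨N, hN⟩ := hs
      rw [← map_pow] at hN
      obtain ⟨h, hh, hfh⟩ := hπ0 _ hN
      exact ⟨f, HD.rad f.1 h N f.2 hh hfh, rfl⟩)
    (by
      rintro _ ⟨z, hzV, rfl⟩
      refine ⟨⟨c, hc⟩ * z ^ m, hz z.1 hzV, ?_⟩
      simp)
  obtain ⟨g, rfl⟩ := hπs gb
  obtain ⟨gi, hgi⟩ := hgb.exists_right_inv
  obtain ⟨g1, rfl⟩ := hπs gi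
  have h4 : π (g * g1 - 1) = 0 := by
    rw [map_sub, map_mul, hgi, map_one, sub_self]
  obtain ⟨h0, hh0, hgg⟩ := hπ0 _ h4
  refine ⟨g.1, g1.1, aeval τ d * h0, g.2, g1.2, (isIntE_aeval τ d).mul hh0, ?_, ?_⟩
  · have h5 : g.1 * g1.1 - 1 = aeval τ D * h0 := hgg
    rw [hDτ] at h5
    linear_combination h5
  · intro z hzx
    obtain ⟨β, hβ, hβg⟩ := hgV (π ⟨z, hint z hzx⟩) ⟨⟨z, hint z hzx⟩, hzx, rfl⟩
    have h6 : π (g * ⟨z, hint z hzx⟩ - β) = 0 := by
      rw [map_sub, map_mul]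
      exact sub_eq_zero.2 hβg.symm
    obtain ⟨h1, hh1, hgz⟩ := hπ0 _ h6
    have h7 : g.1 * z - β.1 = aeval τ D * h1 := hgz
    have h8 : g.1 * z = β.1 + aeval τ D * h1 := by linear_combination h7
    rw [h8]
    exact (Sp k τ b).add_mem hβ (HD.d_mul_mem hh1)

end Fermat.Agent.BR.Inv

end
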