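import Fermat.Agent.BR.Inv.AlgInterface

/-!
# BR / Inv : A6, local to global (`Stmt_LocGlob`)
-/

set_option autoImplicit false

namespace Fermat.Agent.BR.Inv

open Polynomial

section A6

variable {k E : Type} [Field k] [CommRing E] [Algebra k E]

/-- `q(τ)` is comaximal with the ideal `∑ Ot x_i`. -/
def A6_Good (τ : E) {n : ℕ} (x : Fin n → E) (q : k[X]) : Prop :=
  ∃ (a : Fin n → E) (f : E), (∀ i, IsIntE k τ (a i)) ∧ IsIntE k τ f ∧
    ∑ i, a i * x i + aeval τ q * f = 1

theorem A6_good_C (τ : E) {n : ℕ} (x : Fin n → E) {c : k} (hc : c ≠ 0) :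
    A6_Good τ x (C c) := by
  refine ⟨fun _ => 0, aeval τ (C c⁻¹), fun _ => isIntE_zero τ, isIntE_aeval τ _, ?_⟩
  rw [← map_mul, ← C_mul, mul_inv_cancel₀ hc]
  simp

theorem A6_good_mul (τ : E) {n : ℕ} (x : Fin n → E) {q q' : k[X]}
    (h : A6_Good τ x q) (h' : A6_Good τ x q') : A6_Good τ x (q * q') := by
  obtain ⟨a, f, ha, hf, e⟩ := h
  obtain ⟨a', f', ha', hf', e'⟩ := h'
  refine ⟨fun i => a i + aeval τ q * f * a' i, f * f',
    fun i => (ha i).add (((isIntE_aeval τ q).mul hf).mul (ha' i)), hf.mul hf', ?_⟩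
  have e1 : ∑ i, (a i + aeval τ q * f * a' i) * x i
      = ∑ i, a i * x i + aeval τ q * f * ∑ i, a' i * x i := by
    rw [Finset.mul_sum, ← Finset.sum_add_distrib]
    exact Finset.sum_congr rfl fun i _ => by ring
  rw [e1, map_mul]
  linear_combination e + aeval τ q * f * e'

theorem A6_good_prod (τ : E) {n : ℕ} (x : Fin n → E) (s : Multiset k)
    (h : ∀ τ0 : k, A6_Good τ x (X - C τ0)) :
    A6_Good τ x (s.map fun a => X - C a).prod := by
  induction s using Multiset.induction with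
  | empty =>
    simpa using A6_good_C τ x (one_ne_zero : (1 : k) ≠ 0)
  | cons a s ih =>
    rw [Multiset.map_cons, Multiset.prod_cons]
    exact A6_good_mul τ x (h a) ih

end A6

theorem stmt_LocGlob : Stmt_LocGlob := by
  intro k E _ _ _ _ τ n x p hp hcont hloc
  have h1 : ∀ τ0 : k, A6_Good τ x (X - C τ0) := by
    intro τ0
    obtain ⟨a, f, ha, hf, e⟩ := hloc τ0
    refine ⟨a, f, ha, hf, ?_⟩
    rw [map_sub, aeval_X, aeval_C]
    exact e
  have hsplit : p = C p.leadingCoeff * (p.roots.map fun a => X - C a).prod :=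
    (IsAlgClosed.splits p).eq_prod_roots
  have hgood : A6_Good τ x p := by
    rw [hsplit]
    exact A6_good_mul τ x (A6_good_C τ x (leadingCoeff_ne_zero.2 hp)) (A6_good_prod τ x _ h1)
  obtain ⟨a, f, ha, hf, e⟩ := hgood
  obtain ⟨c, hc, ec⟩ := hcont
  refine ⟨fun i => a i + f * c i, fun i => (ha i).add (hf.mul (hc i)), ?_⟩
  have e1 : ∑ i, (a i + f * c i) * x i = ∑ i, a i * x i + f * ∑ i, c i * x i := by
    rw [Finset.mul_sum, ← Finset.sum_add_distrib]
    exact Finset.sum_congr rfl fun i _ => by ring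
  rw [e1, ec]
  linear_combination e

end Fermat.Agent.BR.Inv
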