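import Fermat.Agent.BR.Inv.AlgInterface

/-!
# BR / Inv, package A7 : assembly of lemma (Inv), pure algebra form
-/

set_option autoImplicit false

namespace Fermat.Agent.BR.Inv

open Polynomial

theorem A7_det_mem {k E : Type} [Field k] [CommRing E] [Algebra k E] (τ : E)
    (n : ℕ) (b : Fin n → E) (d : k[X]) (x : Fin n → E) (P : Matrix (Fin n) (Fin n) k[X])
    (hP : ∀ i, aeval τ d * x i = ∑ j, aeval τ (P i j) * b j)
    (β : Fin n → k[X]) (hβ : (1 : E) = ∑ j, aeval τ (β j) * b j) :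
    ∑ i, aeval τ (∑ j, β j * P.adjugate j i * d) * x i = aeval τ P.det := by
  have h1 : ∀ i, aeval τ (∑ j, β j * P.adjugate j i * d) * x i =
      ∑ l, ∑ j, aeval τ (β j * (P.adjugate j i * P i l)) * b l := by
    intro i
    have e1 : aeval τ (∑ j, β j * P.adjugate j i * d) * x i =
        aeval τ (∑ j, β j * P.adjugate j i) * (aeval τ d * x i) := by
      rw [← Finset.sum_mul, map_mul]; ring
    rw [e1, hP i, Finset.mul_sum]
    refine Finset.sum_congr rfl fun l _ => ?_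
    rw [map_sum, ← mul_assoc, Finset.sum_mul, Finset.sum_mul]
    refine Finset.sum_congr rfl fun j _ => ?_
    rw [← map_mul, mul_assoc]
  simp only [h1]
  rw [Finset.sum_comm]
  have h2 : ∀ l, ∑ i, ∑ j, aeval τ (β j * (P.adjugate j i * P i l)) * b l =
      aeval τ P.det * (aeval τ (β l) * b l) := by
    intro l
    rw [Finset.sum_comm]
    have h3 : ∀ j, ∑ i, aeval τ (β j * (P.adjugate j i * P i l)) * b l =
        aeval τ (β j * (P.det • (1 : Matrix (Fin n) (Fin n) k[X])) j l) * b l := by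
      intro j
      rw [← Finset.sum_mul, ← map_sum, ← Finset.mul_sum, ← Matrix.adjugate_mul, Matrix.mul_apply]
    simp only [h3]
    rw [Finset.sum_eq_single l]
    · simp only [Matrix.smul_apply, Matrix.one_apply_eq, smul_eq_mul, mul_one, map_mul]
      ring
    · intro j _ hj
      simp [Matrix.smul_apply, Matrix.one_apply_ne hj]
    · intro h; exact absurd (Finset.mem_univ l) h
  simp only [h2]
  rw [← Finset.mul_sum, ← hβ, mul_one]

theorem A7_half (h3 : Stmt_OtBasis) (h4 : Stmt_DetStep) (h5 : Stmt_ExistsG) (h6 : Stmt_LocGlob)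
    {k E : Type} [Field k] [IsAlgClosed k] [CommRing E] [Nontrivial E] [Algebra k E] (τ : E)
    (n : ℕ) (b : Fin n → E) (d : k[X]) (H : AlgSetting k τ b d)
    (x y : Fin n → E) (P P' : Matrix (Fin n) (Fin n) k[X]) (c0 : k) (hc0 : c0 ≠ 0)
    (hP : ∀ i, aeval τ d * x i = ∑ j, aeval τ (P i j) * b j)
    (hP' : ∀ i, aeval τ d * y i = ∑ j, aeval τ (P' i j) * b j)
    (hdet : P.det * P'.det = C c0 * d ^ (2 * n))
    (c c' : E) (m : ℕ) (hm : (m : k) ≠ 0) (hcc : c * c' = 1) (hc : IsIntE k τ c)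
    (hc' : IsIntE k τ c')
    (hx : ∀ z ∈ Sp k τ x, c * z ^ m ∈ Sp k τ b) (hy : ∀ z ∈ Sp k τ y, c' * z ^ m ∈ Sp k τ b) :
    ∃ a : Fin n → E, (∀ i, IsIntE k τ (a i)) ∧ ∑ i, a i * x i = 1 := by
  obtain ⟨o, holi, ho⟩ := h3 k E τ n b d H
  have hdetP : P.det ≠ 0 := by
    intro h0
    rw [h0, zero_mul] at hdet
    exact (mul_ne_zero (C_ne_zero.2 hc0) (pow_ne_zero _ H.d0)) hdet.symm
  apply h6 k E τ n x P.det hdetP
  · obtain ⟨β, hβ⟩ := (mem_Sp_iff τ b 1).1 H.one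
    exact ⟨fun i => aeval τ (∑ j, β j * P.adjugate j i * d), fun i => isIntE_aeval _ _,
      A7_det_mem τ n b d x P hP β hβ⟩
  · intro τ0
    obtain ⟨g, g1, h, hg, hg1, hh, hgg, hgx⟩ := h5 k E τ n b d H x c c' m hm hcc hc hc' hx τ0
    obtain ⟨g', g1', h', hg', hg1', hh', hgg', hgy⟩ :=
      h5 k E τ n b d H y c' c m hm (by rw [mul_comm]; exact hcc) hc' hc hy τ0
    obtain ⟨z, hz, f, hf, hzf⟩ := h4 k E τ n b d H o holi ho x y P P' c0 hc0 hP hP' hdet τ0
      g g1 h g' g1' h' hg hg1 hh hg' hg1' hh' hgg hgg'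
      (fun i => hgx _ (mem_Sp_self τ x i)) (fun i => hgy _ (mem_Sp_self τ y i))
    obtain ⟨p, rfl⟩ := (mem_Sp_iff τ x z).1 hz
    refine ⟨fun i => g * aeval τ (p i), f, fun i => hg.mul (isIntE_aeval _ _),
      H.isIntE_of_mem hf, ?_⟩
    rw [← hzf, Finset.mul_sum]
    congr 1
    exact Finset.sum_congr rfl fun i _ => by ring

/-- **Lemma (Inv), pure algebra form.** -/
theorem stmt_InvAlg (h3 : Stmt_OtBasis) (h4 : Stmt_DetStep) (h5 : Stmt_ExistsG)
    (h6 : Stmt_LocGlob) : Stmt_InvAlg := by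
  intro k E _ _ _ _ _ τ n b d H x y P P' c0 hc0 hP hP' hdet c c' m hm hcc hc hc' hx hy
  exact ⟨A7_half h3 h4 h5 h6 τ n b d H x y P P' c0 hc0 hP hP' hdet c c' m hm hcc hc hc' hx hy,
    A7_half h3 h4 h5 h6 τ n b d H y x P' P c0 hc0 hP' hP (by rw [mul_comm]; exact hdet) c' c m hm
      (by rw [mul_comm]; exact hcc) hc' hc hy hx⟩

end Fermat.Agent.BR.Inv
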