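/-
BR / Inv, package A8 (helper65): ideals of `Bb` generating the unit ideal of `Ot`.
-/
import Fermat.Agent.BR.Inv.AlgInterface

set_option autoImplicit false

namespace Fermat.Agent.BR.Inv

open Polynomial

/-- integral extensions: a proper ideal stays proper (finite families, elementwise form). -/
theorem A8_general {R E : Type*} [CommRing R] [CommRing E] [Algebra R E] (Bs : Subalgebra R E)
    {ι : Type*} [Fintype ι] (z a : ι → E) (hz : ∀ l, z l ∈ Bs) (ha : ∀ l, IsIntegral Bs (a l))
    (h : ∑ l, a l * z l = 1) : ∃ a' : ι → E, (∀ l, a' l ∈ Bs) ∧ ∑ l, a' l * z l = 1 := by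
  let C : Subalgebra Bs E := integralClosure Bs E
  let z' : ι → Bs := fun l => ⟨z l, hz l⟩
  let I : Ideal Bs := Ideal.span (Set.range z')
  have hI : I = ⊤ := by
    by_contra hne
    obtain ⟨M, hM, hIM⟩ := Ideal.exists_le_maximal I hne
    have hinj : Function.Injective (algebraMap Bs C) := by
      intro x y hxy
      have := congrArg (fun c : C => (c : E)) hxy
      exact Subtype.ext this
    have hker : RingHom.ker (algebraMap Bs C) ≤ M := by
      rw [(RingHom.injective_iff_ker_eq_bot _).mp hinj]
      exact bot_le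
    obtain ⟨Q, hQ, hQM⟩ := Ideal.exists_ideal_over_maximal_of_isIntegral (S := C) M hker
    apply hQ.ne_top
    rw [Ideal.eq_top_iff_one]
    have h1 : (1 : C) = ∑ l, (⟨a l, ha l⟩ : C) * algebraMap Bs C (z' l) := by
      apply Subtype.ext
      rw [AddSubmonoidClass.coe_finsetSum]
      exact h.symm
    rw [h1]
    refine Ideal.sum_mem _ fun l _ => Ideal.mul_mem_left _ _ ?_
    have : z' l ∈ Q.comap (algebraMap Bs C) := by
      rw [hQM]
      exact hIM (Ideal.subset_span ⟨l, rfl⟩)
    exact this
  have h1 : (1 : Bs) ∈ Ideal.span (Set.range z') := by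
    show (1 : Bs) ∈ I
    rw [hI]; exact Submodule.mem_top
  obtain ⟨c, hc⟩ := (Ideal.mem_span_range_iff_exists_fun).mp h1
  refine ⟨fun l => (c l : E), fun l => (c l).2, ?_⟩
  have := congrArg (fun x : Bs => (x : E)) hc
  simpa using this

theorem stmt_UnitIdeal : Stmt_UnitIdeal := by
  intro k E _ _ _ _ τ n b d H ι _ z a hz ha h
  let Bs : Subalgebra (Algebra.adjoin k {τ}) E :=
    (Sp k τ b).toSubalgebra H.one (fun _ _ hx hy => H.mul_mem hx hy)
  exact A8_general Bs z a hz (fun l => (ha l).tower_top) h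

end Fermat.Agent.BR.Inv
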