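import Fermat.Agent.BR.Inv.A1
import Fermat.Agent.BR.Inv.A2
import Fermat.Agent.BR.Inv.A3
import Fermat.Agent.BR.Inv.A4
import Fermat.Agent.BR.Inv.A5
import Fermat.Agent.BR.Inv.A6
import Fermat.Agent.BR.Inv.A7
import Fermat.Agent.BR.Inv.A8

/-!
# BR / Inv : the pure algebra packages, unconditional forms
-/

set_option autoImplicit false

namespace Fermat.Agent.BR.Inv

/-- **Lemma (Inv), pure algebra form**, unconditional. -/
theorem invAlg : Stmt_InvAlg :=
  stmt_InvAlg stmt_OtBasis stmt_DetStep (stmt_ExistsG (stmt_Lines stmt_Points) stmt_OtBasis)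
    stmt_LocGlob

/-- ideals of `Bb` generating the unit ideal of `Ot`, unconditional. -/
theorem unitIdeal : Stmt_UnitIdeal := stmt_UnitIdeal

end Fermat.Agent.BR.Inv
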