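import Fermat.Agent.INJ.Interface
import Fermat.Agent.BR.Inv.AlgInterface

/-!
# BR / Inv : semi-local reduction data (sup-norm version of INJ), definitions + basic API

Setting.  `K` a field with a valuation subring `A` (residue field `k`), `F / K` a function field,
`O ⊆ F` the unit ball of a power-multiplicative norm `|x| = max_i |x|_i` (finitely many valuations
of `F` extending `A`, unramified over `A`), `E = O / {|x| < 1}` its reduction (a finite product of
fields in the application: `E = Fb × Fb`).  `S.rd : F → E` is the total reduction map (junk value `0`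
outside `O`).  Everything of INJ which does not use that `E` is a field goes through.
-/

set_option autoImplicit false

namespace Fermat.Agent.BR.Inv

open Polynomial IntermediateField
open Fermat.Agent.INJ (IsInt LocPow RedData)

/-- Semi-local reduction data. `unram` : the norm of every `x ≠ 0` is attained on `K`;
`unit` : an element of `O` whose reduction is a unit is a unit of `O`. -/
structure SData (K F k E : Type*) [Field K] [Field F] [Algebra K F] [Field k] [CommRing E]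
    [Algebra k E] where
  A : ValuationSubring K
  O : Subring F
  rA : A →+* k
  rO : O →+* E
  rA_surj : Function.Surjective rA
  rO_surj : Function.Surjective rO
  mem_iff : ∀ a : K, algebraMap K F a ∈ O ↔ a ∈ A
  compat : ∀ (a : K) (ha : a ∈ A) (h : algebraMap K F a ∈ O),
    rO ⟨algebraMap K F a, h⟩ = algebraMap k E (rA ⟨a, ha⟩)
  unram : ∀ x : F, x ≠ 0 → ∃ a : K, a ≠ 0 ∧ ∃ h : x * algebraMap K F a ∈ O,
    rO ⟨x * algebraMap K F a, h⟩ ≠ 0
  unit : ∀ (x : F) (h : x ∈ O), IsUnit (rO ⟨x, h⟩) → x⁻¹ ∈ O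

section API

variable {K F k E : Type*} [Field K] [Field F] [Algebra K F] [Field k] [CommRing E] [Algebra k E]
variable (S : SData K F k E)

open Classical in
/-- total reduction map `F → E` (zero outside `O`). -/
noncomputable def SData.rd (x : F) : E := if h : x ∈ S.O then S.rO ⟨x, h⟩ else 0

open Classical in
/-- total reduction map `K → k` (zero outside `A`). -/
noncomputable def SData.ra (a : K) : k := if h : a ∈ S.A then S.rA ⟨a, h⟩ else 0

variable {S}

theorem SData.rd_of_mem {x : F} (h : x ∈ S.O) : S.rd x = S.rO ⟨x, h⟩ := dif_pos h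

theorem SData.rd_of_not_mem {x : F} (h : x ∉ S.O) : S.rd x = 0 := dif_neg h

theorem SData.ra_of_mem {a : K} (h : a ∈ S.A) : S.ra a = S.rA ⟨a, h⟩ := dif_pos h

theorem SData.ra_of_not_mem {a : K} (h : a ∉ S.A) : S.ra a = 0 := dif_neg h

@[simp] theorem SData.rd_zero : S.rd 0 = 0 := by
  rw [SData.rd_of_mem S.O.zero_mem]; exact map_zero S.rO

@[simp] theorem SData.rd_one : S.rd 1 = 1 := by
  rw [SData.rd_of_mem S.O.one_mem]; exact map_one S.rO

theorem SData.rd_add {x y : F} (hx : x ∈ S.O) (hy : y ∈ S.O) :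
    S.rd (x + y) = S.rd x + S.rd y := by
  rw [SData.rd_of_mem hx, SData.rd_of_mem hy, SData.rd_of_mem (add_mem hx hy),
    ← map_add]; rfl

theorem SData.rd_mul {x y : F} (hx : x ∈ S.O) (hy : y ∈ S.O) :
    S.rd (x * y) = S.rd x * S.rd y := by
  rw [SData.rd_of_mem hx, SData.rd_of_mem hy, SData.rd_of_mem (mul_mem hx hy),
    ← map_mul]; rfl

theorem SData.rd_neg {x : F} (hx : x ∈ S.O) : S.rd (-x) = - S.rd x := by
  rw [SData.rd_of_mem hx, SData.rd_of_mem (neg_mem hx), ← map_neg]; rfl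

theorem SData.rd_sub {x y : F} (hx : x ∈ S.O) (hy : y ∈ S.O) :
    S.rd (x - y) = S.rd x - S.rd y := by
  rw [sub_eq_add_neg, SData.rd_add hx (neg_mem hy), SData.rd_neg hy, sub_eq_add_neg]

theorem SData.rd_pow {x : F} (hx : x ∈ S.O) (n : ℕ) : S.rd (x ^ n) = S.rd x ^ n := by
  rw [SData.rd_of_mem hx, SData.rd_of_mem (pow_mem hx n), ← map_pow]; rfl

theorem SData.sum_mem {ι : Type*} (s : Finset ι) (f : ι → F) (h : ∀ i ∈ s, f i ∈ S.O) :
    ∑ i ∈ s, f i ∈ S.O := S.O.sum_mem h

theorem SData.prod_mem {ι : Type*} (s : Finset ι) (f : ι → F) (h : ∀ i ∈ s, f i ∈ S.O) :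
    ∏ i ∈ s, f i ∈ S.O := S.O.prod_mem h

theorem SData.rd_sum {ι : Type*} (s : Finset ι) (f : ι → F) (h : ∀ i ∈ s, f i ∈ S.O) :
    S.rd (∑ i ∈ s, f i) = ∑ i ∈ s, S.rd (f i) := by
  classical
  induction s using Finset.induction_on with
  | empty => simp
  | insert a s ha ih =>
    rw [Finset.sum_insert ha, Finset.sum_insert ha,
      SData.rd_add (h a (Finset.mem_insert_self a s))
        (SData.sum_mem s f fun i hi => h i (Finset.mem_insert_of_mem hi)),
      ih fun i hi => h i (Finset.mem_insert_of_mem hi)]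

theorem SData.rd_prod {ι : Type*} (s : Finset ι) (f : ι → F) (h : ∀ i ∈ s, f i ∈ S.O) :
    S.rd (∏ i ∈ s, f i) = ∏ i ∈ s, S.rd (f i) := by
  classical
  induction s using Finset.induction_on with
  | empty => simp
  | insert a s ha ih =>
    rw [Finset.prod_insert ha, Finset.prod_insert ha,
      SData.rd_mul (h a (Finset.mem_insert_self a s))
        (SData.prod_mem s f fun i hi => h i (Finset.mem_insert_of_mem hi)),
      ih fun i hi => h i (Finset.mem_insert_of_mem hi)]

theorem SData.exists_rd_eq (y : E) : ∃ x ∈ S.O, S.rd x = y := by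
  obtain ⟨x, hx⟩ := S.rO_surj y
  exact ⟨x.1, x.2, by rw [SData.rd_of_mem x.2]; exact hx⟩

theorem SData.exists_ra_eq (c : k) : ∃ a ∈ S.A, S.ra a = c := by
  obtain ⟨x, hx⟩ := S.rA_surj c
  exact ⟨x.1, x.2, by rw [SData.ra_of_mem x.2]; exact hx⟩

theorem SData.algebraMap_mem {a : K} (ha : a ∈ S.A) : algebraMap K F a ∈ S.O :=
  (S.mem_iff a).2 ha

theorem SData.rd_algebraMap {a : K} (ha : a ∈ S.A) :
    S.rd (algebraMap K F a) = algebraMap k E (S.ra a) := by
  rw [SData.rd_of_mem (SData.algebraMap_mem ha), SData.ra_of_mem ha]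
  exact S.compat a ha _

/-- the reduction ring is nontrivial. -/
theorem SData.nontrivial (S : SData K F k E) : Nontrivial E := by
  obtain ⟨a, -, h, h0⟩ := S.unram 1 one_ne_zero
  exact ⟨⟨_, _, h0⟩⟩

theorem SData.mem_of_rd_ne_zero {x : F} (h : S.rd x ≠ 0) : x ∈ S.O := by
  by_contra h'
  exact h (SData.rd_of_not_mem h')

theorem SData.mem_of_isUnit_rd {x : F} (h : IsUnit (S.rd x)) : x ∈ S.O := by
  have := S.nontrivial
  exact SData.mem_of_rd_ne_zero h.ne_zero

/-- an element whose reduction is a unit of `E` is a unit of `O`. -/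
theorem SData.inv_mem_of_isUnit_rd {x : F} (h : IsUnit (S.rd x)) : x⁻¹ ∈ S.O := by
  have hx := SData.mem_of_isUnit_rd h
  rw [SData.rd_of_mem hx] at h
  exact S.unit x hx h

theorem SData.ne_zero_of_isUnit_rd {x : F} (h : IsUnit (S.rd x)) : x ≠ 0 := by
  have := S.nontrivial
  rintro rfl
  rw [SData.rd_zero] at h
  exact not_isUnit_zero h

theorem SData.rd_mul_rd_inv {x : F} (hx0 : x ≠ 0) (hx : x ∈ S.O) (hx' : x⁻¹ ∈ S.O) :
    S.rd x * S.rd x⁻¹ = 1 := by
  rw [← SData.rd_mul hx hx', mul_inv_cancel₀ hx0, SData.rd_one]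

theorem SData.isUnit_rd_of_inv_mem {x : F} (hx0 : x ≠ 0) (hx : x ∈ S.O) (hx' : x⁻¹ ∈ S.O) :
    IsUnit (S.rd x) :=
  IsUnit.of_mul_eq_one _ (SData.rd_mul_rd_inv hx0 hx hx')

theorem SData.div_mem {x y : F} (hx : x ∈ S.O) (hy : IsUnit (S.rd y)) : x / y ∈ S.O := by
  rw [div_eq_mul_inv]; exact mul_mem hx (SData.inv_mem_of_isUnit_rd hy)

/-- `rd (x / y) * rd y = rd x` when `rd y` is a unit. -/
theorem SData.rd_div_mul {x y : F} (hx : x ∈ S.O) (hy : IsUnit (S.rd y)) :
    S.rd (x / y) * S.rd y = S.rd x := by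
  rw [← SData.rd_mul (SData.div_mem hx hy) (SData.mem_of_isUnit_rd hy),
    div_mul_cancel₀ _ (SData.ne_zero_of_isUnit_rd hy)]

/-- if `rd y = 1` then `rd (x / y) = rd x`. -/
theorem SData.rd_div_of_rd_eq_one {x y : F} (hx : x ∈ S.O) (hy : S.rd y = 1) :
    S.rd (x / y) = S.rd x := by
  have h := SData.rd_div_mul hx (y := y) (by rw [hy]; exact isUnit_one)
  rwa [hy, mul_one] at h

/-! #### the valuation ring `A` -/

@[simp] theorem SData.ra_zero : S.ra 0 = 0 := by
  rw [SData.ra_of_mem S.A.zero_mem]; exact map_zero S.rA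

@[simp] theorem SData.ra_one : S.ra 1 = 1 := by
  rw [SData.ra_of_mem S.A.one_mem]; exact map_one S.rA

theorem SData.ra_add {a b : K} (ha : a ∈ S.A) (hb : b ∈ S.A) :
    S.ra (a + b) = S.ra a + S.ra b := by
  rw [SData.ra_of_mem ha, SData.ra_of_mem hb, SData.ra_of_mem (add_mem ha hb), ← map_add]; rfl

theorem SData.ra_mul {a b : K} (ha : a ∈ S.A) (hb : b ∈ S.A) :
    S.ra (a * b) = S.ra a * S.ra b := by
  rw [SData.ra_of_mem ha, SData.ra_of_mem hb, SData.ra_of_mem (mul_mem ha hb), ← map_mul]; rfl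

theorem SData.ra_pow {a : K} (ha : a ∈ S.A) (n : ℕ) : S.ra (a ^ n) = S.ra a ^ n := by
  rw [SData.ra_of_mem ha, SData.ra_of_mem (pow_mem ha n), ← map_pow]; rfl

/-- an element of `A` with nonzero reduction is a unit of `A`. -/
theorem SData.inv_mem_of_ra_ne_zero {a : K} (h : S.ra a ≠ 0) : a⁻¹ ∈ S.A := by
  have ha : a ∈ S.A := by
    by_contra h'
    exact h (SData.ra_of_not_mem h')
  rw [← S.mem_iff, map_inv₀]
  apply SData.inv_mem_of_isUnit_rd
  rw [SData.rd_algebraMap ha]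
  exact (isUnit_iff_ne_zero.2 h).map (algebraMap k E)

/-- an element outside `A` has inverse in `A` with reduction `0`. -/
theorem SData.inv_mem_of_not_mem {a : K} (ha : a ∉ S.A) : a⁻¹ ∈ S.A ∧ S.ra a⁻¹ = 0 := by
  have h1 : a⁻¹ ∈ S.A := (S.A.mem_or_inv_mem a).resolve_left ha
  refine ⟨h1, ?_⟩
  by_contra h
  have := SData.inv_mem_of_ra_ne_zero h
  rw [inv_inv] at this
  exact ha this

theorem SData.ra_ne_zero_of_inv_mem {a : K} (ha0 : a ≠ 0) (ha : a ∈ S.A) (ha' : a⁻¹ ∈ S.A) :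
    S.ra a ≠ 0 := by
  intro h
  have h1 : S.ra a * S.ra a⁻¹ = 1 := by
    rw [← SData.ra_mul ha ha', mul_inv_cancel₀ ha0, SData.ra_one]
  rw [h, zero_mul] at h1
  exact zero_ne_one h1

/-- total form of `unram`. -/
theorem SData.exists_norm {x : F} (hx : x ≠ 0) :
    ∃ a : K, a ≠ 0 ∧ x * algebraMap K F a ∈ S.O ∧ S.rd (x * algebraMap K F a) ≠ 0 := by
  obtain ⟨a, ha, h, h0⟩ := S.unram x hx
  exact ⟨a, ha, h, by rw [SData.rd_of_mem h]; exact h0⟩

/-- an element of norm `< 1` is divisible in `O` by a constant of norm `< 1`. -/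
theorem SData.exists_small {x : F} (hx0 : x ≠ 0) (hx : x ∈ S.O) (h : S.rd x = 0) :
    ∃ π : K, π ≠ 0 ∧ π ∈ S.A ∧ S.ra π = 0 ∧ x * (algebraMap K F π)⁻¹ ∈ S.O ∧
      S.rd (x * (algebraMap K F π)⁻¹) ≠ 0 := by
  obtain ⟨a, ha, h1, h2⟩ := SData.exists_norm (S := S) hx0
  have haA : a ∉ S.A := by
    intro haA
    apply h2
    rw [SData.rd_mul hx (SData.algebraMap_mem haA), h, zero_mul]
  obtain ⟨h3, h4⟩ := SData.inv_mem_of_not_mem haA
  refine ⟨a⁻¹, inv_ne_zero ha, h3, h4, ?_, ?_⟩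
  · rwa [map_inv₀, inv_inv]
  · rwa [map_inv₀, inv_inv]

end API

/-! ### Charts, seminormality, semilinear endomorphisms -/

section Charts

variable {K F k E : Type*} [Field K] [Field F] [Algebra K F] [Field k] [CommRing E] [Algebra k E]

/-- `t` is a good coordinate: every nonzero polynomial in `τ = rd t` is a unit of `E`, and `E`
contains `[F : K(t)]` elements which are linearly independent over `k[τ]`. -/
structure SChart (S : SData K F k E) (t : F) : Prop where
  t_mem : t ∈ S.O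
  unit : ∀ p : k[X], p ≠ 0 → IsUnit (aeval (S.rd t) p)
  fin : FiniteDimensional K⟮t⟯ F
  deg : ∃ e : Fin (Module.finrank K⟮t⟯ F) → E, LinearIndependent (Algebra.adjoin k {S.rd t}) e

/-- (SN-a) seminormality of the special fibre on the chart `Spec K[t]` : there is `d ≠ 0` such that
every element of the radical of `d(τ) Ot` (`Ot` = integral closure of `k[τ]` in `E`) lifts to
`B ∩ O` (`B` = integral closure of `K[t]` in `F`). -/
def SN (S : SData K F k E) (t : F) : Prop :=
  ∃ d : k[X], d ≠ 0 ∧ ∀ (f h : E) (N : ℕ), IsIntE k (S.rd t) f → IsIntE k (S.rd t) h →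
    f ^ N = aeval (S.rd t) d * h → ∃ x ∈ S.O, IsInt K t x ∧ S.rd x = f

/-- (SN-b) `σb f - f ^ Q` lies in the conductor of `rd (B ∩ O)` in `Ot`. -/
def SNb (S : SData K F k E) (t : F) (σb : E →+* E) (Q : ℕ) : Prop :=
  ∀ f h : E, IsIntE k (S.rd t) f → IsIntE k (S.rd t) h →
    ∃ x ∈ S.O, IsInt K t x ∧ S.rd x = (σb f - f ^ Q) * h

/-- `σ` is a ring endomorphism of `F` preserving `K`, `t`, `O`, and inducing `σb` on `E`. -/
structure SEndo (S : SData K F k E) (t : F) (σ : F →+* F) (σb : E →+* E) : Prop where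
  map_K : ∀ a : K, ∃ a' : K, σ (algebraMap K F a) = algebraMap K F a'
  map_t : σ t = t
  mem : ∀ x ∈ S.O, σ x ∈ S.O
  rd : ∀ x ∈ S.O, S.rd (σ x) = σb (S.rd x)

/-- the valuation ring `A` has rank one. -/
def SArch (S : SData K F k E) : Prop :=
  ∀ π : K, π ∈ S.A → S.ra π = 0 → ∀ a : K, a ≠ 0 → ∃ n : ℕ, π ^ n * a⁻¹ ∈ S.A

end Charts

/-! ### A pair of INJ reduction data -/

section Pair

variable {K F k Fb₁ Fb₂ : Type*} [Field K] [Field F] [Algebra K F] [Field k] [Field Fb₁]
  [Algebra k Fb₁] [Field Fb₂] [Algebra k Fb₂]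

/-- two INJ reduction data over the same `(A, k)` which are independent. -/
structure Pair (D₁ : RedData K F k Fb₁) (D₂ : RedData K F k Fb₂) : Prop where
  A_eq : D₁.A = D₂.A
  ra_eq : ∀ a : K, D₁.ra a = D₂.ra a
  sep : ∃ e : F, e ∈ D₁.O ∧ e ∈ D₂.O ∧ D₁.rd e = 1 ∧ D₂.rd e = 0

end Pair

end Fermat.Agent.BR.Inv
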