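import Fermat.Agent.BR.Inv.Interface

/-!
# BR / Inv : assembly of Theorem G (abstract form) from S9 (step G'), S12 (glueing), S13 (chart at
infinity)  (helper86, task INV-G)
-/

set_option autoImplicit false

namespace Fermat.Agent.BR.Inv

open Polynomial IntermediateField
open Fermat.Agent.INJ (IsInt LocPow RedData Arch)

/-- **Theorem G** from the packages S9, S12, S13. -/
theorem stmt_G (h9 : Stmt_STriv) (h12 : Stmt_SFinal) (h13 : Stmt_SChartInv) : Stmt_G := by
  intro K F k E _ _ _ _ _ _ _ _ _ S t hC hN hN' hA σ σb Q hE hb hb' v m hm hmk hv hvO hvO' hi hi'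
    hσv hL hL'
  have hC' : SChart S t⁻¹ := h13 K F k E S t hC
  have hE' : SEndo S t⁻¹ σ σb := ⟨hE.map_K, by rw [map_inv₀, hE.map_t], hE.mem, hE.rd⟩
  have hu : S.rd (σ v / v ^ Q) = 1 := by
    have h1 : σ v / v ^ Q = σ v * (v⁻¹) ^ Q := by rw [div_eq_mul_inv, inv_pow]
    rw [h1, SData.rd_mul (hE.mem v hvO) (pow_mem hvO' Q), hE.rd v hvO, hσv, SData.rd_pow hvO',
      ← mul_pow, SData.rd_mul_rd_inv hv hvO hvO', one_pow]
  exact h12 K F k E S t hC hC' hA _ m hm hmk hu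
    (h9 K F k E S t hC hN σ σb Q hE hb v m hm hmk hv hvO hvO' hi hi' hL)
    (h9 K F k E S t⁻¹ hC' hN' σ σb Q hE' hb' v m hm hmk hv hvO hvO' hi hi' hL')

end Fermat.Agent.BR.Inv
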