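import Fermat.Agent.BR.Inv.Interface

/-!
# BR / Inv / S1 : the Gauss lemma for `O ∩ K[t]` (sup-norm version of INJ/P1)
-/

set_option autoImplicit false

namespace Fermat.Agent.BR.Inv

open Polynomial IntermediateField

section

variable {K F k E : Type} [Field K] [Field F] [Algebra K F] [Field k] [CommRing E] [Algebra k E]
variable {S : SData K F k E} {t : F}

/-- (1) reduction is coefficientwise on `A[t]`. -/
theorem S1_red (ht : t ∈ S.O) (Q : (S.A)[X]) :
    aeval t (Q.map S.A.subtype) ∈ S.O ∧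
      S.rd (aeval t (Q.map S.A.subtype)) = aeval (S.rd t) (Q.map S.rA) := by
  induction Q using Polynomial.induction_on' with
  | add p q hp hq =>
    rw [Polynomial.map_add, Polynomial.map_add, map_add, map_add]
    exact ⟨add_mem hp.1 hq.1, by rw [SData.rd_add hp.1 hq.1, hp.2, hq.2]⟩
  | monomial n a =>
    rw [Polynomial.map_monomial, Polynomial.map_monomial, aeval_monomial, aeval_monomial]
    have ha : algebraMap K F (S.A.subtype a) ∈ S.O := SData.algebraMap_mem a.2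
    refine ⟨mul_mem ha (pow_mem ht n), ?_⟩
    rw [SData.rd_mul ha (pow_mem ht n), SData.rd_pow ht]
    congr 1
    have : S.rd (algebraMap K F (a : K)) = algebraMap k E (S.ra (a : K)) :=
      SData.rd_algebraMap a.2
    rw [SData.ra_of_mem a.2] at this
    exact this

/-- (3) primitive parts. -/
theorem S1_prim (S : SData K F k E) (P : K[X]) (hP : P ≠ 0) :
    ∃ (a : K) (Q : (S.A)[X]), a ≠ 0 ∧ P = C a * Q.map S.A.subtype ∧ Q.map S.rA ≠ 0 := by
  have hne : P.support.Nonempty := by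
    rwa [Finset.nonempty_iff_ne_empty, Ne, Polynomial.support_eq_empty]
  obtain ⟨i₀, hi₀, hmax⟩ := Finset.exists_max_image P.support
    (fun i => S.A.valuation (P.coeff i)) hne
  have ha : P.coeff i₀ ≠ 0 := Polynomial.mem_support_iff.1 hi₀
  have hmem : C (P.coeff i₀)⁻¹ * P ∈ Polynomial.lifts S.A.subtype := by
    rw [Polynomial.lifts_iff_coeff_lifts]
    intro n
    rw [Polynomial.coeff_C_mul]
    have : (P.coeff i₀)⁻¹ * P.coeff n ∈ S.A := by
      rw [← ValuationSubring.valuation_le_one_iff, map_mul, map_inv₀]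
      by_cases hn : n ∈ P.support
      · have h1 := hmax n hn
        have h2 : S.A.valuation (P.coeff i₀) ≠ 0 := (Valuation.ne_zero_iff _).2 ha
        rw [inv_mul_le_iff₀ (zero_lt_iff.2 h2), mul_one]
        exact h1
      · rw [Polynomial.notMem_support_iff.1 hn, map_zero, mul_zero]
        exact zero_le_one
    exact ⟨⟨_, this⟩, rfl⟩
  obtain ⟨Q, hQ⟩ := (Polynomial.mem_lifts _).1 hmem
  refine ⟨P.coeff i₀, Q, ha, ?_, ?_⟩
  · rw [hQ, ← mul_assoc, ← C_mul, mul_inv_cancel₀ ha, C_1, one_mul]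
  · intro h0
    have h1 : (Q.map S.rA).coeff i₀ = 0 := by rw [h0, coeff_zero]
    rw [Polynomial.coeff_map] at h1
    have h2 : Q.coeff i₀ = 1 := by
      apply Subtype.ext
      have := congrArg (fun p => Polynomial.coeff p i₀) hQ
      simp only [Polynomial.coeff_map, Polynomial.coeff_C_mul] at this
      rw [inv_mul_cancel₀ ha] at this
      exact this
    rw [h2, map_one] at h1
    exact one_ne_zero h1

/-- a primitive polynomial evaluates to a unit of `O`. -/
theorem S1_isUnit_rd (ht : t ∈ S.O) (hu : ∀ p : k[X], p ≠ 0 → IsUnit (aeval (S.rd t) p))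
    (Q : (S.A)[X]) (hQ : Q.map S.rA ≠ 0) : IsUnit (S.rd (aeval t (Q.map S.A.subtype))) := by
  rw [(S1_red ht Q).2]
  exact hu _ hQ

/-- (2) `O ∩ K[t] = A[t]`. -/
theorem S1_int (ht : t ∈ S.O) (hu : ∀ p : k[X], p ≠ 0 → IsUnit (aeval (S.rd t) p)) (P : K[X])
    (hP : aeval t P ∈ S.O) : ∃ Q : (S.A)[X], Q.map S.A.subtype = P := by
  by_cases h0 : P = 0
  · exact ⟨0, by rw [h0, Polynomial.map_zero]⟩
  obtain ⟨a, Q, ha, hPQ, hQ⟩ := S1_prim S P h0
  have hU := S1_isUnit_rd ht hu Q hQ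
  have hne : aeval t (Q.map S.A.subtype) ≠ 0 := SData.ne_zero_of_isUnit_rd hU
  have haO : algebraMap K F a ∈ S.O := by
    have : algebraMap K F a = aeval t P * (aeval t (Q.map S.A.subtype))⁻¹ := by
      rw [hPQ, map_mul, aeval_C, mul_assoc, mul_inv_cancel₀ hne, mul_one]
    rw [this]
    exact mul_mem hP (SData.inv_mem_of_isUnit_rd hU)
  have haA : a ∈ S.A := (S.mem_iff a).1 haO
  refine ⟨C ⟨a, haA⟩ * Q, ?_⟩
  rw [Polynomial.map_mul, Polynomial.map_C, hPQ]
  rfl

/-- (4) `t` is transcendental over `K`. -/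
theorem S1_trans (ht : t ∈ S.O) (hu : ∀ p : k[X], p ≠ 0 → IsUnit (aeval (S.rd t) p)) :
    Transcendental K t := by
  rw [transcendental_iff]
  intro P hP
  by_contra h0
  obtain ⟨a, Q, ha, hPQ, hQ⟩ := S1_prim S P h0
  have hne : aeval t (Q.map S.A.subtype) ≠ 0 :=
    SData.ne_zero_of_isUnit_rd (S1_isUnit_rd ht hu Q hQ)
  rw [hPQ, map_mul, aeval_C] at hP
  rcases mul_eq_zero.1 hP with h | h
  · exact ha ((map_eq_zero _).1 h)
  · exact hne h

/-- (5) `τ = rd t` is transcendental over `k`. -/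
theorem S1_trans_rd (S : SData K F k E) (t : F)
    (hu : ∀ p : k[X], p ≠ 0 → IsUnit (aeval (S.rd t) p)) : Transcendental k (S.rd t) := by
  have := S.nontrivial
  rw [transcendental_iff]
  intro p hp
  by_contra h0
  exact (hu p h0).ne_zero hp

/-- (6) elements of `O ∩ K(t)` are fractions of integral polynomials with primitive denominator. -/
theorem S1_frac (ht : t ∈ S.O) (hu : ∀ p : k[X], p ≠ 0 → IsUnit (aeval (S.rd t) p)) (c : F)
    (hc : c ∈ K⟮t⟯) (hcO : c ∈ S.O) : ∃ P Q : (S.A)[X], Q.map S.rA ≠ 0 ∧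
      c * aeval t (Q.map S.A.subtype) = aeval t (P.map S.A.subtype) := by
  obtain ⟨P₀, Q₀, rfl⟩ := (IntermediateField.mem_adjoin_simple_iff K c).1 hc
  by_cases hQ0 : Q₀ = 0
  · refine ⟨0, 1, ?_, ?_⟩
    · rw [Polynomial.map_one]; exact one_ne_zero
    · rw [hQ0, map_zero, div_zero, zero_mul, Polynomial.map_zero, map_zero]
  obtain ⟨b, Q, hb, hQ, hQ'⟩ := S1_prim S Q₀ hQ0
  have hU := S1_isUnit_rd ht hu Q hQ'
  have hne : aeval t (Q.map S.A.subtype) ≠ 0 := SData.ne_zero_of_isUnit_rd hU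
  have hb' : algebraMap K F b ≠ 0 := (_root_.map_ne_zero _).2 hb
  have e1 : aeval t P₀ / aeval t Q₀ * aeval t (Q.map S.A.subtype) = aeval t (C b⁻¹ * P₀) := by
    rw [hQ, map_mul, map_mul, aeval_C, aeval_C, map_inv₀]
    field_simp
  obtain ⟨P, hP⟩ := S1_int ht hu (C b⁻¹ * P₀) (by
    rw [← e1]; exact mul_mem hcO (S1_red ht Q).1)
  exact ⟨P, Q, hQ', by rw [e1, hP]⟩

/-- (7) `O ∩ K(t)` is a valuation ring of `K(t)`. -/
theorem S1_val (ht : t ∈ S.O) (hu : ∀ p : k[X], p ≠ 0 → IsUnit (aeval (S.rd t) p)) (c : F)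
    (hc : c ∈ K⟮t⟯) : c ∈ S.O ∨ c⁻¹ ∈ S.O := by
  obtain ⟨P, Q, rfl⟩ := (IntermediateField.mem_adjoin_simple_iff K c).1 hc
  by_cases hP0 : P = 0
  · left; rw [hP0, map_zero, zero_div]; exact zero_mem _
  by_cases hQ0 : Q = 0
  · left; rw [hQ0, map_zero, div_zero]; exact zero_mem _
  obtain ⟨a, P₀, ha, hP, hP₀⟩ := S1_prim S P hP0
  obtain ⟨b, Q₀, hb, hQ, hQ₀⟩ := S1_prim S Q hQ0
  have hPu := S1_isUnit_rd ht hu P₀ hP₀
  have hQu := S1_isUnit_rd ht hu Q₀ hQ₀
  have hPne : aeval t (P₀.map S.A.subtype) ≠ 0 := SData.ne_zero_of_isUnit_rd hPu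
  have hQne : aeval t (Q₀.map S.A.subtype) ≠ 0 := SData.ne_zero_of_isUnit_rd hQu
  have ha' : algebraMap K F a ≠ 0 := (_root_.map_ne_zero _).2 ha
  have hb' : algebraMap K F b ≠ 0 := (_root_.map_ne_zero _).2 hb
  have e1 : aeval t P / aeval t Q = algebraMap K F (a / b)
      * (aeval t (P₀.map S.A.subtype) * (aeval t (Q₀.map S.A.subtype))⁻¹) := by
    rw [hP, hQ, map_mul, map_mul, aeval_C, aeval_C, map_div₀]
    field_simp
  have e2 : (aeval t P / aeval t Q)⁻¹ = algebraMap K F (a / b)⁻¹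
      * (aeval t (Q₀.map S.A.subtype) * (aeval t (P₀.map S.A.subtype))⁻¹) := by
    rw [hP, hQ, map_mul, map_mul, aeval_C, aeval_C, map_inv₀, map_div₀]
    field_simp
  rcases S.A.mem_or_inv_mem (a / b) with h | h
  · left
    rw [e1]
    exact mul_mem (SData.algebraMap_mem h)
      (mul_mem (S1_red ht P₀).1 (SData.inv_mem_of_isUnit_rd hQu))
  · right
    rw [e2]
    exact mul_mem (SData.algebraMap_mem h)
      (mul_mem (S1_red ht Q₀).1 (SData.inv_mem_of_isUnit_rd hPu))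

end

theorem stmt_SGauss : Stmt_SGauss := by
  intro K F k E _ _ _ _ _ _ S t ht hu
  exact ⟨S1_red ht, S1_int ht hu, S1_prim S, S1_trans ht hu, S1_trans_rd S t hu,
    fun c hc => S1_frac ht hu c c.2 hc, fun c => S1_val ht hu c c.2⟩

end Fermat.Agent.BR.Inv
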