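import Fermat.Agent.BR.Inv.Interface
import Fermat.Agent.INJ.P10

/-! # BR / Inv, package S11: Newton iteration on one chart (copy-adapt of INJ/P10) -/

set_option autoImplicit false

namespace Fermat.Agent.BR.Inv

open Polynomial IntermediateField
open Fermat.Agent.INJ (IsInt P10_binom P10_isInt_algebraMap)

theorem S11_step {K F k E : Type} [Field K] [Field F] [Algebra K F] [Field k] [CommRing E]
    [Algebra k E] (D : SData K F k E) (t u : F) (m : ℕ) (hm0 : (m : K) ≠ 0)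
    (hmA : (m : K)⁻¹ ∈ D.A) (π : K) (hπ0 : π ≠ 0) (hπA : π ∈ D.A) (hπ : D.ra π = 0)
    (n : ℕ) (y : F) (hy : y ∈ D.O) (hint : IsInt K t (y ^ m * u))
    (hdiv : (y ^ m * u - 1) * (algebraMap K F π ^ (n + 1))⁻¹ ∈ D.O) :
    ∃ y' ∈ D.O, IsInt K t (y' ^ m * u) ∧
      (y' ^ m * u - 1) * (algebraMap K F π ^ (n + 1 + 1))⁻¹ ∈ D.O ∧ D.rd y' = D.rd y := by
  set ϖ := algebraMap K F π with hϖ
  have hϖ0 : ϖ ≠ 0 := (_root_.map_ne_zero _).2 hπ0
  have hϖO : ϖ ∈ D.O := SData.algebraMap_mem hπA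
  have hϖrd : D.rd ϖ = 0 := by rw [hϖ, SData.rd_algebraMap hπA, hπ, map_zero]
  set c := algebraMap K F (m : K)⁻¹ with hc
  have hcO : c ∈ D.O := SData.algebraMap_mem hmA
  have hmc : (m : F) * c = 1 := by
    rw [hc, ← map_natCast (algebraMap K F), ← map_mul, mul_inv_cancel₀ hm0, map_one]
  obtain ⟨ε, hε⟩ : ∃ ε, ε = y ^ m * u - 1 := ⟨_, rfl⟩
  obtain ⟨β, hβ⟩ : ∃ β, β = ε * (ϖ ^ (n + 1))⁻¹ := ⟨_, rfl⟩
  have hβO : β ∈ D.O := by rw [hβ, hε]; exact hdiv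
  have hεβ : ε = ϖ ^ (n + 1) * β := by
    rw [hβ]; field_simp
  have hεO : ε ∈ D.O := by rw [hεβ]; exact mul_mem (pow_mem hϖO _) hβO
  have hεrd : D.rd ε = 0 := by
    rw [hεβ, SData.rd_mul (pow_mem hϖO _) hβO, SData.rd_pow hϖO, hϖrd, zero_pow (by omega),
      zero_mul]
  have haO : -(c * ε) ∈ D.O := neg_mem (mul_mem hcO hεO)
  obtain ⟨r, hrO, hr⟩ := P10_binom D.O (-(c * ε)) haO m
  have hrO' : r ∈ D.O := hrO
  have h1a : 1 + -(c * ε) ∈ D.O := add_mem D.O.one_mem haO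
  have hyu : y ^ m * u = 1 + ε := by rw [hε]; ring
  have hεint : IsInt K t ε := by
    rw [hε]; exact IsIntegral.sub hint isIntegral_one
  have e1 : (y * (1 + -(c * ε))) ^ m * u = (y ^ m * u) * (1 + -(c * ε)) ^ m := by
    rw [mul_pow]; ring
  refine ⟨y * (1 + -(c * ε)), mul_mem hy h1a, ?_, ?_, ?_⟩
  · rw [e1]
    exact IsIntegral.mul hint (IsIntegral.pow (IsIntegral.add isIntegral_one
      (IsIntegral.neg (IsIntegral.mul (P10_isInt_algebraMap t _) hεint))) m)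
  · have e : (y * (1 + -(c * ε))) ^ m * u - 1 = ε ^ 2 * (-1 + (1 + ε) * c ^ 2 * r) := by
      rw [e1, hyu, hr]
      linear_combination (-(1 + ε) * ε) * hmc
    have e2 : (y * (1 + -(c * ε))) ^ m * u - 1 =
        ϖ ^ (n + 1 + 1) * (ϖ ^ n * β ^ 2 * (-1 + (1 + ε) * c ^ 2 * r)) := by
      rw [e]
      have e3 : ε ^ 2 = ϖ ^ (n + 1 + 1) * (ϖ ^ n * β ^ 2) := by rw [hεβ]; ring
      rw [e3]; ring
    rw [e2, mul_comm, ← mul_assoc, inv_mul_cancel₀ (pow_ne_zero _ hϖ0), one_mul]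
    exact mul_mem (mul_mem (pow_mem hϖO _) (pow_mem hβO _))
      (add_mem (neg_mem D.O.one_mem)
        (mul_mem (mul_mem (add_mem D.O.one_mem hεO) (pow_mem hcO _)) hrO'))
  · rw [SData.rd_mul hy h1a, SData.rd_add D.O.one_mem haO, SData.rd_neg (mul_mem hcO hεO),
      SData.rd_mul hcO hεO, hεrd, mul_zero, neg_zero, add_zero, SData.rd_one, mul_one]

theorem stmt_SNewton : Stmt_SNewton := by
  intro K F k E _ _ _ _ _ _ D t u m hm0 hmA π hπ0 hπA hπ x hx hint hdiv n hn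
  obtain ⟨n, rfl⟩ : ∃ n', n = n' + 1 := ⟨n - 1, by omega⟩
  clear hn
  induction n with
  | zero => exact ⟨x, hx, hint, by simpa using hdiv, rfl⟩
  | succ n ih =>
    obtain ⟨y, hy, hyint, hydiv, hyrd⟩ := ih
    obtain ⟨y', hy', hy'int, hy'div, hy'rd⟩ :=
      S11_step D t u m hm0 hmA π hπ0 hπA hπ n y hy hyint hydiv
    exact ⟨y', hy', hy'int, hy'div, hy'rd.trans hyrd⟩

end Fermat.Agent.BR.Inv
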