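import Fermat.Agent.BR.Inv.Interface
import Fermat.Agent.INJ.P13

/-!
# BR / Inv S13 : the chart at infinity comes for free (`Stmt_SChartInv`)
-/

set_option autoImplicit false

namespace Fermat.Agent.BR.Inv

open Polynomial IntermediateField
open Fermat.Agent.INJ (P13_adjoin_inv_eq)

/-- elements of `k[τ']`, `τ τ' = 1`, become elements of `k[τ]` after multiplication by a high
power of `τ`. -/
theorem S13_clear {k E : Type*} [Field k] [CommRing E] [Algebra k E] {τ τ' : E} (h : τ * τ' = 1)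
    (x : E) (hx : x ∈ Algebra.adjoin k {τ'}) :
    ∃ N : ℕ, ∀ M, N ≤ M → τ ^ M * x ∈ Algebra.adjoin k {τ} := by
  have hτ : τ ∈ Algebra.adjoin k {τ} := Algebra.self_mem_adjoin_singleton k τ
  induction hx using Algebra.adjoin_induction with
  | mem x hx =>
    rw [Set.mem_singleton_iff] at hx
    subst hx
    refine ⟨1, fun M hM => ?_⟩
    obtain ⟨M, rfl⟩ : ∃ M', M = M' + 1 := ⟨M - 1, by omega⟩
    rw [pow_succ, mul_assoc, h, mul_one]
    exact pow_mem hτ M
  | algebraMap c =>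
    exact ⟨0, fun M _ => mul_mem (pow_mem hτ M) (Subalgebra.algebraMap_mem _ c)⟩
  | add x y _ _ hx hy =>
    obtain ⟨N₁, h₁⟩ := hx
    obtain ⟨N₂, h₂⟩ := hy
    refine ⟨max N₁ N₂, fun M hM => ?_⟩
    rw [mul_add]
    exact add_mem (h₁ M (le_trans (le_max_left _ _) hM)) (h₂ M (le_trans (le_max_right _ _) hM))
  | mul x y _ _ hx hy =>
    obtain ⟨N₁, h₁⟩ := hx
    obtain ⟨N₂, h₂⟩ := hy
    refine ⟨N₁ + N₂, fun M hM => ?_⟩
    obtain ⟨M', rfl⟩ : ∃ M', M = N₁ + M' := ⟨M - N₁, by omega⟩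
    have : τ ^ (N₁ + M') * (x * y) = (τ ^ N₁ * x) * (τ ^ M' * y) := by
      rw [pow_add]; ring
    rw [this]
    exact mul_mem (h₁ N₁ le_rfl) (h₂ M' (by omega))

/-- linear independence over `k[τ]` implies linear independence over `k[τ⁻¹]`. -/
theorem S13_li {k E : Type*} [Field k] [CommRing E] [Algebra k E] {τ τ' : E} (h : τ * τ' = 1)
    {n : ℕ} (e : Fin n → E) (he : LinearIndependent (Algebra.adjoin k {τ}) e) :
    LinearIndependent (Algebra.adjoin k {τ'}) e := by
  rw [Fintype.linearIndependent_iff] at he ⊢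
  intro g hg i
  choose N hN using fun i => S13_clear h (g i : E) (g i).2
  let M : ℕ := Finset.univ.sup N
  have hM : ∀ i, N i ≤ M := fun i => Finset.le_sup (Finset.mem_univ i)
  have h1 := he (fun i => ⟨τ ^ M * (g i : E), hN i M (hM i)⟩) (by
    have h2 : ∑ i, (g i : E) * e i = 0 := hg
    change ∑ i, (τ ^ M * (g i : E)) * e i = 0
    simp only [mul_assoc]
    rw [← Finset.mul_sum, h2, mul_zero]) i
  have h3 : τ ^ M * (g i : E) = 0 := congrArg Subtype.val h1
  have h4 : τ' ^ M * (τ ^ M * (g i : E)) = (g i : E) := by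
    rw [← mul_assoc, ← mul_pow, mul_comm τ' τ, h, one_pow, one_mul]
  apply Subtype.ext
  rw [← h4, h3, mul_zero]
  rfl

/-- transport of the field-theoretic chart conditions along an equality of intermediate fields. -/
theorem S13_transport {K F R E : Type*} [Field K] [Field F] [Algebra K F] [CommRing R]
    [AddCommGroup E] [Module R E] (E₁ E₂ : IntermediateField K F) (hE : E₁ = E₂)
    (fin : FiniteDimensional E₁ F)
    (deg : ∃ e : Fin (Module.finrank E₁ F) → E, LinearIndependent R e) :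
    FiniteDimensional E₂ F ∧ ∃ e : Fin (Module.finrank E₂ F) → E, LinearIndependent R e := by
  subst hE
  exact ⟨fin, deg⟩

theorem stmt_SChartInv : Stmt_SChartInv := by
  intro K F k E _ _ _ _ _ _ S t h
  have hu : IsUnit (S.rd t) := by
    have := h.unit X X_ne_zero
    rwa [aeval_X] at this
  have ht0 : t ≠ 0 := SData.ne_zero_of_isUnit_rd hu
  have hinv : t⁻¹ ∈ S.O := SData.inv_mem_of_isUnit_rd hu
  have hmul : S.rd t * S.rd t⁻¹ = 1 := SData.rd_mul_rd_inv ht0 h.t_mem hinv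
  have hu' : IsUnit (S.rd t⁻¹) := IsUnit.of_mul_eq_one _ (by rw [mul_comm]; exact hmul)
  obtain ⟨e, he⟩ := h.deg
  obtain ⟨h1, h2⟩ := S13_transport (R := Algebra.adjoin k {S.rd t⁻¹}) (E := E) K⟮t⟯ K⟮t⁻¹⟯
    (P13_adjoin_inv_eq K t).symm h.fin ⟨e, S13_li hmul e he⟩
  refine ⟨hinv, ?_, h1, h2⟩
  intro p hp
  let _ : Invertible (S.rd t⁻¹) := ⟨S.rd t, hmul, by rw [mul_comm]; exact hmul⟩
  have h3 := eval₂_reverse_mul_pow (algebraMap k E) (S.rd t⁻¹) p
  have h4 : ⅟(S.rd t⁻¹) = S.rd t := rfl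
  rw [h4] at h3
  rw [aeval_def, ← h3]
  refine IsUnit.mul ?_ (hu'.pow _)
  exact h.unit p.reverse (by rwa [Ne, reverse_eq_zero])

end Fermat.Agent.BR.Inv
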