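import Fermat.Agent.BR.Inv.Interface

/-!
# BR / Inv, package S2 : orthonormal families (sup-norm version of INJ P2)
-/

set_option autoImplicit false

namespace Fermat.Agent.BR.Inv

open Polynomial IntermediateField

section

variable {K F k E : Type} [Field K] [Field F] [Algebra K F] [Field k] [CommRing E] [Algebra k E]

/-- the Gauss valuation ring `O ∩ K(t)` of `K(t)`. -/
def S2_V (S : SData K F k E) (t : F) (h7 : ∀ c : K⟮t⟯, (c : F) ∈ S.O ∨ (c : F)⁻¹ ∈ S.O) :
    ValuationSubring K⟮t⟯ :=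
  { S.O.comap (algebraMap K⟮t⟯ F) with
    mem_or_inv_mem' := fun c => by
      rcases h7 c with h | h
      · exact Or.inl h
      · exact Or.inr (by
          show ((c⁻¹ : K⟮t⟯) : F) ∈ S.O
          simpa using h) }

theorem S2_mem_V (S : SData K F k E) (t : F)
    (h7 : ∀ c : K⟮t⟯, (c : F) ∈ S.O ∨ (c : F)⁻¹ ∈ S.O) (c : K⟮t⟯) :
    c ∈ S2_V S t h7 ↔ (c : F) ∈ S.O := Iff.rfl

theorem S2_div_mem {L : Type} [Field L] (V : ValuationSubring L) {x y : L} (hy : y ≠ 0)
    (h : V.valuation x ≤ V.valuation y) : x / y ∈ V := by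
  rw [← ValuationSubring.valuation_le_one_iff, map_div₀]
  have hy' : V.valuation y ≠ 0 := (Valuation.ne_zero_iff _).2 hy
  exact div_le_one_of_le₀ h zero_le

/-- an element of `K(t)` outside `O` has inverse in `O` with reduction `0`. -/
theorem S2_inv (S : SData K F k E) (t : F)
    (hu : ∀ p : k[X], p ≠ 0 → IsUnit (aeval (S.rd t) p))
    (h1 : ∀ Q : (S.A)[X], aeval t (Q.map S.A.subtype) ∈ S.O ∧
      S.rd (aeval t (Q.map S.A.subtype)) = aeval (S.rd t) (Q.map S.rA))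
    (h6 : ∀ c : K⟮t⟯, (c : F) ∈ S.O → ∃ P Q : (S.A)[X], Q.map S.rA ≠ 0 ∧
      (c : F) * aeval t (Q.map S.A.subtype) = aeval t (P.map S.A.subtype))
    (h7 : ∀ c : K⟮t⟯, (c : F) ∈ S.O ∨ (c : F)⁻¹ ∈ S.O)
    (c : K⟮t⟯) (hc : (c : F) ∉ S.O) : (c : F)⁻¹ ∈ S.O ∧ S.rd (c : F)⁻¹ = 0 := by
  have hm : (c : F)⁻¹ ∈ S.O := (h7 c).resolve_left hc
  refine ⟨hm, ?_⟩
  have hm' : ((c⁻¹ : K⟮t⟯) : F) ∈ S.O := by simpa using hm
  obtain ⟨P, Q, hQ, hPQ⟩ := h6 c⁻¹ hm'
  have e1 : ((c⁻¹ : K⟮t⟯) : F) = (c : F)⁻¹ := by simp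
  rw [e1] at hPQ
  have h2 : S.rd (c : F)⁻¹ * aeval (S.rd t) (Q.map S.rA) = aeval (S.rd t) (P.map S.rA) := by
    rw [← (h1 Q).2, ← (h1 P).2, ← SData.rd_mul hm (h1 Q).1, hPQ]
  have hQu := hu _ hQ
  by_cases hP : P.map S.rA = 0
  · rw [hP, map_zero] at h2
    exact (hQu.mul_left_eq_zero).1 h2
  · exfalso
    have hPu := hu _ hP
    rw [← h2] at hPu
    have h3 : IsUnit (S.rd (c : F)⁻¹) := isUnit_of_mul_isUnit_left hPu
    have := SData.inv_mem_of_isUnit_rd h3
    rw [inv_inv] at this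
    exact hc this

/-- The key computation: a normalised combination has nonzero reduction. -/
theorem S2_key (S : SData K F k E) (t : F)
    (hu : ∀ p : k[X], p ≠ 0 → IsUnit (aeval (S.rd t) p))
    (h1 : ∀ Q : (S.A)[X], aeval t (Q.map S.A.subtype) ∈ S.O ∧
      S.rd (aeval t (Q.map S.A.subtype)) = aeval (S.rd t) (Q.map S.rA))
    (h5 : Transcendental k (S.rd t))
    (h6 : ∀ c : K⟮t⟯, (c : F) ∈ S.O → ∃ P Q : (S.A)[X], Q.map S.rA ≠ 0 ∧
      (c : F) * aeval t (Q.map S.A.subtype) = aeval t (P.map S.A.subtype))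
    {ι : Type} [Fintype ι] (e : ι → F) (he : ∀ i, e i ∈ S.O)
    (hli : LinearIndependent (Algebra.adjoin k {S.rd t}) (fun i => S.rd (e i)))
    (d : ι → K⟮t⟯) (hd : ∀ i, (d i : F) ∈ S.O) (i0 : ι) (hi0 : d i0 = 1) :
    S.rd (∑ i, (d i : F) * e i) ≠ 0 := by
  classical
  have hnt := S.nontrivial
  intro h0
  rw [SData.rd_sum _ _ (fun i _ => mul_mem (hd i) (he i))] at h0
  choose P Q hQ hPQ using fun i => h6 (d i) (hd i)
  have h2 : ∀ i, S.rd (d i : F) * aeval (S.rd t) ((Q i).map S.rA)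
      = aeval (S.rd t) ((P i).map S.rA) := fun i => by
    rw [← (h1 (Q i)).2, ← (h1 (P i)).2, ← SData.rd_mul (hd i) (h1 (Q i)).1, hPQ]
  have h3 : ∑ i, aeval (S.rd t) ((P i).map S.rA * ∏ j ∈ Finset.univ.erase i, (Q j).map S.rA)
      * S.rd (e i) = 0 := by
    have : ∑ i, aeval (S.rd t) ((P i).map S.rA * ∏ j ∈ Finset.univ.erase i, (Q j).map S.rA)
        * S.rd (e i) = aeval (S.rd t) (∏ j, (Q j).map S.rA) * ∑ i, S.rd ((d i : F) * e i) := by
      rw [Finset.mul_sum]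
      refine Finset.sum_congr rfl fun i _ => ?_
      rw [SData.rd_mul (hd i) (he i), ← Finset.mul_prod_erase Finset.univ _ (Finset.mem_univ i),
        map_mul, map_mul, ← h2 i]
      ring
    rw [this, h0, mul_zero]
  have h4 := li_poly hli (transcendental_iff_injective.1 h5) _ h3
  have h5' := congrFun h4 i0
  simp only [Pi.zero_apply] at h5'
  rcases mul_eq_zero.1 h5' with h | h
  · have h6' := h2 i0
    rw [hi0, h, map_zero] at h6'
    simp only [IntermediateField.coe_one, SData.rd_one, one_mul] at h6'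
    have := hu _ (hQ i0)
    rw [h6'] at this
    exact not_isUnit_zero this
  · exact (Finset.prod_ne_zero_iff.2 fun j _ => hQ j) h

end

theorem stmt_SOrtho (h1 : Stmt_SGauss) : Stmt_SOrtho := by
  intro K F k E _ _ _ _ _ _ S t ht hu ι _ e he hli
  obtain ⟨g1, -, -, -, g5, g6, g7⟩ := h1 K F k E S t ht hu
  set V := S2_V S t g7 with hV
  -- common normalisation
  have norm : ∀ (c : ι → K⟮t⟯) (i0 : ι), c i0 ≠ 0 →
      (∀ i, V.valuation (c i) ≤ V.valuation (c i0)) →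
      S.rd ((∑ i, (c i : F) * e i) * (c i0 : F)⁻¹) ≠ 0 := by
    intro c i0 hc0 hmax
    have hc0' : (c i0 : F) ≠ 0 := by
      intro h; exact hc0 (Subtype.ext h)
    have := S2_key S t hu g1 g5 g6 e he hli (fun i => c i / c i0)
      (fun i => (S2_mem_V S t g7 _).1 (S2_div_mem V hc0 (hmax i))) i0 (div_self hc0)
    convert this using 2
    rw [Finset.sum_mul]
    refine Finset.sum_congr rfl fun i _ => ?_
    simp only [IntermediateField.coe_div]
    field_simp
  have exmax : ∀ (c : ι → K⟮t⟯) (j : ι), ∃ i0 : ι, V.valuation (c j) ≤ V.valuation (c i0) ∧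
      ∀ i, V.valuation (c i) ≤ V.valuation (c i0) := by
    intro c j
    have : Nonempty ι := ⟨j⟩
    obtain ⟨i0, hi0⟩ := Finite.exists_max (fun i => V.valuation (c i))
    exact ⟨i0, hi0 j, hi0⟩
  constructor
  · rw [Fintype.linearIndependent_iff]
    intro g hg
    by_contra hne
    push Not at hne
    obtain ⟨j, hj⟩ := hne
    obtain ⟨i0, hj0, hmax⟩ := exmax g j
    have hi0 : g i0 ≠ 0 := by
      intro h
      rw [h] at hj0
      simp only [map_zero, le_zero_iff] at hj0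
      exact hj ((Valuation.zero_iff _).1 hj0)
    apply norm g i0 hi0 hmax
    have hsum : ∑ i, (g i : F) * e i = 0 := by
      rw [← hg]
      exact Finset.sum_congr rfl fun i _ => rfl
    rw [hsum, zero_mul, SData.rd_zero]
  · intro c hx j
    by_contra hj
    obtain ⟨i0, hj0, hmax⟩ := exmax c j
    have hi0O : (c i0 : F) ∉ S.O := by
      intro h
      apply hj
      rw [← S2_mem_V S t g7, ← ValuationSubring.valuation_le_one_iff] at h ⊢
      exact hj0.trans h
    have hi0 : c i0 ≠ 0 := by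
      intro h
      apply hi0O
      rw [h]; exact S.O.zero_mem
    apply norm c i0 hi0 hmax
    obtain ⟨hm, hr⟩ := S2_inv S t hu g1 g6 g7 (c i0) hi0O
    rw [SData.rd_mul hx hm, hr, mul_zero]

end Fermat.Agent.BR.Inv
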