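import Fermat.Agent.BR.Inv.Interface
import Fermat.Agent.INJ.P4

/-!
# BR / Inv, package S4 : elements of `B ∩ O` reduce to elements integral over `k[τ]`
(sup-norm version of INJ/P4)
-/

set_option autoImplicit false

namespace Fermat.Agent.BR.Inv

open Polynomial IntermediateField
open scoped IntermediateField.algebraAdjoinAdjoin
open Fermat.Agent.INJ (IsInt P4_isIntegral_of_relation P4_isIntegral_field P4_coeff_poly
  P4_relation)

section

variable {K F k E : Type} [Field K] [Field F] [Algebra K F] [Field k] [CommRing E] [Algebra k E]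
  {S : SData K F k E} {t : F}

/-- lifts of the independent family of `SChart.deg`. -/
theorem S4_basis (hC : SChart S t) :
    ∃ e : Fin (Module.finrank K⟮t⟯ F) → F, (∀ i, e i ∈ S.O) ∧
      LinearIndependent (Algebra.adjoin k {S.rd t}) (fun i => S.rd (e i)) := by
  obtain ⟨e, he⟩ := hC.deg
  choose e' hE1 hE2 using fun i => SData.exists_rd_eq (S := S) (e i)
  refine ⟨e', hE1, ?_⟩
  have : (fun i => S.rd (e' i)) = e := funext hE2
  rw [this]
  exact he

/-- Orthonormal bases: a `K(t)`-basis of `F` contained in `O` such that the coordinates of the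
elements of `O` lie in `O`. -/
theorem S4_core (h2 : Stmt_SOrtho) (hC : SChart S t) :
    ∃ (bE : Module.Basis (Fin (Module.finrank K⟮t⟯ F)) K⟮t⟯ F),
      (∀ i, bE i ∈ S.O) ∧
      LinearIndependent (Algebra.adjoin k {S.rd t}) (fun i => S.rd (bE i)) ∧
      ∀ x ∈ S.O, ∀ i, ((bE.repr x i : K⟮t⟯) : F) ∈ S.O := by
  obtain ⟨e, hE1, hli⟩ := S4_basis hC
  obtain ⟨hliF, horth⟩ := h2 K F k E S t hC.t_mem hC.unit _ e hE1 hli
  have := hC.fin
  have hpos : 0 < Module.finrank K⟮t⟯ F := Module.finrank_pos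
  have : Nonempty (Fin (Module.finrank K⟮t⟯ F)) := ⟨⟨0, hpos⟩⟩
  let bE : Module.Basis (Fin (Module.finrank K⟮t⟯ F)) K⟮t⟯ F :=
    basisOfLinearIndependentOfCardEqFinrank hliF (by simp)
  have hbE : ∀ i, bE i = e i := fun i => by
    simp [bE]
  -- expansion of an element
  have hexp : ∀ x : F, x = ∑ i, ((bE.repr x i : K⟮t⟯) : F) * e i := by
    intro x
    conv_lhs => rw [← bE.sum_repr x]
    refine Finset.sum_congr rfl fun i _ => ?_
    rw [hbE, Algebra.smul_def]
    rfl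
  refine ⟨bE, fun i => by rw [hbE]; exact hE1 i, ?_, ?_⟩
  · have : (fun i => S.rd (bE i)) = fun i => S.rd (e i) := funext fun i => by rw [hbE]
    rw [this]
    exact hli
  · intro x hx
    refine horth (fun i => bE.repr x i) ?_
    rw [← hexp x]
    exact hx

/-- the Gauss valuation ring `O ∩ K(t)`. -/
def S4_OG (S : SData K F k E) (t : F) (h : ∀ c : K⟮t⟯, (c : F) ∈ S.O ∨ (c : F)⁻¹ ∈ S.O) :
    ValuationSubring K⟮t⟯ :=
  { S.O.comap (algebraMap K⟮t⟯ F) with
    mem_or_inv_mem' := fun c => by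
      rcases h c with h1 | h1
      · exact Or.inl h1
      · refine Or.inr ?_
        show algebraMap K⟮t⟯ F c⁻¹ ∈ S.O
        rw [map_inv₀]
        exact h1 }

theorem S4_mem_OG (h : ∀ c : K⟮t⟯, (c : F) ∈ S.O ∨ (c : F)⁻¹ ∈ S.O) (c : K⟮t⟯) :
    c ∈ S4_OG S t h ↔ (c : F) ∈ S.O := Iff.rfl

/-- the coefficients of the minimal polynomial over `K(t)` of an element of `O` lie in `O`. -/
theorem S4_coeff_mem (h1 : Stmt_SGauss) (h2 : Stmt_SOrtho) (hC : SChart S t) {x : F}
    (hx : x ∈ S.O) (i : ℕ) : (((minpoly K⟮t⟯ x).coeff i : K⟮t⟯) : F) ∈ S.O := by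
  classical
  obtain ⟨bE, hbO, -, hco⟩ := S4_core h2 hC
  have hG7 := (h1 K F k E S t hC.t_mem hC.unit).2.2.2.2.2.2
  have := hC.fin
  have hint : IsIntegral K⟮t⟯ x := Algebra.IsIntegral.isIntegral x
  let OG : ValuationSubring K⟮t⟯ := S4_OG S t hG7
  let M := Algebra.leftMulMatrix bE x
  have hM : ∀ a b, M a b ∈ OG := by
    intro a b
    have hab : M a b = bE.repr (x * bE b) a := Algebra.leftMulMatrix_eq_repr_mul bE x a b
    show algebraMap K⟮t⟯ F (M a b) ∈ S.O
    rw [hab]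
    exact hco _ (mul_mem hx (hbO b)) a
  let M0 : Matrix (Fin (Module.finrank K⟮t⟯ F)) (Fin (Module.finrank K⟮t⟯ F)) OG :=
    fun a b => ⟨M a b, hM a b⟩
  have hMM : M = M0.map (algebraMap OG K⟮t⟯) := by
    ext a b
    rfl
  have hzero : aeval x M.charpoly = 0 := by
    apply Algebra.leftMulMatrix_injective bE
    rw [← Polynomial.aeval_algHom_apply, map_zero]
    exact Matrix.aeval_self_charpoly M
  have hdvd : minpoly K⟮t⟯ x ∣ M0.charpoly.map (algebraMap OG K⟮t⟯) := by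
    rw [← Matrix.charpoly_map, ← hMM]
    exact minpoly.dvd _ _ hzero
  have h3 := isIntegral_coeff_of_dvd M0.charpoly (minpoly K⟮t⟯ x) (Matrix.charpoly_monic M0)
    (minpoly.monic hint) hdvd i
  obtain ⟨y, hy⟩ := IsIntegrallyClosed.isIntegral_iff.mp h3
  rw [← hy]
  exact y.2

end

theorem stmt_SIntRed (h1 : Stmt_SGauss) (h2 : Stmt_SOrtho) : Stmt_SIntRed := by
  intro K F k E _ _ _ _ _ _ S t hC x hx hxi
  obtain ⟨hG1, hG2, -, hG4, -⟩ := h1 K F k E S t hC.t_mem hC.unit
  have hint := P4_isIntegral_field hxi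
  set q := minpoly K⟮t⟯ x with hq
  -- the coefficients
  have hcoef : ∀ i : ℕ, ∃ c : Algebra.adjoin k {S.rd t},
      S.rd ((q.coeff i : K⟮t⟯) : F) = algebraMap (Algebra.adjoin k {S.rd t}) E c := by
    intro i
    obtain ⟨P, hP⟩ := P4_coeff_poly hG4 hxi i
    have hmem := S4_coeff_mem h1 h2 hC hx i
    rw [hP] at hmem
    obtain ⟨Q, rfl⟩ := hG2 P hmem
    refine ⟨⟨aeval (S.rd t) (Q.map S.rA), ?_⟩, ?_⟩
    · rw [Algebra.adjoin_singleton_eq_range_aeval]
      exact ⟨_, rfl⟩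
    · rw [hq, hP, (hG1 Q).2]
      rfl
  choose c hc using hcoef
  have hrel := P4_relation hint
  have hterm : ∀ i : Fin q.natDegree, ((q.coeff i : K⟮t⟯) : F) * x ^ (i : ℕ) ∈ S.O :=
    fun i => mul_mem (S4_coeff_mem h1 h2 hC hx i) (pow_mem hx _)
  refine P4_isIntegral_of_relation (S.rd x) q.natDegree (fun i => c i) ?_
  have h3 := congrArg S.rd hrel
  rw [SData.rd_zero, SData.rd_add (pow_mem hx _) (SData.sum_mem _ _ fun i _ => hterm i),
    SData.rd_pow hx, SData.rd_sum _ _ fun i _ => hterm i] at h3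
  rw [← h3]
  congr 1
  refine Finset.sum_congr rfl fun i _ => ?_
  rw [SData.rd_mul (S4_coeff_mem h1 h2 hC hx i) (pow_mem hx _), SData.rd_pow hx, hc]

end Fermat.Agent.BR.Inv
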