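import Fermat.Agent.BR.Inv.Interface
import Fermat.Agent.INJ.P5

/-!
# BR / Inv / S5 : lifting of lattices (sup-norm version of INJ / P5).   helper83
-/

set_option autoImplicit false

namespace Fermat.Agent.BR.Inv

open Polynomial IntermediateField
open Fermat.Agent.INJ (IsInt LocPow RedData Arch P5_mem_span_iff P5_sum_vecMul P5_det_ne_zero
  P5_scale P5_span_of_natDegree_eq_zero P5_aeval_mem)

section S5gen

variable {k E : Type*} [Field k] [CommRing E] [Algebra k E]

theorem S5_sum_vecMul (τ : E) {n : ℕ} (l e : Fin n → E) (T : Matrix (Fin n) (Fin n) k[X])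
    (hT : ∀ i, e i = ∑ j, aeval τ (T i j) * l j) (c : Fin n → k[X]) :
    ∑ i, aeval τ (c i) * e i = ∑ j, aeval τ (∑ i, c i * T i j) * l j := by
  calc ∑ i, aeval τ (c i) * e i = ∑ i, ∑ j, aeval τ (c i * T i j) * l j := by
        refine Finset.sum_congr rfl fun i _ => ?_
        rw [hT i, Finset.mul_sum]
        refine Finset.sum_congr rfl fun j _ => ?_
        rw [map_mul, mul_assoc]
    _ = ∑ j, ∑ i, aeval τ (c i * T i j) * l j := Finset.sum_comm
    _ = ∑ j, aeval τ (∑ i, c i * T i j) * l j := by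
        refine Finset.sum_congr rfl fun j _ => ?_
        rw [map_sum, Finset.sum_mul]

/-- two families of the same length with the same `k[τ]`-span: if one is independent, so is the
other. -/
theorem S5_linearIndependent_of_Sp_eq (τ : E) (hinj : Function.Injective (aeval τ : k[X] → E))
    {n : ℕ} (w eb : Fin n → E) (heb : LinearIndependent (Algebra.adjoin k {τ}) eb)
    (h : Sp k τ w = Sp k τ eb) : LinearIndependent (Algebra.adjoin k {τ}) w := by
  have h1 : ∀ i, ∃ P : Fin n → k[X], w i = ∑ j, aeval τ (P j) * eb j := fun i =>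
    (mem_Sp_iff τ eb (w i)).1 (h ▸ mem_Sp_self τ w i)
  have h2 : ∀ i, ∃ P : Fin n → k[X], eb i = ∑ j, aeval τ (P j) * w j := fun i =>
    (mem_Sp_iff τ w (eb i)).1 (h.symm ▸ mem_Sp_self τ eb i)
  choose T hT using h1
  choose T' hT' using h2
  have hTT : (Matrix.of T' : Matrix (Fin n) (Fin n) k[X]) * Matrix.of T = 1 := by
    ext i j
    have h3 : ∑ j, aeval τ (((Matrix.of T' : Matrix (Fin n) (Fin n) k[X]) * Matrix.of T) i j
        - (1 : Matrix (Fin n) (Fin n) k[X]) i j) * eb j = 0 := by
      have h4 := S5_sum_vecMul τ eb w (Matrix.of T) hT (T' i)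
      rw [← hT' i] at h4
      simp only [map_sub, sub_mul, Finset.sum_sub_distrib, Matrix.mul_apply, Matrix.of_apply]
      simp only [Matrix.of_apply] at h4
      rw [← h4, sub_eq_zero, Finset.sum_eq_single i]
      · simp
      · intro b _ hb
        rw [Matrix.one_apply_ne (Ne.symm hb), map_zero, zero_mul]
      · intro h; exact absurd (Finset.mem_univ i) h
    have h5 := congrFun (li_poly heb hinj _ h3) j
    exact congrArg (fun q : k[X] => q.coeff _) (sub_eq_zero.1 h5)
  have hTT' : (Matrix.of T : Matrix (Fin n) (Fin n) k[X]) * Matrix.of T' = 1 :=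
    mul_eq_one_comm.1 hTT
  rw [Fintype.linearIndependent_iff]
  intro g hg i
  have hp : ∀ i, ∃ P : k[X], aeval τ P = (g i : E) := fun i => (mem_adjoin_iff τ _).1 (g i).2
  choose p hp using hp
  have h6 : ∑ i, aeval τ (p i) * w i = 0 := by
    rw [← hg]
    exact Finset.sum_congr rfl fun i _ => by rw [hp]; rfl
  rw [S5_sum_vecMul τ eb w (Matrix.of T) hT p] at h6
  have h7 : Matrix.vecMul p (Matrix.of T) = 0 := li_poly heb hinj _ h6
  have h8 : p = 0 := by
    have : Matrix.vecMul (Matrix.vecMul p (Matrix.of T)) (Matrix.of T') = p := by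
      rw [Matrix.vecMul_vecMul, hTT', Matrix.vecMul_one]
    rw [← this, h7, Matrix.zero_vecMul]
  apply Subtype.ext
  rw [← hp i, h8]
  simp

end S5gen

section S5main

variable {K F k E : Type} [Field K] [Field F] [Algebra K F] [Field k] [CommRing E] [Algebra k E]

/-- a good family together with its coordinate matrix. -/
structure S5_Good (S : SData K F k E) (t : F) {n : ℕ} (l : Fin n → F) (eb : Fin n → E)
    (e : Fin n → F) (T : Matrix (Fin n) (Fin n) K[X]) : Prop where
  memO : ∀ i, e i ∈ S.O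
  eq : ∀ i, e i = ∑ j, aeval t (T i j) * l j
  span : Sp k (S.rd t) (fun i => S.rd (e i)) = Sp k (S.rd t) eb

theorem S5_step [IsAlgClosed K] (h1 : Stmt_SGauss) (h2 : Stmt_SOrtho) (S : SData K F k E) (t : F)
    (htO : t ∈ S.O) (hun : ∀ p : k[X], p ≠ 0 → IsUnit (aeval (S.rd t) p)) {n : ℕ}
    (l : Fin n → F) (eb : Fin n → E)
    (heb : LinearIndependent (Algebra.adjoin k {S.rd t}) eb)
    (hred : ∀ x ∈ Submodule.span (Algebra.adjoin K {t}) (Set.range l), x ∈ S.O →
        S.rd x ∈ Sp k (S.rd t) eb)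
    (e : Fin n → F) (T : Matrix (Fin n) (Fin n) K[X]) (hg : S5_Good S t l eb e T)
    (hd : T.det.natDegree ≠ 0) :
    ∃ (e' : Fin n → F) (T' : Matrix (Fin n) (Fin n) K[X]), S5_Good S t l eb e' T' ∧
      T'.det.natDegree < T.det.natDegree := by
  have htK : Transcendental K t := (h1 K F k E S t htO hun).2.2.2.1
  have htr : Transcendental k (S.rd t) := (h1 K F k E S t htO hun).2.2.2.2.1
  have hinj : Function.Injective (aeval (S.rd t) : k[X] → E) := transcendental_iff_injective.1 htr
  have hw : LinearIndependent (Algebra.adjoin k {S.rd t}) (fun i => S.rd (e i)) :=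
    S5_linearIndependent_of_Sp_eq (S.rd t) hinj _ eb heb hg.span
  have he : LinearIndependent K⟮t⟯ e := (h2 K F k E S t htO hun (Fin n) e hg.memO hw).1
  have hdet : T.det ≠ 0 := P5_det_ne_zero t htK l e T hg.eq he
  obtain ⟨γ, hγ⟩ := IsAlgClosed.exists_root T.det (by
    intro h
    exact hd (natDegree_eq_zero_iff_degree_le_zero.2 (le_of_eq h)))
  have hsing : (T.map (eval γ)).det = 0 := by
    have h := RingHom.map_det (evalRingHom γ) T
    rw [coe_evalRingHom] at h
    have h' : (evalRingHom γ).mapMatrix T = T.map (eval γ) := rfl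
    rw [h'] at h
    rw [← h]
    exact hγ
  obtain ⟨β0, hβ0, hβT⟩ := Matrix.exists_vecMul_eq_zero_iff.2 hsing
  obtain ⟨i0, c, hc, hβA, hβ1⟩ := P5_scale S.A β0 hβ0
  obtain ⟨β, hβdef⟩ : ∃ β : Fin n → K, β = fun i => c * β0 i := ⟨_, rfl⟩
  have hβA : ∀ i, β i ∈ S.A := by rw [hβdef]; exact hβA
  have hβ1 : β i0 = 1 := by rw [hβdef]; exact hβ1
  have hR : ∀ j, (∑ i, C (β i) * T i j).eval γ = 0 := by
    intro j
    have h : ∑ i, β0 i * (T i j).eval γ = 0 := congrFun hβT j
    rw [eval_finsetSum]
    simp only [eval_mul, eval_C, hβdef, mul_assoc]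
    rw [← Finset.mul_sum, h, mul_zero]
  have hS : ∀ j, ∃ Sj : K[X], ∑ i, C (β i) * T i j = (X - C γ) * Sj :=
    fun j => dvd_iff_isRoot.2 (hR j)
  choose Sq hS using hS
  obtain ⟨y, hy⟩ : ∃ y : F, y = ∑ i, algebraMap K F (β i) * e i := ⟨_, rfl⟩
  obtain ⟨x1, hx1⟩ : ∃ x1 : F, x1 = ∑ j, aeval t (Sq j) * l j := ⟨_, rfl⟩
  have hyx : y = (t - algebraMap K F γ) * x1 := by
    have h := P5_sum_vecMul t l e T hg.eq (fun i => C (β i))
    simp only [aeval_C] at h
    rw [hy, h, hx1, Finset.mul_sum]
    refine Finset.sum_congr rfl fun j _ => ?_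
    rw [hS j, map_mul, map_sub, aeval_X, aeval_C, mul_assoc]
  have hyO : y ∈ S.O := by
    rw [hy]
    exact SData.sum_mem _ _ fun i _ => mul_mem (SData.algebraMap_mem (hβA i)) (hg.memO i)
  have hyrd : S.rd y = ∑ i, algebraMap k E (S.ra (β i)) * S.rd (e i) := by
    rw [hy, SData.rd_sum _ _ (fun i _ => mul_mem (SData.algebraMap_mem (hβA i)) (hg.memO i))]
    refine Finset.sum_congr rfl fun i _ => ?_
    rw [SData.rd_mul (SData.algebraMap_mem (hβA i)) (hg.memO i), SData.rd_algebraMap (hβA i)]
  have hra1 : S.ra (β i0) = 1 := by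
    rw [hβ1, SData.ra_of_mem S.A.one_mem]; exact map_one S.rA
  have hx1Λ : x1 ∈ Submodule.span (Algebra.adjoin K {t}) (Set.range l) :=
    (P5_mem_span_iff t l x1).2 ⟨Sq, hx1⟩
  by_cases hγA : γ ∈ S.A
  · exfalso
    have hrt : S.rd (t - algebraMap K F γ) = S.rd t - algebraMap k E (S.ra γ) := by
      rw [SData.rd_sub htO (SData.algebraMap_mem hγA), SData.rd_algebraMap hγA]
    have hne : IsUnit (S.rd (t - algebraMap K F γ)) := by
      have h := hun (X - C (S.ra γ)) (X_sub_C_ne_zero _)
      rw [map_sub, aeval_X, aeval_C] at h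
      rw [hrt]; exact h
    have hne' : t - algebraMap K F γ ≠ 0 := SData.ne_zero_of_isUnit_rd hne
    have hx1y : x1 = y / (t - algebraMap K F γ) := by
      rw [hyx, mul_div_cancel_left₀ _ hne']
    have hx1O : x1 ∈ S.O := by rw [hx1y]; exact SData.div_mem hyO hne
    have hx1rd : S.rd y = (S.rd t - algebraMap k E (S.ra γ)) * S.rd x1 := by
      rw [hyx, SData.rd_mul (sub_mem htO (SData.algebraMap_mem hγA)) hx1O, hrt]
    have hmem := hred x1 hx1Λ hx1O
    rw [← hg.span] at hmem
    obtain ⟨Q, hQ⟩ := (mem_Sp_iff (S.rd t) _ _).1 hmem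
    have hz : ∑ i, aeval (S.rd t) ((X - C (S.ra γ)) * Q i - C (S.ra (β i))) * S.rd (e i) = 0 := by
      have hz1 : ∀ i, aeval (S.rd t) ((X - C (S.ra γ)) * Q i - C (S.ra (β i))) * S.rd (e i) =
          (S.rd t - algebraMap k E (S.ra γ)) * (aeval (S.rd t) (Q i) * S.rd (e i)) -
            algebraMap k E (S.ra (β i)) * S.rd (e i) := by
        intro i
        rw [map_sub, map_mul, map_sub, aeval_X, aeval_C, aeval_C]; ring
      simp only [hz1, Finset.sum_sub_distrib]
      rw [← hyrd, hx1rd, hQ, Finset.mul_sum, sub_self]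
    have h5 : (X - C (S.ra γ)) * Q i0 - C (S.ra (β i0)) = 0 :=
      congrFun (li_poly hw hinj _ hz) i0
    have h6 := congrArg (eval (S.ra γ)) h5
    simp [hra1] at h6
  · obtain ⟨g, hgdef⟩ : ∃ g : F, g = algebraMap K F γ := ⟨_, rfl⟩
    obtain ⟨hγi, hγi0⟩ := SData.inv_mem_of_not_mem hγA
    have hginv : g⁻¹ = algebraMap K F γ⁻¹ := by rw [hgdef, map_inv₀]
    have hgi : g⁻¹ ∈ S.O := by rw [hginv]; exact SData.algebraMap_mem hγi
    have hgi0 : S.rd g⁻¹ = 0 := by
      rw [hginv, SData.rd_algebraMap hγi, hγi0, map_zero]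
    have hγ0 : γ ≠ 0 := by rintro rfl; exact hγA S.A.zero_mem
    have hg0 : g ≠ 0 := by rw [hgdef]; exact (_root_.map_ne_zero _).2 hγ0
    have hu : S.rd (1 - g⁻¹ * t) = 1 := by
      rw [SData.rd_sub S.O.one_mem (mul_mem hgi htO), SData.rd_mul hgi htO, hgi0,
        SData.rd_one, zero_mul, sub_zero]
    obtain ⟨x2, hx2⟩ : ∃ x2 : F, x2 = ∑ j, aeval t (C (-γ) * Sq j) * l j := ⟨_, rfl⟩
    have hx2x1 : x2 = -g * x1 := by
      rw [hx2, hx1, Finset.mul_sum]
      refine Finset.sum_congr rfl fun j _ => ?_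
      rw [map_mul, aeval_C, map_neg, mul_assoc, hgdef]
    have hu' : IsUnit (S.rd (1 - g⁻¹ * t)) := by rw [hu]; exact isUnit_one
    have hyx2 : x2 = y / (1 - g⁻¹ * t) := by
      have h : (1 - g⁻¹ * t) ≠ 0 := SData.ne_zero_of_isUnit_rd hu'
      rw [eq_div_iff h, hx2x1, hyx, ← hgdef]
      field_simp
      ring
    have hx2O : x2 ∈ S.O := by rw [hyx2]; exact SData.div_mem hyO hu'
    have hx2rd : S.rd x2 = S.rd y := by rw [hyx2, SData.rd_div_of_rd_eq_one hyO hu]
    refine ⟨Function.update e i0 x2, T.updateRow i0 (fun j => C (-γ) * Sq j), ⟨?_, ?_, ?_⟩, ?_⟩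
    · intro i
      by_cases h : i = i0
      · subst h; rw [Function.update_self]; exact hx2O
      · rw [Function.update_of_ne h]; exact hg.memO i
    · intro i
      by_cases h : i = i0
      · subst h
        rw [Function.update_self, hx2]
        refine Finset.sum_congr rfl fun j _ => ?_
        rw [Matrix.updateRow_self]
      · rw [Function.update_of_ne h, hg.eq i]
        refine Finset.sum_congr rfl fun j _ => ?_
        rw [Matrix.updateRow_ne h]
    · rw [← hg.span]
      apply le_antisymm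
      · unfold Sp
        rw [Submodule.span_le]
        rintro _ ⟨i, rfl⟩
        by_cases h : i = i0
        · subst h
          simp only [Function.update_self]
          rw [hx2rd, hyrd]
          exact (mem_Sp_iff _ _ _).2 ⟨fun i => C (S.ra (β i)), by simp only [aeval_C]⟩
        · simp only [Function.update_of_ne h]
          exact Submodule.subset_span ⟨i, rfl⟩
      · unfold Sp
        rw [Submodule.span_le]
        rintro _ ⟨i, rfl⟩
        by_cases h : i = i0
        · subst h
          have hsplit : S.rd y = S.rd (e i) +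
              ∑ j ∈ Finset.univ.erase i, algebraMap k E (S.ra (β j)) * S.rd (e j) := by
            rw [hyrd, ← Finset.add_sum_erase _ _ (Finset.mem_univ i), hra1, map_one, one_mul]
          have hei : S.rd (e i) = S.rd y -
              ∑ j ∈ Finset.univ.erase i, algebraMap k E (S.ra (β j)) * S.rd (e j) := by
            rw [hsplit]; ring
          show S.rd (e i) ∈ _
          rw [hei]
          refine Submodule.sub_mem _ (Submodule.subset_span ⟨i, ?_⟩)
            (Submodule.sum_mem _ fun j hj => ?_)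
          · simp only [Function.update_self]; exact hx2rd
          · have hj' : j ≠ i := Finset.ne_of_mem_erase hj
            rw [← aeval_C (S.rd t)]
            refine aeval_mul_mem_Sp _ _ _ (Submodule.subset_span ⟨j, ?_⟩)
            simp only [Function.update_of_ne hj']
        · exact Submodule.subset_span ⟨i, by simp only [Function.update_of_ne h]⟩
    · have hdet' : (X - C γ) * (T.updateRow i0 (fun j => C (-γ) * Sq j)).det = C (-γ) * T.det := by
        have e1 : (X - C γ) * (T.updateRow i0 (fun j => C (-γ) * Sq j)).det =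
            (T.updateRow i0 ((X - C γ) • (fun j => C (-γ) * Sq j))).det :=
          (Matrix.det_updateRow_smul T i0 (X - C γ) _).symm
        have e2 : ((X - C γ) • (fun j => C (-γ) * Sq j)) = C (-γ) • (∑ i, C (β i) • T i) := by
          funext j
          simp only [Pi.smul_apply, Finset.sum_apply, smul_eq_mul]
          rw [hS j]; ring
        rw [e1, e2, Matrix.det_updateRow_smul, Matrix.det_updateRow_sum, hβ1]
        simp
      have hT'0 : (T.updateRow i0 (fun j => C (-γ) * Sq j)).det ≠ 0 := by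
        intro h
        rw [h, mul_zero] at hdet'
        exact (mul_ne_zero (C_ne_zero.2 (neg_ne_zero.2 hγ0)) hdet) hdet'.symm
      have h := congrArg natDegree hdet'
      rw [natDegree_mul (X_sub_C_ne_zero γ) hT'0, natDegree_X_sub_C,
        natDegree_C_mul (neg_ne_zero.2 hγ0)] at h
      omega

theorem stmt_SLift (h1 : Stmt_SGauss) (h2 : Stmt_SOrtho) : Stmt_SLift := by
  intro K F k E _ _ _ _ _ _ _ S t htO hun n Λ l hl _ eb heb hred hlift
  subst hl
  have htK : Transcendental K t := (h1 K F k E S t htO hun).2.2.2.1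
  have htr : Transcendental k (S.rd t) := (h1 K F k E S t htO hun).2.2.2.2.1
  have hinj : Function.Injective (aeval (S.rd t) : k[X] → E) := transcendental_iff_injective.1 htr
  -- the induction
  have key : ∀ (d : ℕ) (e : Fin n → F) (T : Matrix (Fin n) (Fin n) K[X]),
      S5_Good S t l eb e T → T.det.natDegree = d →
      ∃ (e' : Fin n → F) (T' : Matrix (Fin n) (Fin n) K[X]), S5_Good S t l eb e' T' ∧
        T'.det.natDegree = 0 := by
    intro d
    induction d using Nat.strong_induction_on with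
    | _ d ih =>
      intro e T hg hd
      by_cases h0 : T.det.natDegree = 0
      · exact ⟨e, T, hg, h0⟩
      · obtain ⟨e', T', hg', hlt⟩ := S5_step h1 h2 S t htO hun l eb heb hred e T hg h0
        exact ih _ (hd ▸ hlt) e' T' hg' rfl
  choose e0 he0Λ he0O he0rd using hlift
  have hT : ∀ i, ∃ P : Fin n → K[X], e0 i = ∑ j, aeval t (P j) * l j :=
    fun i => (P5_mem_span_iff t l (e0 i)).1 (he0Λ i)
  choose T0 hT0 using hT
  have hg0 : S5_Good S t l eb e0 (Matrix.of T0) :=
    ⟨he0O, hT0, by simp only [he0rd]⟩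
  obtain ⟨e, T, hg, hd⟩ := key _ e0 (Matrix.of T0) hg0 rfl
  have hw : LinearIndependent (Algebra.adjoin k {S.rd t}) (fun i => S.rd (e i)) :=
    S5_linearIndependent_of_Sp_eq (S.rd t) hinj _ eb heb hg.span
  have he : LinearIndependent K⟮t⟯ e := (h2 K F k E S t htO hun (Fin n) e hg.memO hw).1
  have hdet : T.det ≠ 0 := P5_det_ne_zero t htK l e T hg.eq he
  exact ⟨e, hg.memO, P5_span_of_natDegree_eq_zero t l e T hg.eq hdet hd, hw, hg.span⟩

end S5main

end Fermat.Agent.BR.Inv
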