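import Fermat.Agent.BR.Inv.Interface

/-!
# BR / Inv, package S6 : every `K[t]`-lattice of full rank has an orthonormal basis
-/

set_option autoImplicit false

namespace Fermat.Agent.BR.Inv

open Polynomial IntermediateField
open Fermat.Agent.INJ (IsInt LocPow RedData Arch)

theorem stmt_SBasis (h1 : Stmt_SGauss) (h2 : Stmt_SOrtho) (h5 : Stmt_SLift)
    (h6a : Stmt_SRedLattice) : Stmt_SBasis := by
  intro K F k E _ _ _ _ _ _ _ S t hC Λ l hl hli
  obtain ⟨eb, heb, hsub, hlift⟩ := h6a K F k E S t hC Λ l hl hli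
  obtain ⟨e, heO, hspan, hliE, hSp⟩ :=
    h5 K F k E S t hC.t_mem hC.unit _ Λ l hl hli eb heb hsub hlift
  obtain ⟨hliK, -⟩ := h2 K F k E S t hC.t_mem hC.unit _ e heO hliE
  refine ⟨e, heO, hspan, hliK, hliE, ?_, ?_⟩
  · intro x hx hxO
    rw [hSp]
    exact hsub x hx hxO
  · intro f hf
    obtain ⟨p, rfl⟩ := (mem_Sp_iff _ _ _).1 hf
    have hG := (h1 K F k E S t hC.t_mem hC.unit).1
    have hex : ∀ i, ∃ Q : (S.A)[X], Q.map S.rA = p i :=
      fun i => Polynomial.map_surjective S.rA S.rA_surj (p i)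
    choose Q hQ using hex
    refine ⟨∑ i, aeval t ((Q i).map S.A.subtype) * e i, ?_, ?_, ?_⟩
    · rw [← hspan]
      refine Submodule.sum_mem _ fun i _ => ?_
      have hsm : aeval t ((Q i).map S.A.subtype) * e i =
          (⟨aeval t ((Q i).map S.A.subtype), aeval_mem_adjoin t _⟩ : Algebra.adjoin K {t}) • e i :=
        rfl
      rw [hsm]
      exact Submodule.smul_mem _ _ (Submodule.subset_span ⟨i, rfl⟩)
    · exact S.O.sum_mem fun i _ => mul_mem (hG (Q i)).1 (heO i)
    · rw [SData.rd_sum _ _ fun i _ => mul_mem (hG (Q i)).1 (heO i)]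
      refine Finset.sum_congr rfl fun i _ => ?_
      rw [SData.rd_mul (hG (Q i)).1 (heO i), (hG (Q i)).2, hQ]

end Fermat.Agent.BR.Inv
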