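import Fermat.Agent.BR.Inv.Interface
import Fermat.Agent.BR.Inv.A3
import Fermat.Agent.INJ.P5

/-!
# BR / Inv, package S6a : the reduction of a lattice is free of rank `n`
-/

set_option autoImplicit false

namespace Fermat.Agent.BR.Inv

open Polynomial IntermediateField
open Fermat.Agent.INJ (P5_mem_span_iff P5_aeval_mem P5_aeval_mul_mem)

section

variable {K F k E : Type} [Field K] [Field F] [Algebra K F] [Field k] [CommRing E] [Algebra k E]

/-- fraction form of an element of `K(t)`. -/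
theorem S6a_frac (t : F) (c : K⟮t⟯) :
    ∃ r s : K[X], s ≠ 0 ∧ aeval t s * (c : F) = aeval t r := by
  obtain ⟨r, s, h⟩ := (IntermediateField.mem_adjoin_simple_iff K (c : F)).1 c.2
  by_cases hs : aeval t s = 0
  · refine ⟨0, 1, one_ne_zero, ?_⟩
    rw [h, hs, div_zero]
    simp
  · refine ⟨r, s, fun h0 => hs (by rw [h0, map_zero]), ?_⟩
    rw [h]
    field_simp

/-- a primitive common denominator. -/
theorem S6a_denom (S : SData K F k E) (t : F)
    (g3 : ∀ P : K[X], P ≠ 0 → ∃ (a : K) (Q : (S.A)[X]), a ≠ 0 ∧ P = C a * Q.map S.A.subtype ∧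
      Q.map S.rA ≠ 0)
    {ι : Type} [Fintype ι] (c : ι → K⟮t⟯) :
    ∃ Q : (S.A)[X], Q.map S.rA ≠ 0 ∧
      ∀ i, ∃ P : K[X], aeval t (Q.map S.A.subtype) * (c i : F) = aeval t P := by
  classical
  choose r s hs hrs using fun i => S6a_frac t (c i)
  obtain ⟨a, Q, ha, hQ, hQ0⟩ := g3 (∏ i, s i) (Finset.prod_ne_zero_iff.2 fun i _ => hs i)
  refine ⟨Q, hQ0, fun i => ⟨C a⁻¹ * (r i * ∏ j ∈ Finset.univ.erase i, s j), ?_⟩⟩
  have h1 : aeval t (Q.map S.A.subtype) = aeval t (C a⁻¹ * ∏ i, s i) := by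
    rw [hQ, ← mul_assoc, ← C_mul, inv_mul_cancel₀ ha, C_1, one_mul]
  rw [h1, ← Finset.mul_prod_erase Finset.univ _ (Finset.mem_univ i)]
  simp only [map_mul]
  rw [← hrs i]
  ring

/-- transition from a `K[t]`-lattice to a `K(t)`-generating family, with a primitive denominator. -/
theorem S6a_trans (S : SData K F k E) (t : F)
    (g3 : ∀ P : K[X], P ≠ 0 → ∃ (a : K) (Q : (S.A)[X]), a ≠ 0 ∧ P = C a * Q.map S.A.subtype ∧
      Q.map S.rA ≠ 0)
    {n : ℕ} (l e : Fin n → F) (he : Submodule.span K⟮t⟯ (Set.range e) = ⊤) :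
    ∃ Q : (S.A)[X], Q.map S.rA ≠ 0 ∧
      ∀ x ∈ Submodule.span (Algebra.adjoin K {t}) (Set.range l),
        ∃ P : Fin n → K[X], aeval t (Q.map S.A.subtype) * x = ∑ i, aeval t (P i) * e i := by
  have h1 : ∀ j, ∃ c : Fin n → K⟮t⟯, ∑ i, c i • e i = l j := fun j =>
    (Submodule.mem_span_range_iff_exists_fun K⟮t⟯).1 (he ▸ Submodule.mem_top)
  choose c hc using h1
  obtain ⟨Q, hQ0, hQ⟩ := S6a_denom S t g3 (fun p : Fin n × Fin n => c p.1 p.2)
  choose T hT using hQ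
  refine ⟨Q, hQ0, fun x hx => ?_⟩
  obtain ⟨p, rfl⟩ := (P5_mem_span_iff t l x).1 hx
  refine ⟨fun i => ∑ j, p j * T (j, i), ?_⟩
  calc aeval t (Q.map S.A.subtype) * ∑ j, aeval t (p j) * l j
      = ∑ j, ∑ i, aeval t (p j * T (j, i)) * e i := by
        rw [Finset.mul_sum]
        refine Finset.sum_congr rfl fun j _ => ?_
        rw [← hc j, Finset.mul_sum, Finset.mul_sum]
        refine Finset.sum_congr rfl fun i _ => ?_
        have h2 : c j i • e i = (c j i : F) * e i := rfl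
        rw [h2, map_mul, ← hT (j, i)]
        ring
    _ = ∑ i, aeval t (∑ j, p j * T (j, i)) * e i := by
        rw [Finset.sum_comm]
        refine Finset.sum_congr rfl fun i _ => ?_
        rw [map_sum, Finset.sum_mul]

end

theorem stmt_SRedLattice (h1 : Stmt_SGauss) (h2 : Stmt_SOrtho) : Stmt_SRedLattice := by
  intro K F k E _ _ _ _ _ _ S t hC Λ l hΛ hl
  classical
  obtain ⟨g1, g2, g3, -, g5, -, -⟩ := h1 K F k E S t hC.t_mem hC.unit
  have := hC.fin
  have hnt := S.nontrivial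
  obtain ⟨e0b, he0b⟩ := hC.deg
  choose e0 he0O he0 using fun i => SData.exists_rd_eq (S := S) (e0b i)
  have hli0 : LinearIndependent (Algebra.adjoin k {S.rd t}) (fun i => S.rd (e0 i)) := by
    have : (fun i => S.rd (e0 i)) = e0b := funext he0
    rw [this]; exact he0b
  obtain ⟨o1, o2⟩ := h2 K F k E S t hC.t_mem hC.unit _ e0 he0O hli0
  have hsp0 : Submodule.span K⟮t⟯ (Set.range e0) = ⊤ :=
    o1.span_eq_top_of_card_eq_finrank' (by rw [Fintype.card_fin])
  have hspl : Submodule.span K⟮t⟯ (Set.range l) = ⊤ :=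
    hl.span_eq_top_of_card_eq_finrank' (by rw [Fintype.card_fin])
  obtain ⟨δ, hδ0, hδ⟩ := S6a_trans S t g3 l e0 hsp0
  obtain ⟨δ', hδ'0, hδ'⟩ := S6a_trans S t g3 e0 l hspl
  -- the reduction of the lattice
  let Λb : Submodule (Algebra.adjoin k {S.rd t}) E :=
    { carrier := {f | ∃ x ∈ Λ, x ∈ S.O ∧ S.rd x = f}
      zero_mem' := ⟨0, Λ.zero_mem, S.O.zero_mem, SData.rd_zero⟩
      add_mem' := by
        rintro _ _ ⟨x, hx, hxO, rfl⟩ ⟨y, hy, hyO, rfl⟩
        exact ⟨x + y, Λ.add_mem hx hy, add_mem hxO hyO, SData.rd_add hxO hyO⟩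
      smul_mem' := by
        rintro r _ ⟨x, hx, hxO, rfl⟩
        obtain ⟨p, hp⟩ := (mem_adjoin_iff (S.rd t) (r : E)).1 r.2
        obtain ⟨Q, rfl⟩ := Polynomial.map_surjective S.rA S.rA_surj p
        refine ⟨aeval t (Q.map S.A.subtype) * x, P5_aeval_mul_mem t Λ _ hx,
          mul_mem (g1 Q).1 hxO, ?_⟩
        rw [SData.rd_mul (g1 Q).1 hxO, (g1 Q).2, hp]
        rfl }
  have hA : ∀ x ∈ Λ, x ∈ S.O → aeval (S.rd t) (δ.map S.rA) * S.rd x ∈ Sp k (S.rd t) e0b := by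
    intro x hx hxO
    obtain ⟨P, hP⟩ := hδ x (hΛ ▸ hx)
    have hmem : ∑ i, ((⟨aeval t (P i), P5_aeval_mem t (P i)⟩ : K⟮t⟯) : F) * e0 i ∈ S.O := by
      show ∑ i, aeval t (P i) * e0 i ∈ S.O
      rw [← hP]
      exact mul_mem (g1 δ).1 hxO
    have hPi : ∀ i, aeval t (P i) ∈ S.O := o2 _ hmem
    choose Qi hQi using fun i => g2 (P i) (hPi i)
    rw [mem_Sp_iff]
    refine ⟨fun i => (Qi i).map S.rA, ?_⟩
    rw [← (g1 δ).2, ← SData.rd_mul (g1 δ).1 hxO, hP,
      SData.rd_sum _ _ (fun i _ => mul_mem (hPi i) (he0O i))]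
    refine Finset.sum_congr rfl fun i _ => ?_
    rw [SData.rd_mul (hPi i) (he0O i), he0 i, ← hQi i, (g1 (Qi i)).2]
  have hB : ∀ i, aeval (S.rd t) (δ'.map S.rA) * e0b i ∈ Λb := by
    intro i
    obtain ⟨P, hP⟩ := hδ' (e0 i) (Submodule.subset_span ⟨i, rfl⟩)
    refine ⟨aeval t (δ'.map S.A.subtype) * e0 i, ?_, mul_mem (g1 δ').1 (he0O i), ?_⟩
    · rw [hP, ← hΛ]
      exact (P5_mem_span_iff t l _).2 ⟨P, rfl⟩
    · rw [SData.rd_mul (g1 δ').1 (he0O i), (g1 δ').2, he0 i]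
  have hu' := hC.unit _ hδ'0
  have hlib : LinearIndependent (Algebra.adjoin k {S.rd t})
      (fun i => aeval (S.rd t) (δ'.map S.rA) * e0b i) := by
    rw [Fintype.linearIndependent_iff]
    intro g hg i
    have h3 := Fintype.linearIndependent_iff.1 he0b
      (fun i => g i * ⟨aeval (S.rd t) (δ'.map S.rA), aeval_mem_adjoin _ _⟩) (by
        rw [← hg]
        refine Finset.sum_congr rfl fun i _ => ?_
        show ((g i : E) * aeval (S.rd t) (δ'.map S.rA)) * e0b i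
          = (g i : E) * (aeval (S.rd t) (δ'.map S.rA) * e0b i)
        ring) i
    have h4 : (g i : E) * aeval (S.rd t) (δ'.map S.rA) = 0 := congrArg Subtype.val h3
    exact Subtype.ext (hu'.mul_left_eq_zero.1 h4)
  have := A3_isDomain g5
  have := A3_pid g5
  obtain ⟨o, ho1, ho2⟩ := A3_abs (R := Algebra.adjoin k {S.rd t}) _ hlib Λb hB
    (⟨aeval (S.rd t) (δ'.map S.rA * δ.map S.rA), aeval_mem_adjoin _ _⟩ :
      Algebra.adjoin k {S.rd t})
    (fun x y hxy => (hC.unit _ (mul_ne_zero hδ'0 hδ0)).mul_left_cancel hxy)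
    (by
      rintro _ ⟨x, hx, hxO, rfl⟩
      obtain ⟨P, hP⟩ := (mem_Sp_iff _ _ _).1 (hA x hx hxO)
      show aeval (S.rd t) (δ'.map S.rA * δ.map S.rA) * S.rd x ∈ _
      rw [map_mul, mul_assoc, hP, Finset.mul_sum]
      refine Submodule.sum_mem _ fun i _ => ?_
      have h5 : aeval (S.rd t) (δ'.map S.rA) * (aeval (S.rd t) (P i) * e0b i)
          = (⟨aeval (S.rd t) (P i), aeval_mem_adjoin _ _⟩ : Algebra.adjoin k {S.rd t}) •
            (aeval (S.rd t) (δ'.map S.rA) * e0b i) := by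
        show _ = aeval (S.rd t) (P i) * (aeval (S.rd t) (δ'.map S.rA) * e0b i)
        ring
      rw [h5]
      exact Submodule.smul_mem _ _ (Submodule.subset_span ⟨i, rfl⟩))
  refine ⟨o, ho1, ?_, ?_⟩
  · intro x hx hxO
    unfold Sp
    rw [ho2]
    exact ⟨x, hx, hxO, rfl⟩
  · intro i
    have h6 : o i ∈ Λb := ho2 ▸ Submodule.subset_span ⟨i, rfl⟩
    exact h6

end Fermat.Agent.BR.Inv
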