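import Fermat.Agent.BR.Inv.Interface

/-!
# BR / Inv : package S7.  `B` has an orthonormal `K[t]`-basis and gives an `AlgSetting`.
-/

set_option autoImplicit false

namespace Fermat.Agent.BR.Inv

open Polynomial IntermediateField
open Fermat.Agent.INJ (IsInt LocPow RedData Arch)

theorem stmt_SSetting (h1 : Stmt_SGauss) (h4 : Stmt_SIntRed) (h6 : Stmt_SBasis)
    (hL : Fermat.Agent.INJ.Stmt_MLattice) : Stmt_SSetting := by
  intro K F k E _ _ _ _ _ _ _ _ S t hch hSN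
  have ht := hch.t_mem
  have hun := hch.unit
  have hfin := hch.fin
  obtain ⟨-, -, -, g4, -⟩ := h1 K F k E S t ht hun
  obtain ⟨Λ, l, hΛ, hl, hlli⟩ := hL K F t 1 1 g4 hfin one_ne_zero one_pos
  have hΛ' : ∀ x, x ∈ Λ ↔ IsInt K t x := by
    intro x
    rw [hΛ x, pow_one, mul_one]
  obtain ⟨b, hbO, hbspan, hbli, hbrli, hb5, hb6⟩ := h6 K F k E S t hch Λ l hl hlli
  obtain ⟨d, hd0, hd⟩ := hSN
  have hbi : ∀ i, IsInt K t (b i) := fun i =>
    (hΛ' _).1 (hbspan ▸ Submodule.subset_span ⟨i, rfl⟩)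
  have h5 : ∀ x ∈ S.O, IsInt K t x → S.rd x ∈ Sp k (S.rd t) (fun i => S.rd (b i)) :=
    fun x hx hxi => hb5 x ((hΛ' x).2 hxi) hx
  refine ⟨b, d, hbO, fun z => by rw [hbspan]; exact hΛ' z, hbli, ?_, h5, ?_⟩
  · refine ⟨hun, hbrli, fun i => h4 K F k E S t hch (b i) (hbO i) (hbi i), ?_, ?_, hd0, ?_⟩
    · have := h5 1 S.O.one_mem isIntegral_one
      rwa [SData.rd_one] at this
    · intro i j
      have := h5 (b i * b j) (mul_mem (hbO i) (hbO j)) (IsIntegral.mul (hbi i) (hbi j))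
      rwa [SData.rd_mul (hbO i) (hbO j)] at this
    · intro f h N hf hh hN
      obtain ⟨x, hxO, hxi, rfl⟩ := hd f h N hf hh hN
      exact h5 x hxO hxi
  · intro f hf
    obtain ⟨x, hxΛ, hxO, hx⟩ := hb6 f hf
    exact ⟨x, hxO, (hΛ' x).1 hxΛ, hx⟩

end Fermat.Agent.BR.Inv
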