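import Fermat.Agent.BR.Inv.Interface

/-!
# BR / Inv, package S8 : lemma (Inv) for semi-local reduction data (`Stmt_SInv`)
-/

set_option autoImplicit false

namespace Fermat.Agent.BR.Inv

open Polynomial IntermediateField
open Fermat.Agent.INJ (IsInt LocPow RedData Arch)

section Core

variable {K F k E : Type} [Field K] [Field F] [Algebra K F] [Field k] [CommRing E] [Algebra k E]

/-- the lattice `M(v)` with an orthonormal basis and all the facts on its reduction which are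
needed for lemma (Inv). -/
theorem S8_lattice (h6 : Stmt_SBasis) (hL : INJ.Stmt_MLattice) [IsAlgClosed K] [CharZero K]
    (S : SData K F k E) (t : F) (hch : SChart S t) (htr : Transcendental K t)
    (b : Fin (Module.finrank K⟮t⟯ F) → F) (d : k[X])
    (hAS : AlgSetting k (S.rd t) (fun i => S.rd (b i)) d)
    (hbred : ∀ x ∈ S.O, IsInt K t x → S.rd x ∈ Sp k (S.rd t) (fun i => S.rd (b i)))
    (v : F) (m : ℕ) (hm : 0 < m) (hv0 : v ≠ 0) (hvO : v ∈ S.O) (hvO' : v⁻¹ ∈ S.O)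
    (hint' : IsIntegral k (S.rd v⁻¹)) :
    ∃ (x : Fin (Module.finrank K⟮t⟯ F) → F)
      (P : Matrix (Fin (Module.finrank K⟮t⟯ F)) (Fin (Module.finrank K⟮t⟯ F)) k[X]),
      (∀ i, x i ∈ S.O) ∧
      (∀ z, z ∈ Submodule.span (Algebra.adjoin K {t}) (Set.range x) ↔ IsInt K t (z ^ m * v)) ∧
      LinearIndependent (Algebra.adjoin k {S.rd t}) (fun i => S.rd (x i)) ∧
      (∀ z ∈ Sp k (S.rd t) (fun i => S.rd (x i)),
        S.rd v * z ^ m ∈ Sp k (S.rd t) (fun i => S.rd (b i))) ∧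
      (∀ i, aeval (S.rd t) d * S.rd (x i) = ∑ j, aeval (S.rd t) (P i j) * S.rd (b j)) := by
  have hfin := hch.fin
  obtain ⟨Λ, l, hΛ, hl, hlli⟩ := hL K F t v m htr hfin hv0 hm
  obtain ⟨x, hxO, hxspan, -, hxlib, -, hxlift⟩ := h6 K F k E S t hch Λ l hl hlli
  have hcc' : S.rd v * S.rd v⁻¹ = 1 := SData.rd_mul_rd_inv hv0 hvO hvO'
  have hc'int : IsIntE k (S.rd t) (S.rd v⁻¹) := hint'.tower_top
  have hz : ∀ z ∈ Sp k (S.rd t) (fun i => S.rd (x i)),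
      S.rd v * z ^ m ∈ Sp k (S.rd t) (fun i => S.rd (b i)) := by
    intro z hz
    obtain ⟨ζ, hζΛ, hζO, rfl⟩ := hxlift z hz
    have h1 := hbred (ζ ^ m * v) (mul_mem (pow_mem hζO m) hvO) ((hΛ ζ).1 hζΛ)
    rwa [SData.rd_mul (pow_mem hζO m) hvO, SData.rd_pow hζO, mul_comm] at h1
  have hxint : ∀ i, IsIntE k (S.rd t) (S.rd (x i)) := by
    intro i
    apply IsIntE.of_pow hm
    have h1 : S.rd (x i) ^ m = S.rd v⁻¹ * (S.rd v * S.rd (x i) ^ m) := by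
      rw [← mul_assoc, mul_comm (S.rd v⁻¹), hcc', one_mul]
    rw [h1]
    exact hc'int.mul (hAS.isIntE_of_mem (hz _ (mem_Sp_self _ (fun i => S.rd (x i)) i)))
  have hP : ∀ i, ∃ P : Fin (Module.finrank K⟮t⟯ F) → k[X],
      aeval (S.rd t) d * S.rd (x i) = ∑ j, aeval (S.rd t) (P j) * S.rd (b j) := fun i =>
    (mem_Sp_iff (S.rd t) _ _).1 (hAS.d_mul_mem (hxint i))
  choose P hP using hP
  exact ⟨x, Matrix.of P, hxO, fun z => by rw [hxspan, hΛ], hxlib, hz, hP⟩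

/-- coordinates with respect to a `K(t)`-basis. -/
theorem S8_coord (t : F) [FiniteDimensional K⟮t⟯ F] (b x : Fin (Module.finrank K⟮t⟯ F) → F)
    (hbli : LinearIndependent K⟮t⟯ b) :
    ∃ T : Matrix (Fin (Module.finrank K⟮t⟯ F)) (Fin (Module.finrank K⟮t⟯ F)) K⟮t⟯,
      ∀ i, x i = ∑ j, (T i j : F) * b j := by
  have htop : Submodule.span K⟮t⟯ (Set.range b) = ⊤ :=
    hbli.span_eq_top_of_card_eq_finrank' (Fintype.card_fin _)
  have hT : ∀ i, ∃ c : Fin (Module.finrank K⟮t⟯ F) → K⟮t⟯, ∑ j, c j • b j = x i := fun i =>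
    (Submodule.mem_span_range_iff_exists_fun K⟮t⟯).1 (htop ▸ Submodule.mem_top)
  choose T hT using hT
  exact ⟨Matrix.of T, fun i => (hT i).symm⟩

end Core

/-- **S8** = lemma (Inv) for semi-local reduction data. -/
theorem stmt_SInv (h1 : Stmt_SGauss) (_h2 : Stmt_SOrtho) (h6 : Stmt_SBasis) (h7 : Stmt_SSetting)
    (h8a : Stmt_SDetRed) (hA : Stmt_InvAlg) (hL : INJ.Stmt_MLattice) (hD : INJ.Stmt_DetConst) :
    Stmt_SInv := by
  intro K F k E _ _ _ _ _ _ _ _ _ S t hch hsn v m hm hmk hv0 hvO hvO' hint hint' hloc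
  have ht := hch.t_mem
  have hun := hch.unit
  have hfin := hch.fin
  have hnt : Nontrivial E := S.nontrivial
  obtain ⟨-, -, -, g4, -, -, -⟩ := h1 K F k E S t ht hun
  obtain ⟨b, d, hbO, hbspan, hbli, hAS, hbred, -⟩ := h7 K F k E S t hch hsn
  have hv0' : v⁻¹ ≠ 0 := inv_ne_zero hv0
  obtain ⟨x, P, hxO, hxspan, hxlib, hxz, hP⟩ := S8_lattice h6 hL S t hch g4 b d hAS hbred
    v m hm hv0 hvO hvO' hint'
  obtain ⟨y, P', hyO, hyspan, hylib, hyz, hP'⟩ := S8_lattice h6 hL S t hch g4 b d hAS hbred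
    v⁻¹ m hm hv0' hvO' (by rwa [inv_inv]) (by rwa [inv_inv])
  obtain ⟨TM, hTM⟩ := S8_coord t b x hbli
  obtain ⟨TN, hTN⟩ := S8_coord t b y hbli
  obtain ⟨c0, hc0, hc⟩ := hD K F t v m g4 hfin hv0 hm hloc _ b x y hbli hbspan hxspan hyspan
    TM TN hTM hTN
  obtain ⟨hMO, hMO', hMdet⟩ := h8a K F k E S t ht hun _ b x hbO hxO hAS.li hxlib TM hTM
  obtain ⟨hNO, hNO', hNdet⟩ := h8a K F k E S t ht hun _ b y hbO hyO hAS.li hylib TN hTN
  have hcF : ((TM.det : K⟮t⟯) : F) * ((TN.det : K⟮t⟯) : F) = algebraMap K F c0 :=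
    congrArg Subtype.val hc
  have hcA : c0 ∈ S.A := (S.mem_iff c0).1 (hcF ▸ mul_mem hMO hNO)
  have hcA' : c0⁻¹ ∈ S.A := by
    rw [← S.mem_iff, map_inv₀, ← hcF, mul_inv]
    exact mul_mem hMO' hNO'
  have hne : S.ra c0 ≠ 0 := SData.ra_ne_zero_of_inv_mem hc0 hcA hcA'
  have hdet : P.det * P'.det = C (S.ra c0) * d ^ (2 * Module.finrank K⟮t⟯ F) := by
    apply hAS.aeval_injective
    rw [map_mul, hMdet d P hP, hNdet d P' hP', map_mul, aeval_C, map_pow,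
      ← SData.rd_algebraMap hcA, ← hcF, SData.rd_mul hMO hNO]
    ring
  have hcc' : S.rd v * S.rd v⁻¹ = 1 := SData.rd_mul_rd_inv hv0 hvO hvO'
  obtain ⟨⟨a, ha, hax⟩, ⟨a', ha', hay⟩⟩ := hA k E (S.rd t) _ (fun i => S.rd (b i)) d hAS
    (fun i => S.rd (x i)) (fun i => S.rd (y i)) P P' (S.ra c0) hne hP hP' hdet
    (S.rd v) (S.rd v⁻¹) m hmk hcc' hint.tower_top hint'.tower_top hxz hyz
  refine ⟨_, x, y, a, a', fun i => ⟨hxO i, ?_⟩, fun i => ⟨hyO i, ?_⟩, ha, ha', hax, hay⟩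
  · exact (hxspan _).1 (Submodule.subset_span ⟨i, rfl⟩)
  · exact (hyspan _).1 (Submodule.subset_span ⟨i, rfl⟩)

end Fermat.Agent.BR.Inv
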