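/-
BR / Inv, package S8a (helper75): reduction of a transition matrix between orthonormal families
(`Stmt_SDetRed`).
-/
import Fermat.Agent.BR.Inv.Interface

set_option autoImplicit false

namespace Fermat.Agent.BR.Inv

open Polynomial IntermediateField
open Fermat.Agent.INJ (IsInt LocPow RedData Arch)

section S8a

variable {K F k E : Type} [Field K] [Field F] [Algebra K F] [Field k] [CommRing E] [Algebra k E]

/-- the determinant of a matrix with entries in `O` lies in `O` and reduces to the determinant of the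
reduced matrix. -/
theorem S8a_det {S : SData K F k E} {L : IntermediateField K F} {n : ℕ}
    (T : Matrix (Fin n) (Fin n) L) (hT : ∀ i j, (T i j : F) ∈ S.O) :
    ((T.det : L) : F) ∈ S.O ∧
      S.rd ((T.det : L) : F) = Matrix.det (fun i j => S.rd (T i j : F)) := by
  let T' : Matrix (Fin n) (Fin n) S.O := fun i j => ⟨T i j, hT i j⟩
  have h1 : ((T.det : L) : F) = ((T'.det : S.O) : F) := by
    have e1 : ((T.det : L) : F) = ((algebraMap L F).mapMatrix T).det :=
      RingHom.map_det (algebraMap L F) T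
    have e2 : ((T'.det : S.O) : F) = (S.O.subtype.mapMatrix T').det :=
      RingHom.map_det S.O.subtype T'
    rw [e1, e2]
    rfl
  refine ⟨by rw [h1]; exact T'.det.2, ?_⟩
  rw [h1, SData.rd_of_mem T'.det.2]
  have e3 : S.rO T'.det = (S.rO.mapMatrix T').det := RingHom.map_det S.rO T'
  show S.rO T'.det = _
  rw [e3]
  congr 1
  funext i j
  exact (SData.rd_of_mem (hT i j)).symm

/-- clearing denominators in a linear relation. -/
theorem S8a_clear {τ : E} {ι : Type} [Fintype ι] [DecidableEq ι] {e : ι → E}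
    (hli : LinearIndependent (Algebra.adjoin k {τ}) e)
    (hunit : ∀ p : k[X], p ≠ 0 → IsUnit (aeval τ p)) (a : ι → E) (W U : ι → k[X])
    (hW : ∀ j, W j ≠ 0) (haW : ∀ j, a j * aeval τ (W j) = aeval τ (U j))
    (h0 : ∑ j, a j * e j = 0) : ∀ j, a j = 0 := by
  set w : E := ∏ l, aeval τ (W l) with hw
  have hwu : IsUnit w := by
    rw [hw, ← map_prod]
    exact hunit _ (Finset.prod_ne_zero_iff.2 fun l _ => hW l)
  have hmem : ∀ j, a j * w ∈ Algebra.adjoin k {τ} := by
    intro j
    rw [hw, ← Finset.mul_prod_erase Finset.univ _ (Finset.mem_univ j), ← mul_assoc, haW]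
    exact Subalgebra.mul_mem _ (aeval_mem_adjoin τ _)
      (Subalgebra.prod_mem _ fun l _ => aeval_mem_adjoin τ _)
  have h2 := Fintype.linearIndependent_iff.1 hli
    (fun j => (⟨a j * w, hmem j⟩ : Algebra.adjoin k {τ})) (by
      show ∑ j, (a j * w) * e j = 0
      have : ∑ j, (a j * w) * e j = w * ∑ j, a j * e j := by
        rw [Finset.mul_sum]
        exact Finset.sum_congr rfl fun j _ => by ring
      rw [this, h0, mul_zero])
  intro j
  have h3 : a j * w = 0 := congrArg Subtype.val (h2 j)
  exact (hwu.mul_left_eq_zero).1 h3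

end S8a

/-- S8a (reduction of a transition matrix between orthonormal families). -/
theorem stmt_SDetRed (h1 : Stmt_SGauss) (h2 : Stmt_SOrtho) : Stmt_SDetRed := by
  intro K F k E _ _ _ _ _ _ S t ht hunit n b x hb hx hlb hlx T hT
  classical
  obtain ⟨g1, -, -, -, -, g6, -⟩ := h1 K F k E S t ht hunit
  obtain ⟨-, ob⟩ := h2 K F k E S t ht hunit (Fin n) b hb hlb
  obtain ⟨lix, ox⟩ := h2 K F k E S t ht hunit (Fin n) x hx hlx
  -- entries of `T`
  have hTO : ∀ i j, (T i j : F) ∈ S.O := fun i => ob (T i) (by rw [← hT i]; exact hx i)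
  obtain ⟨hdet, hrdet⟩ := S8a_det (S := S) T hTO
  -- `T` is invertible
  have hdet0 : T.det ≠ 0 := by
    intro h0
    obtain ⟨v, hv0, hv⟩ := Matrix.exists_vecMul_eq_zero_iff.2 h0
    apply hv0
    have h3 : ∑ i, v i • x i = 0 := by
      have h4 : ∀ i, v i • x i = ∑ j, ((v i * T i j : K⟮t⟯) : F) * b j := by
        intro i
        rw [IntermediateField.smul_def, smul_eq_mul, hT i, Finset.mul_sum]
        refine Finset.sum_congr rfl fun j _ => ?_
        push_cast
        ring
      simp only [h4]
      rw [Finset.sum_comm]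
      refine Finset.sum_eq_zero fun j _ => ?_
      rw [← Finset.sum_mul]
      have h5 : ∑ i, v i * T i j = 0 := congrFun hv j
      have h6 : ∑ i, ((v i * T i j : K⟮t⟯) : F) = ((∑ i, v i * T i j : K⟮t⟯) : F) := by
        push_cast
        rfl
      rw [h6, h5]
      simp
    funext i
    exact Fintype.linearIndependent_iff.1 lix v h3 i
  have hTinv : T⁻¹ * T = 1 := Matrix.nonsing_inv_mul T (isUnit_iff_ne_zero.2 hdet0)
  have hbx : ∀ j, b j = ∑ i, ((T⁻¹ j i : K⟮t⟯) : F) * x i := by
    intro j
    have h4 : ∀ i, ((T⁻¹ j i : K⟮t⟯) : F) * x i = ∑ l, ((T⁻¹ j i * T i l : K⟮t⟯) : F) * b l := by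
      intro i
      rw [hT i, Finset.mul_sum]
      refine Finset.sum_congr rfl fun l _ => ?_
      push_cast
      ring
    simp only [h4]
    rw [Finset.sum_comm]
    have h5 : ∀ l, ∑ i, ((T⁻¹ j i * T i l : K⟮t⟯) : F) * b l
        = (((1 : Matrix (Fin n) (Fin n) K⟮t⟯) j l : K⟮t⟯) : F) * b l := by
      intro l
      rw [← Finset.sum_mul, ← hTinv, Matrix.mul_apply]
      push_cast
      rfl
    simp only [h5, Matrix.one_apply]
    rw [Finset.sum_eq_single j]
    · simp
    · intro l _ hl
      rw [if_neg (Ne.symm hl)]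
      simp
    · intro h
      exact absurd (Finset.mem_univ j) h
  have hTiO : ∀ j i, ((T⁻¹ j i : K⟮t⟯) : F) ∈ S.O :=
    fun j => ox (T⁻¹ j) (by rw [← hbx j]; exact hb j)
  have hdeti := (S8a_det (S := S) T⁻¹ hTiO).1
  refine ⟨hdet, ?_, ?_⟩
  · rw [Matrix.det_nonsing_inv, Ring.inverse_eq_inv'] at hdeti
    simpa using hdeti
  · intro d P hP
    -- the key claim
    have key : ∀ i j, aeval (S.rd t) (P i j) = aeval (S.rd t) d * S.rd (T i j : F) := by
      intro i
      have hg : ∀ j, ∃ W U : k[X], W ≠ 0 ∧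
          S.rd (T i j : F) * aeval (S.rd t) W = aeval (S.rd t) U := by
        intro j
        obtain ⟨Pp, Q, hQ, hPQ⟩ := g6 (T i j) (hTO i j)
        refine ⟨Q.map S.rA, Pp.map S.rA, hQ, ?_⟩
        rw [← (g1 Q).2, ← (g1 Pp).2, ← SData.rd_mul (hTO i j) (g1 Q).1, hPQ]
      choose W U hW hWU using hg
      have hrx : S.rd (x i) = ∑ j, S.rd (T i j : F) * S.rd (b j) := by
        rw [hT i, SData.rd_sum _ _ fun j _ => mul_mem (hTO i j) (hb j)]
        exact Finset.sum_congr rfl fun j _ => SData.rd_mul (hTO i j) (hb j)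
      have h0 := S8a_clear hlb hunit
        (fun j => aeval (S.rd t) d * S.rd (T i j : F) - aeval (S.rd t) (P i j)) W
        (fun j => d * U j - P i j * W j) hW
        (by
          intro j
          rw [sub_mul, mul_assoc, hWU, map_sub, map_mul, map_mul])
        (by
          simp only [sub_mul, Finset.sum_sub_distrib]
          rw [← hP i, hrx, Finset.mul_sum, sub_eq_zero]
          exact Finset.sum_congr rfl fun j _ => by ring)
      intro j
      exact (sub_eq_zero.1 (h0 j)).symm
    have e1 : aeval (S.rd t) P.det = ((aeval (S.rd t)).mapMatrix P).det :=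
      AlgHom.map_det (aeval (S.rd t)) P
    set Tb : Matrix (Fin n) (Fin n) E := Matrix.of fun i j => S.rd (T i j : F) with hTb
    have e2 : (aeval (S.rd t)).mapMatrix P = aeval (S.rd t) d • Tb := by
      ext i j
      exact key i j
    have e3 : S.rd ((T.det : K⟮t⟯) : F) = Tb.det := hrdet
    rw [e1, e2, Matrix.det_smul, Fintype.card_fin, e3]

end Fermat.Agent.BR.Inv
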