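import Fermat.Agent.BR.Inv.Interface

/-!
# BR / Inv, package S9 = step G' : `M(σ v / v ^ Q) ∩ O` contains an element reducing to `1`
-/

set_option autoImplicit false

namespace Fermat.Agent.BR.Inv

open Polynomial IntermediateField
open Fermat.Agent.INJ (IsInt LocPow RedData Arch)

/-- a ring endomorphism preserving the constants and `τ` preserves integrality over `k[τ]`. -/
theorem S9_map_int {k E : Type*} [CommRing k] [CommRing E] [Algebra k E] (τ : E) (σ : E →+* E)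
    (hτ : σ τ = τ) (hk : ∀ c : k, ∃ c' : k, σ (algebraMap k E c) = algebraMap k E c') {f : E}
    (hf : IsIntegral (Algebra.adjoin k {τ}) f) : IsIntegral (Algebra.adjoin k {τ}) (σ f) := by
  have hmem : ∀ x ∈ Algebra.adjoin k {τ}, σ x ∈ Algebra.adjoin k {τ} := by
    intro x hx
    induction hx using Algebra.adjoin_induction with
    | mem x hx => rw [Set.mem_singleton_iff.1 hx, hτ]; exact Algebra.subset_adjoin rfl
    | algebraMap c => obtain ⟨c', hc'⟩ := hk c; rw [hc']; exact Subalgebra.algebraMap_mem _ _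
    | add x y _ _ hx hy => rw [map_add]; exact add_mem hx hy
    | mul x y _ _ hx hy => rw [map_mul]; exact mul_mem hx hy
  exact IsIntegral.map_of_comp_eq (σ.restrict _ _ hmem) σ (by ext; rfl) hf

/-- if the `y j` generate the unit ideal of the subring `T`, so do their `Q`-th powers. -/
theorem S9_pow_unit {E : Type*} [CommRing E] (T : Subring E) {n : ℕ} (y a : Fin n → E)
    (hy : ∀ j, y j ∈ T) (ha : ∀ j, a j ∈ T) (h : ∑ j, a j * y j = 1) (Q : ℕ) :
    ∃ a' : Fin n → E, (∀ j, a' j ∈ T) ∧ ∑ j, a' j * y j ^ Q = 1 := by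
  have h1 : Ideal.span (Set.range fun j => (⟨y j, hy j⟩ : T)) = ⊤ := by
    rw [Ideal.eq_top_iff_one, Ideal.mem_span_range_iff_exists_fun]
    exact ⟨fun j => ⟨a j, ha j⟩, Subtype.ext (by simpa using h)⟩
  have h2 := Ideal.span_pow_eq_top _ h1 Q
  rw [← Set.range_comp, Ideal.eq_top_iff_one, Ideal.mem_span_range_iff_exists_fun] at h2
  obtain ⟨c, hc⟩ := h2
  refine ⟨fun j => c j, fun j => (c j).2, ?_⟩
  have := congrArg Subtype.val hc
  simpa using this

/-- **S9 = step G'.** -/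
theorem stmt_STriv (h7 : Stmt_SSetting) (h8 : Stmt_SInv) (hU : Stmt_UnitIdeal) (h1 : Stmt_SGauss)
    (hL : INJ.Stmt_MLattice) : Stmt_STriv := by
  intro K F k E _ _ _ _ _ _ _ _ _ S t hC hN σ σb Q hσ hNb v m hm hmk hv0 hv hv' hiv hiv' hLP
  have hnt := S.nontrivial
  obtain ⟨b, d, hbO, hbspan, hbli, hAS, hred, hlift⟩ := h7 K F k E S t hC hN
  obtain ⟨n, x, y, a, a', hx, hy, ha, ha', hsa, hsa'⟩ :=
    h8 K F k E S t hC hN v m hm hmk hv0 hv hv' hiv hiv' hLP
  obtain ⟨-, -, -, htr, -, -, -⟩ := h1 K F k E S t hC.t_mem hC.unit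
  -- `σ` and `σb` preserve integrality
  have hσint : ∀ z, IsInt K t z → IsInt K t (σ z) := fun z hz =>
    S9_map_int t σ hσ.map_t hσ.map_K hz
  have hσbτ : σb (S.rd t) = S.rd t := by rw [← hσ.rd t hC.t_mem, hσ.map_t]
  have hσbk : ∀ c : k, ∃ c' : k, σb (algebraMap k E c) = algebraMap k E c' := by
    intro c
    obtain ⟨a0, ha0, rfl⟩ := SData.exists_ra_eq (S := S) c
    obtain ⟨a1, ha1⟩ := hσ.map_K a0
    have hmem := hσ.mem _ (SData.algebraMap_mem ha0)
    rw [ha1] at hmem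
    have ha1A : a1 ∈ S.A := (S.mem_iff a1).1 hmem
    refine ⟨S.ra a1, ?_⟩
    rw [← SData.rd_algebraMap ha0, ← hσ.rd _ (SData.algebraMap_mem ha0), ha1,
      SData.rd_algebraMap ha1A]
  have hσbint : ∀ f, IsIntE k (S.rd t) f → IsIntE k (S.rd t) (σb f) := fun f hf =>
    S9_map_int (S.rd t) σb hσbτ hσbk hf
  -- the reductions of the `x i`, `y j` are integral
  have hint : ∀ x w : F, x ∈ S.O → w ≠ 0 → w ∈ S.O → w⁻¹ ∈ S.O → IsIntegral k (S.rd w⁻¹) →
      IsInt K t (x ^ m * w) → IsIntE k (S.rd t) (S.rd x) := by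
    intro x w hx hw0 hw hw' hiw hxw
    apply IsIntE.of_pow hm
    have h3 := hAS.isIntE_of_mem (hred _ (mul_mem (pow_mem hx m) hw) hxw)
    rw [SData.rd_mul (pow_mem hx m) hw, SData.rd_pow hx] at h3
    have h4 : S.rd x ^ m = S.rd w⁻¹ * (S.rd x ^ m * S.rd w) := by
      have := SData.rd_mul_rd_inv hw0 hw hw'
      calc _ = S.rd x ^ m * (S.rd w * S.rd w⁻¹) := by rw [this, mul_one]
        _ = _ := by ring
    rw [h4]
    exact IsIntE.mul (IsIntegral.tower_top hiw) h3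
  have hxb : ∀ i, IsIntE k (S.rd t) (S.rd (x i)) := fun i =>
    hint (x i) v (hx i).1 hv0 hv hv' hiv' (hx i).2
  have hyb : ∀ j, IsIntE k (S.rd t) (S.rd (y j)) := fun j =>
    hint (y j) v⁻¹ (hy j).1 (inv_ne_zero hv0) hv' (by rwa [inv_inv]) (by rwa [inv_inv]) (hy j).2
  -- the elements `w i j`
  have hwO : ∀ i j, σ (x i) * y j ^ Q ∈ S.O := fun i j =>
    mul_mem (hσ.mem _ (hx i).1) (pow_mem (hy j).1 Q)
  have hσv0 : σ v ≠ 0 := by rwa [Ne, map_eq_zero]
  have hu0 : σ v / v ^ Q ≠ 0 := div_ne_zero hσv0 (pow_ne_zero _ hv0)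
  have hwu : ∀ i j, IsInt K t ((σ (x i) * y j ^ Q) ^ m * (σ v / v ^ Q)) := by
    intro i j
    have h2 : (σ (x i) * y j ^ Q) ^ m * (σ v / v ^ Q) = σ (x i ^ m * v) * (y j ^ m * v⁻¹) ^ Q := by
      rw [map_mul, map_pow, div_eq_mul_inv, ← inv_pow]
      ring
    rw [h2]
    exact IsIntegral.mul (hσint _ (hx i).2) (IsIntegral.pow (hy j).2 Q)
  have hwrd : ∀ i j, S.rd (σ (x i) * y j ^ Q) = σb (S.rd (x i)) * S.rd (y j) ^ Q := fun i j => by
    rw [SData.rd_mul (hσ.mem _ (hx i).1) (pow_mem (hy j).1 Q), hσ.rd _ (hx i).1,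
      SData.rd_pow (hy j).1]
  have hzB : ∀ i j, σb (S.rd (x i)) * S.rd (y j) ^ Q ∈ Sp k (S.rd t) (fun l => S.rd (b l)) := by
    intro i j
    have h2 : σb (S.rd (x i)) * S.rd (y j) ^ Q
        = (σb (S.rd (x i)) - S.rd (x i) ^ Q) * S.rd (y j) ^ Q + S.rd ((x i * y j) ^ Q) := by
      rw [SData.rd_pow (mul_mem (hx i).1 (hy j).1), SData.rd_mul (hx i).1 (hy j).1]
      ring
    rw [h2]
    apply add_mem
    · obtain ⟨x0, hx0, hx0i, hx0r⟩ := hNb (S.rd (x i)) (S.rd (y j) ^ Q) (hxb i) ((hyb j).pow Q)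
      rw [← hx0r]
      exact hred x0 hx0 hx0i
    · apply hred _ (pow_mem (mul_mem (hx i).1 (hy j).1) Q)
      apply IsIntegral.pow
      apply IsIntegral.of_pow hm
      have h3 : (x i * y j) ^ m = (x i ^ m * v) * (y j ^ m * v⁻¹) := by
        have h4 : v * v⁻¹ = 1 := mul_inv_cancel₀ hv0
        linear_combination (-(x i ^ m * y j ^ m)) * h4
      rw [h3]
      exact IsIntegral.mul (hx i).2 (hy j).2
  -- the unit ideal of `Ot`
  obtain ⟨a'', ha'', hsa''⟩ := S9_pow_unit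
    (integralClosure (Algebra.adjoin k {S.rd t}) E).toSubring (fun j => S.rd (y j)) a' hyb ha'
    hsa' Q
  have hsum : ∑ l : Fin n × Fin n, (σb (a l.1) * a'' l.2) *
      (σb (S.rd (x l.1)) * S.rd (y l.2) ^ Q) = 1 := by
    have h2 : ∑ i, σb (a i) * σb (S.rd (x i)) = 1 := by
      rw [← map_one σb, ← hsa, map_sum]
      exact Finset.sum_congr rfl fun i _ => (map_mul σb _ _).symm
    rw [Fintype.sum_prod_type]
    calc _ = (∑ i, σb (a i) * σb (S.rd (x i))) * ∑ j, a'' j * S.rd (y j) ^ Q := by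
          rw [Finset.sum_mul_sum]
          exact Finset.sum_congr rfl fun i _ => Finset.sum_congr rfl fun j _ => by ring
      _ = 1 := by rw [h2, hsa'', one_mul]
  obtain ⟨β, hβ, hβs⟩ := hU k E (S.rd t) _ (fun l => S.rd (b l)) d hAS (Fin n × Fin n)
    (fun l => σb (S.rd (x l.1)) * S.rd (y l.2) ^ Q) (fun l => σb (a l.1) * a'' l.2)
    (fun l => hzB l.1 l.2) (fun l => (hσbint _ (ha l.1)).mul (ha'' l.2)) hsum
  choose βt hβtO hβti hβtr using fun l => hlift (β l) (hβ l)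
  obtain ⟨Λ, -, hΛ, -, -⟩ := hL K F t (σ v / v ^ Q) m htr hC.fin hu0 hm
  refine ⟨∑ l : Fin n × Fin n, βt l * (σ (x l.1) * y l.2 ^ Q), ?_, ?_, ?_⟩
  · exact sum_mem fun l _ => mul_mem (hβtO l) (hwO l.1 l.2)
  · rw [SData.rd_sum _ _ fun l _ => mul_mem (hβtO l) (hwO l.1 l.2), ← hβs]
    refine Finset.sum_congr rfl fun l _ => ?_
    rw [SData.rd_mul (hβtO l) (hwO l.1 l.2), hβtr, hwrd]
  · rw [← hΛ]
    refine sum_mem fun l _ => ?_
    rw [hΛ, mul_pow, mul_assoc]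
    exact IsIntegral.mul (IsIntegral.pow (hβti l) m) (hwu l.1 l.2)

end Fermat.Agent.BR.Inv
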