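import Fermat.Agent.BR.Inv.G
import Fermat.Agent.BR.Inv.AlgAll
import Fermat.Agent.BR.Inv.S0
import Fermat.Agent.BR.Inv.S1
import Fermat.Agent.BR.Inv.S2
import Fermat.Agent.BR.Inv.S4
import Fermat.Agent.BR.Inv.S5
import Fermat.Agent.BR.Inv.S6a
import Fermat.Agent.BR.Inv.S6
import Fermat.Agent.BR.Inv.S7
import Fermat.Agent.BR.Inv.S8a
import Fermat.Agent.BR.Inv.S8
import Fermat.Agent.BR.Inv.S9
import Fermat.Agent.BR.Inv.S10
import Fermat.Agent.BR.Inv.S11
import Fermat.Agent.BR.Inv.S12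
import Fermat.Agent.BR.Inv.S13
import Fermat.Agent.INJ.P8a
import Fermat.Agent.INJ.P8b
import Fermat.Agent.INJ.P9a
import Fermat.Agent.INJ.P9b
import Fermat.Agent.INJ.P11

/-!
# BR / Inv : unconditional forms of the packages S0–S13 and of Theorem G (abstract form)
(helper86, task INV-G, part 2)
-/

set_option autoImplicit false

namespace Fermat.Agent.BR.Inv

theorem GAll_SOrtho : Stmt_SOrtho := stmt_SOrtho stmt_SGauss

theorem GAll_SIntRed : Stmt_SIntRed := stmt_SIntRed stmt_SGauss GAll_SOrtho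

theorem GAll_SLift : Stmt_SLift := stmt_SLift stmt_SGauss GAll_SOrtho

theorem GAll_SRedLattice : Stmt_SRedLattice := stmt_SRedLattice stmt_SGauss GAll_SOrtho

theorem GAll_SBasis : Stmt_SBasis :=
  stmt_SBasis stmt_SGauss GAll_SOrtho GAll_SLift GAll_SRedLattice

theorem GAll_SSetting : Stmt_SSetting :=
  stmt_SSetting stmt_SGauss GAll_SIntRed GAll_SBasis INJ.stmt_MLattice

theorem GAll_SDetRed : Stmt_SDetRed := stmt_SDetRed stmt_SGauss GAll_SOrtho

theorem GAll_SInv : Stmt_SInv :=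
  stmt_SInv stmt_SGauss GAll_SOrtho GAll_SBasis GAll_SSetting GAll_SDetRed invAlg
    INJ.stmt_MLattice INJ.stmt_DetConst

theorem GAll_STriv : Stmt_STriv :=
  stmt_STriv GAll_SSetting GAll_SInv unitIdeal stmt_SGauss INJ.stmt_MLattice

theorem GAll_SBT : Stmt_SBT := stmt_SBT stmt_SGauss GAll_SOrtho INJ.stmt_BT0 INJ.stmt_Clear

theorem GAll_SFinal : Stmt_SFinal :=
  stmt_SFinal stmt_SGauss GAll_SBasis GAll_SBT stmt_SNewton INJ.stmt_MLattice INJ.stmt_Const

/-- **Theorem G (abstract form)**, unconditionally. -/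
theorem G_all : Stmt_G := stmt_G GAll_STriv GAll_SFinal stmt_SChartInv

end Fermat.Agent.BR.Inv
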