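import Fermat.Agent.BR.Inv.Interface
import Fermat.Agent.INJ.P12

/-!
# BR / Inv / S12 : glueing the two charts (`Stmt_SFinal`)

Sup-norm version of `INJ/P12.lean`.
-/

set_option autoImplicit false

namespace Fermat.Agent.BR.Inv

open Polynomial IntermediateField
open Fermat.Agent.INJ (IsInt LocPow RedData Arch P12_isInt_algebraMap P12_M_smul P12_M_add)

section Main

variable {K F k E : Type*} [Field K] [Field F] [Algebra K F] [Field k] [CommRing E] [Algebra k E]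
variable {S : SData K F k E}

theorem S12_natCast (n : ℕ) : (n : K) ∈ S.A ∧ S.ra (n : K) = (n : k) := by
  induction n with
  | zero => simp [S.A.zero_mem]
  | succ n ih =>
    refine ⟨by push_cast; exact add_mem ih.1 S.A.one_mem, ?_⟩
    push_cast
    rw [SData.ra_add ih.1 S.A.one_mem, ih.2, SData.ra_one]

theorem S12_isUnit {x : F} (h : S.rd x = 1) : IsUnit (S.rd x) := by
  rw [h]; exact isUnit_one

theorem S12_ne_zero {x : F} (h : S.rd x = 1) : x ≠ 0 :=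
  SData.ne_zero_of_isUnit_rd (S12_isUnit h)

theorem S12_mem {x : F} (h : S.rd x = 1) : x ∈ S.O :=
  SData.mem_of_isUnit_rd (S12_isUnit h)

theorem S12_exists_pi {b : F} (hb : S.rd b = 1) (hb1 : b ≠ 1) :
    ∃ π : K, π ≠ 0 ∧ π ∈ S.A ∧ S.ra π = 0 ∧ (b - 1) * (algebraMap K F π)⁻¹ ∈ S.O := by
  have hbO : b ∈ S.O := S12_mem hb
  have h0 : b - 1 ≠ 0 := sub_ne_zero.2 hb1
  have hrd : S.rd (b - 1) = 0 := by
    rw [SData.rd_sub hbO S.O.one_mem, hb, SData.rd_one, sub_self]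
  obtain ⟨π, h1, h2, h3, h4, -⟩ := SData.exists_small h0 (sub_mem hbO S.O.one_mem) hrd
  exact ⟨π, h1, h2, h3, h4⟩

theorem S12_common_pi {b b' : F} (hb : S.rd b = 1) (hb1 : b ≠ 1) (hb' : S.rd b' = 1)
    (hb1' : b' ≠ 1) :
    ∃ π : K, π ≠ 0 ∧ π ∈ S.A ∧ S.ra π = 0 ∧ (b - 1) * (algebraMap K F π)⁻¹ ∈ S.O ∧
      (b' - 1) * (algebraMap K F π)⁻¹ ∈ S.O := by
  obtain ⟨p, hp0, hpA, hpr, hp⟩ := S12_exists_pi hb hb1
  obtain ⟨p', hp0', hpA', hpr', hp'⟩ := S12_exists_pi hb' hb1'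
  have hq : algebraMap K F p ≠ 0 := (_root_.map_ne_zero _).2 hp0
  have hq' : algebraMap K F p' ≠ 0 := (_root_.map_ne_zero _).2 hp0'
  rcases S.A.mem_or_inv_mem (p / p') with h | h
  · refine ⟨p', hp0', hpA', hpr', ?_, hp'⟩
    have : (b - 1) * (algebraMap K F p')⁻¹
        = (b - 1) * (algebraMap K F p)⁻¹ * algebraMap K F (p / p') := by
      rw [map_div₀]; field_simp
    rw [this]; exact mul_mem hp (SData.algebraMap_mem h)
  · refine ⟨p, hp0, hpA, hpr, hp, ?_⟩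
    have : (b' - 1) * (algebraMap K F p)⁻¹
        = (b' - 1) * (algebraMap K F p')⁻¹ * algebraMap K F (p / p')⁻¹ := by
      rw [map_inv₀, map_div₀]; field_simp
    rw [this]; exact mul_mem hp' (SData.algebraMap_mem h)

theorem S12_eps {X X' u ϖ : F} {m : ℕ} (hmF : IsUnit (m : E)) (hu : S.rd u = 1)
    (hX : S.rd X = 1) (hX' : S.rd X' = 1)
    (h : (X ^ m * u - 1) * ϖ⁻¹ ∈ S.O) (h' : (X' ^ m * u - 1) * ϖ⁻¹ ∈ S.O) :
    (X' - X) * ϖ⁻¹ ∈ S.O := by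
  have hXO : X ∈ S.O := S12_mem hX
  have hXO' : X' ∈ S.O := S12_mem hX'
  have huO : u ∈ S.O := S12_mem hu
  have hX0 : X ≠ 0 := S12_ne_zero hX
  have hu0 : u ≠ 0 := S12_ne_zero hu
  obtain ⟨w, hw⟩ : ∃ w, w = X' / X := ⟨_, rfl⟩
  have hwO : w ∈ S.O := by rw [hw]; exact SData.div_mem hXO' (S12_isUnit hX)
  have hw1 : S.rd w = 1 := by
    rw [hw, SData.rd_div_of_rd_eq_one hXO' hX, hX']
  obtain ⟨g, hg⟩ : ∃ g, g = ∑ i ∈ Finset.range m, w ^ i := ⟨_, rfl⟩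
  have hgO : g ∈ S.O := by rw [hg]; exact SData.sum_mem _ _ fun i _ => pow_mem hwO i
  have hg1 : S.rd g = (m : E) := by
    rw [hg, SData.rd_sum _ _ fun i _ => pow_mem hwO i]
    simp [SData.rd_pow hwO, hw1]
  have hgU : IsUnit (S.rd g) := by rw [hg1]; exact hmF
  have hginv : g⁻¹ ∈ S.O := SData.inv_mem_of_isUnit_rd hgU
  have hg0 : g ≠ 0 := SData.ne_zero_of_isUnit_rd hgU
  obtain ⟨c, hc⟩ : ∃ c, c = X ^ m * u := ⟨_, rfl⟩
  have hc1 : S.rd c = 1 := by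
    rw [hc, SData.rd_mul (pow_mem hXO m) huO, SData.rd_pow hXO, hX, hu]; simp
  have hcinv : c⁻¹ ∈ S.O := SData.inv_mem_of_isUnit_rd (S12_isUnit hc1)
  have hc0 : c ≠ 0 := S12_ne_zero hc1
  have hgeom : (w - 1) * g = w ^ m - 1 := by rw [hg]; exact mul_geom_sum w m
  have key : (X' - X) * ϖ⁻¹
      = X * g⁻¹ * c⁻¹ * ((X' ^ m * u - 1) * ϖ⁻¹ - (X ^ m * u - 1) * ϖ⁻¹) := by
    have e1 : X' - X = X * (w - 1) := by rw [hw]; field_simp
    have e2 : w - 1 = (w ^ m - 1) * g⁻¹ := by rw [← hgeom]; field_simp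
    have e3 : w ^ m - 1 = (X' ^ m * u - c) * c⁻¹ := by
      have hXm : X ^ m ≠ 0 := pow_ne_zero _ hX0
      rw [hw, hc, div_pow, mul_inv]
      field_simp
    rw [e1, e2, e3, ← hc]; ring
  rw [key]
  exact mul_mem (mul_mem (mul_mem hXO hginv) hcinv) (sub_mem h' h)

end Main

theorem stmt_SFinal (h1 : Stmt_SGauss) (h6 : Stmt_SBasis) (h10 : Stmt_SBT) (h11 : Stmt_SNewton)
    (hL : INJ.Stmt_MLattice) (hC : INJ.Stmt_Const) : Stmt_SFinal := by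
  intro K F k E _ _ _ _ _ _ _ _ S t hCh hCh' hArch u m hm hmk hu hx hx'
  obtain ⟨x, hxO, hx1, hxI⟩ := hx
  obtain ⟨x', hxO', hx1', hxI'⟩ := hx'
  have huO : u ∈ S.O := S12_mem hu
  have hu0 : u ≠ 0 := S12_ne_zero hu
  have htrans : Transcendental K t := (h1 K F k E S t hCh.t_mem hCh.unit).2.2.2.1
  have := hCh.fin
  obtain ⟨Λ, l, hΛ, hlspan, hllin⟩ := hL K F t u m htrans hCh.fin hu0 hm
  obtain ⟨e, heO, hespan, -, helin, -, -⟩ := h6 K F k E S t hCh Λ l hlspan hllin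
  have he : ∀ i, e i ∈ S.O ∧ IsInt K t (e i ^ m * u) := fun i =>
    ⟨heO i, (hΛ _).1 (by rw [← hespan]; exact Submodule.subset_span ⟨i, rfl⟩)⟩
  have hspan : ∀ x, IsInt K t (x ^ m * u) →
      x ∈ Submodule.span (Algebra.adjoin K {t}) (Set.range e) := fun x hx => by
    rw [hespan]; exact (hΛ x).2 hx
  by_cases hb1 : x ^ m * u = 1
  · exact ⟨x⁻¹, by rw [inv_pow]; exact (eq_inv_of_mul_eq_one_right hb1).symm⟩
  by_cases hb1' : x' ^ m * u = 1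
  · exact ⟨x'⁻¹, by rw [inv_pow]; exact (eq_inv_of_mul_eq_one_right hb1').symm⟩
  have hb : S.rd (x ^ m * u) = 1 := by
    rw [SData.rd_mul (pow_mem hxO m) huO, SData.rd_pow hxO, hx1, hu]; simp
  have hb' : S.rd (x' ^ m * u) = 1 := by
    rw [SData.rd_mul (pow_mem hxO' m) huO, SData.rd_pow hxO', hx1', hu]; simp
  obtain ⟨π, hπ0, hπA, hπr, hπ1, hπ2⟩ := S12_common_pi hb hb1 hb' hb1'
  have hmK : (m : K) ≠ 0 := Nat.cast_ne_zero.2 hm.ne'
  have hmF : IsUnit (m : E) := by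
    have : (m : E) = algebraMap k E (m : k) := (map_natCast _ m).symm
    rw [this]; exact (isUnit_iff_ne_zero.2 hmk).map (algebraMap k E)
  have hmA : (m : K)⁻¹ ∈ S.A := by
    apply SData.inv_mem_of_ra_ne_zero
    rw [(S12_natCast m).2]; exact hmk
  obtain ⟨a₀, ha0, haA, hBT⟩ := h10 K F k E S t hCh.t_mem hCh'.t_mem hCh.unit hCh.fin u m hu0 hm _ e
    he hspan helin
  obtain ⟨n, hn⟩ := hArch π hπA hπr a₀ ha0
  obtain ⟨X, hXO, hXI, hXN, hX1⟩ := h11 K F k E S t u m hmK hmA π hπ0 hπA hπr x hxO hxI hπ1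
    (n + 1) (Nat.succ_pos n)
  obtain ⟨X', hXO', hXI', hXN', hX1'⟩ := h11 K F k E S t⁻¹ u m hmK hmA π hπ0 hπA hπr x' hxO' hxI'
    hπ2 (n + 1) (Nat.succ_pos n)
  rw [hx1] at hX1
  rw [hx1'] at hX1'
  have hπF : algebraMap K F π ≠ 0 := (_root_.map_ne_zero _).2 hπ0
  have haF : algebraMap K F a₀ ≠ 0 := (_root_.map_ne_zero _).2 ha0
  have hϖ : algebraMap K F π ^ (n + 1) ≠ 0 := pow_ne_zero _ hπF
  have hdiff := S12_eps hmF hu hX1 hX1' hXN hXN'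
  obtain ⟨μ, μ', hμO, hμI, hμO', hμI', hμ⟩ := hBT X X' (π ^ (n + 1)) (pow_ne_zero _ hπ0) hXO hXI
    hXO' hXI' (by rw [map_pow]; exact hdiff)
  obtain ⟨a1, ha1⟩ : ∃ a1 : K, a1 = π * (π ^ n * a₀⁻¹) := ⟨_, rfl⟩
  have hXX : X' - X = algebraMap K F a1 * (μ + μ') := by
    rw [← hμ, ha1]
    simp only [map_mul, map_pow, map_inv₀]
    field_simp
    ring
  obtain ⟨y, hy⟩ : ∃ y, y = X + algebraMap K F a1 * μ := ⟨_, rfl⟩
  have hy' : y = X' + algebraMap K F (-a1) * μ' := by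
    rw [hy, map_neg]
    linear_combination -hXX
  have hyI : IsInt K t (y ^ m * u) := by
    rw [hy]; exact P12_M_add hm hXI (P12_M_smul a1 hμI)
  have hyI' : IsInt K t⁻¹ (y ^ m * u) := by
    rw [hy']; exact P12_M_add hm hXI' (P12_M_smul (-a1) hμI')
  have hy1 : S.rd y = 1 := by
    have e1 : algebraMap K F a1 * μ
        = algebraMap K F π * (algebraMap K F (π ^ n * a₀⁻¹) * μ) := by
      rw [ha1, map_mul]; ring
    have m1 : algebraMap K F (π ^ n * a₀⁻¹) * μ ∈ S.O :=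
      mul_mem (SData.algebraMap_mem hn) hμO
    have m2 : algebraMap K F π ∈ S.O := SData.algebraMap_mem hπA
    rw [hy, e1, SData.rd_add hXO (mul_mem m2 m1), SData.rd_mul m2 m1,
      SData.rd_algebraMap hπA, hπr, map_zero, zero_mul, add_zero, hX1]
  obtain ⟨c, hc⟩ := hC K F t (y ^ m * u) htrans hCh.fin hyI hyI'
  obtain ⟨c1, hc1⟩ := IsAlgClosed.exists_pow_nat_eq c hm
  have hy0 : y ≠ 0 := S12_ne_zero hy1
  refine ⟨algebraMap K F c1 / y, ?_⟩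
  rw [div_pow, ← map_pow, hc1, ← hc]
  field_simp

end Fermat.Agent.BR.Inv
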