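import Fermat.Agent.BR.Inv.TCInterface

/-!
# BR / Inv / TC-8 : the degree of `F` over `K(xy)`
-/

set_option autoImplicit false

namespace Fermat.Agent.BR.Inv

open Polynomial IntermediateField

theorem stmt_TCFin : Stmt_TCFin := by
  intro K F _ _ _ x y n' D₂ β hx hP hspan
  obtain ⟨P, hPm, hPd, hPx⟩ := hP
  have hint : IsIntegral K⟮x * y⟯ x := ⟨P, hPm, hPx⟩
  have hfinE : FiniteDimensional K⟮x * y⟯ (IntermediateField.adjoin K⟮x * y⟯ {x}) :=
    IntermediateField.adjoin.finiteDimensional hint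
  have hrankE : Module.finrank K⟮x * y⟯ (IntermediateField.adjoin K⟮x * y⟯ {x}) ≤ D₂ := by
    rw [IntermediateField.adjoin.finrank hint, ← hPd]
    exact natDegree_le_natDegree (minpoly.min K⟮x * y⟯ x hPm hPx)
  generalize hE : IntermediateField.adjoin K⟮x * y⟯ {x} = E at hfinE hrankE
  have hxE : x ∈ E := hE ▸ mem_adjoin_simple_self K⟮x * y⟯ x
  have hTE : x * y ∈ E :=
    E.algebraMap_mem (⟨x * y, mem_adjoin_simple_self K (x * y)⟩ : K⟮x * y⟯)
  have hyE : y ∈ E := by
    have h2 : x⁻¹ * (x * y) ∈ E := E.mul_mem (E.inv_mem hxE) hTE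
    have h3 : ∀ w : F, w = x⁻¹ * (x * y) → w ∈ E := fun w hw => hw.symm ▸ h2
    exact h3 y (by field_simp)
  have hKy : ∀ c : K⟮y⟯, (c : F) ∈ E := by
    have h1 : K⟮y⟯ ≤ E.restrictScalars K := by
      rw [adjoin_simple_le_iff]
      exact hyE
    intro c
    exact h1 c.2
  have htop : Submodule.span E (Set.range β) = ⊤ := by
    rw [eq_top_iff]
    intro z _
    obtain ⟨e, c, rfl⟩ := hspan z
    refine Submodule.sum_mem _ fun i _ => Submodule.sum_mem _ fun l _ => ?_
    have h1 : (c i l : F) * (x ^ (i : ℕ) * β l)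
        = (⟨(c i l : F) * x ^ (i : ℕ), E.mul_mem (hKy _) (pow_mem hxE _)⟩ : E) • β l := by
      rw [IntermediateField.smul_def, smul_eq_mul, mul_assoc]
    rw [h1]
    exact Submodule.smul_mem _ _ (Submodule.subset_span ⟨l, rfl⟩)
  have hfinF : Module.Finite E F := by
    classical
    exact ⟨⟨Finset.univ.image β, by rw [Finset.coe_image, Finset.coe_univ, Set.image_univ, htop]⟩⟩
  have hrankF : Module.finrank E F ≤ n' := by
    have h1 := finrank_range_le_card (R := E) β
    rw [Set.finrank, htop, finrank_top, Fintype.card_fin] at h1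
    exact h1
  have hfin : Module.Finite K⟮x * y⟯ F := Module.Finite.trans E F
  refine ⟨hfin, ?_⟩
  rw [← Module.finrank_mul_finrank K⟮x * y⟯ E F]
  exact Nat.mul_le_mul hrankE hrankF

end Fermat.Agent.BR.Inv
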