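import Fermat.Agent.BR.Inv.TCInterface

/-!
# BR / Inv / TC9 + TC10 : transfer of normality, a chart only depends on the fields
-/

set_option autoImplicit false

namespace Fermat.Agent.BR.Inv

open Polynomial IntermediateField
open Fermat.Agent.INJ (IsInt LocPow RedData Arch Chart)

section TC9

variable {K F : Type*} [Field K] [Field F] [Algebra K F]

/-- transitivity of integrality: `s` integral over `K[t]`, `x` integral over `K[s]`. -/
theorem TC9_trans {t s x : F} (hs : IsInt K t s) (hx : IsInt K s x) : IsInt K t x := by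
  unfold IsInt at *
  set R := Algebra.adjoin K {t} with hR
  let C : Subalgebra R F := integralClosure R F
  have hK : ∀ a : K, algebraMap K F a ∈ C := fun a =>
    isIntegral_algebraMap (R := R) (x := (algebraMap K R a))
  have hle : ∀ y ∈ Algebra.adjoin K {s}, y ∈ C := by
    intro y hy
    induction hy using Algebra.adjoin_induction with
    | mem y hy => rw [Set.mem_singleton_iff] at hy; subst hy; exact hs
    | algebraMap a => exact hK a
    | add y z _ _ hy hz => exact C.add_mem hy hz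
    | mul y z _ _ hy hz => exact C.mul_mem hy hz
  obtain ⟨p, hp, hpx⟩ := hx
  have hxC : IsIntegral C x := by
    let φ : Algebra.adjoin K {s} →+* C :=
      { toFun := fun y => ⟨y.1, hle y.1 y.2⟩
        map_one' := rfl
        map_mul' := fun _ _ => rfl
        map_zero' := rfl
        map_add' := fun _ _ => rfl }
    refine ⟨p.map φ, hp.map φ, ?_⟩
    rw [Polynomial.eval₂_map]
    exact hpx
  exact isIntegral_trans (R := R) (A := C) x hxC

theorem TC9_isInt_mul {t x y : F} (hx : IsInt K t x) (hy : IsInt K t y) : IsInt K t (x * y) :=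
  IsIntegral.mul hx hy

theorem TC9_isInt_add {t x y : F} (hx : IsInt K t x) (hy : IsInt K t y) : IsInt K t (x + y) :=
  IsIntegral.add hx hy

theorem TC9_isInt_pow {t x : F} (hx : IsInt K t x) (n : ℕ) : IsInt K t (x ^ n) :=
  IsIntegral.pow hx n

theorem TC9_isInt_algebraMap (t : F) (c : K) : IsInt K t (algebraMap K F c) :=
  isIntegral_algebraMap (R := Algebra.adjoin K {t}) (x := (algebraMap K (Algebra.adjoin K {t}) c))

/-- every element of `K[X]` becomes integral over `K[τ]` after multiplication by a power of `U`. -/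
theorem TC9_clear {τ X U : F} {a : ℕ} (hU : IsInt K τ U) (hW : IsInt K τ (X * U ^ a)) :
    ∀ b ∈ Algebra.adjoin K {X}, ∃ E : ℕ, IsInt K τ (U ^ E * b) := by
  intro b hb
  induction hb using Algebra.adjoin_induction with
  | mem y hy =>
    rw [Set.mem_singleton_iff] at hy; subst hy
    exact ⟨a, by rw [mul_comm]; exact hW⟩
  | algebraMap c => exact ⟨0, by rw [pow_zero, one_mul]; exact TC9_isInt_algebraMap τ c⟩
  | add y z _ _ hy hz =>
    obtain ⟨E₁, h₁⟩ := hy
    obtain ⟨E₂, h₂⟩ := hz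
    refine ⟨E₁ + E₂, ?_⟩
    have e : U ^ (E₁ + E₂) * (y + z) = U ^ E₂ * (U ^ E₁ * y) + U ^ E₁ * (U ^ E₂ * z) := by ring
    rw [e]
    exact TC9_isInt_add (TC9_isInt_mul (TC9_isInt_pow hU _) h₁)
      (TC9_isInt_mul (TC9_isInt_pow hU _) h₂)
  | mul y z _ _ hy hz =>
    obtain ⟨E₁, h₁⟩ := hy
    obtain ⟨E₂, h₂⟩ := hz
    refine ⟨E₁ + E₂, ?_⟩
    have e : U ^ (E₁ + E₂) * (y * z) = (U ^ E₁ * y) * (U ^ E₂ * z) := by ring
    rw [e]
    exact TC9_isInt_mul h₁ h₂

/-- an element integral over `K[X]` becomes integral over `K[τ]` after multiplication by a power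
of `U`. -/
theorem TC9_scale {τ X U y : F} {a : ℕ} (hU : IsInt K τ U) (hW : IsInt K τ (X * U ^ a))
    (hy : IsInt K X y) : ∃ E : ℕ, IsInt K τ (U ^ E * y) := by
  obtain ⟨q, hq, hroot⟩ := hy
  choose E hE using fun i : ℕ => TC9_clear hU hW (q.coeff i).1 (q.coeff i).2
  set E₀ : ℕ := (Finset.range (q.natDegree + 1)).sup E with hE₀
  set p : F[X] := q.map (algebraMap (Algebra.adjoin K {X}) F) with hp
  have hpm : p.Monic := hq.map _
  have hcoef : ∀ i, IsInt K τ (U ^ E₀ * p.coeff i) := by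
    intro i
    by_cases hi : i ≤ q.natDegree
    · have hle : E i ≤ E₀ := Finset.le_sup (f := E) (Finset.mem_range.2 (Nat.lt_succ_of_le hi))
      have e : U ^ E₀ * p.coeff i = U ^ (E₀ - E i) * (U ^ E i * (q.coeff i).1) := by
        rw [← mul_assoc, ← pow_add, Nat.sub_add_cancel hle, hp, coeff_map]
        rfl
      rw [e]
      exact TC9_isInt_mul (TC9_isInt_pow hU _) (hE i)
    · have h0 : p.coeff i = 0 := by
        rw [hp, coeff_map, coeff_eq_zero_of_natDegree_lt (not_le.1 hi), map_zero]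
      rw [h0, mul_zero]
      exact isIntegral_zero
  refine ⟨E₀, ?_⟩
  set σ : F := U ^ E₀ with hσ
  have hσi : IsInt K τ σ := TC9_isInt_pow hU _
  set R := Algebra.adjoin K {τ} with hR
  let C : Subalgebra R F := integralClosure R F
  have hmon : (p.scaleRoots σ).Monic := (monic_scaleRoots_iff σ).2 hpm
  have hlift : p.scaleRoots σ ∈ Polynomial.lifts (algebraMap C F) := by
    rw [Polynomial.lifts_iff_coeff_lifts]
    intro i
    have hmem : (p.scaleRoots σ).coeff i ∈ C := by
      rw [coeff_scaleRoots]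
      rcases lt_trichotomy i p.natDegree with hi | hi | hi
      · obtain ⟨m, hm⟩ : ∃ m, p.natDegree - i = m + 1 := ⟨p.natDegree - i - 1, by omega⟩
        rw [hm, pow_succ]
        have e : p.coeff i * (σ ^ m * σ) = σ * p.coeff i * σ ^ m := by ring
        rw [e]
        exact C.mul_mem (hcoef i) (C.pow_mem hσi m)
      · rw [hi, hpm.coeff_natDegree, Nat.sub_self, pow_zero, mul_one]
        exact C.one_mem
      · rw [coeff_eq_zero_of_natDegree_lt hi, zero_mul]
        exact C.zero_mem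
    exact ⟨⟨_, hmem⟩, rfl⟩
  obtain ⟨q', hq'map, -, hq'mon⟩ := Polynomial.lifts_and_natDegree_eq_and_monic hlift hmon
  have hpy : p.eval y = 0 := by
    rw [hp, eval_map]; exact hroot
  have hz : (p.scaleRoots σ).eval (σ * y) = 0 := by
    have h := scaleRoots_eval₂_eq_zero (RingHom.id F) (p := p) (r := y) (s := σ)
      (by rw [eval₂_id]; exact hpy)
    rw [eval₂_id] at h
    exact h
  have hC : IsIntegral C (σ * y) := ⟨q', hq'mon, by rw [← eval_map, hq'map]; exact hz⟩
  exact isIntegral_trans (R := R) (A := C) _ hC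

end TC9

/-- **TC9** : transfer of normality. -/
theorem stmt_TCNormal : Stmt_TCNormal := by
  intro K F k Fb _ _ _ _ _ _ D t x u a hN hx hu hu0 hxt hxu hU hW yb hyb
  obtain ⟨E, hE⟩ := TC9_scale hU hW hyb
  obtain ⟨y₁, hy₁O, hy₁i, hy₁⟩ := hN _ hE
  have huinv : u⁻¹ ∈ D.O := RedData.inv_mem_of_rd_ne_zero hu0
  refine ⟨y₁ * u⁻¹ ^ E, mul_mem hy₁O (pow_mem huinv E), ?_, ?_⟩
  · exact TC9_isInt_mul (TC9_trans hxt hy₁i) (TC9_isInt_pow hxu E)
  · rw [RedData.rd_mul hy₁O (pow_mem huinv E), RedData.rd_pow huinv, RedData.rd_inv hu0, hy₁,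
      inv_pow, mul_comm (D.rd u ^ E) yb, mul_assoc, mul_inv_cancel₀ (pow_ne_zero E hu0), mul_one]

section TC10

theorem TC10_aux {K F k Fb : Type*} [Field K] [Field F] [Algebra K F] [Field k] [Field Fb]
    [Algebra k Fb] (E₁ E₂ : IntermediateField K F) (G₁ G₂ : IntermediateField k Fb)
    (h : E₁ = E₂) (h' : G₁ = G₂) (hfin : FiniteDimensional E₂ F)
    (hdeg : ∃ e : Fin (Module.finrank E₂ F) → Fb, LinearIndependent G₂ e)
    (hsep : Algebra.IsSeparable G₂ Fb) :
    FiniteDimensional E₁ F ∧ (∃ e : Fin (Module.finrank E₁ F) → Fb, LinearIndependent G₁ e) ∧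
      Algebra.IsSeparable G₁ Fb := by
  subst h; subst h'
  exact ⟨hfin, hdeg, hsep⟩

theorem TC10_trans {k Fb : Type*} [Field k] [Field Fb] [Algebra k Fb] {X S : Fb}
    (h : k⟮X⟯ = k⟮S⟯) (hS : Transcendental k S) : Transcendental k X := by
  intro hX
  apply hS
  have halg : Algebra.IsAlgebraic k k⟮X⟯ :=
    IntermediateField.isAlgebraic_adjoin_simple hX.isIntegral
  have hmem : S ∈ k⟮X⟯ := by
    rw [h]; exact IntermediateField.mem_adjoin_simple_self k S
  have h1 : IsAlgebraic k (⟨S, hmem⟩ : k⟮X⟯) := Algebra.IsAlgebraic.isAlgebraic _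
  exact h1.algebraMap (A := Fb)

end TC10

/-- **TC10** : a chart only depends on the fields `K(t)`, `k(rd t)`. -/
theorem stmt_TCChartCongr : Stmt_TCChartCongr := by
  intro K F k Fb _ _ _ _ _ _ D s x hc hx h h'
  obtain ⟨h1, h2, h3⟩ := TC10_aux _ _ _ _ h h' hc.fin hc.deg hc.sep
  exact ⟨hx, TC10_trans h' hc.trans, h1, h2, h3⟩

end Fermat.Agent.BR.Inv

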